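import Fermat.Agent.DR.Abs.Defs

/-!
# DR/Abs leaf A2: basic properties of a family of reductions
(port of `GAL/RED/Basic.lean`, `GAL/RED/Lift.lean` from one valuation to a family: apply the lemmas of
`RedData` componentwise).
-/

set_option autoImplicit false

namespace Fermat.Agent.DR.Abs

open AlgebraicCurve Fermat.Agent.Lib.RR Fermat.Agent.GAL.RED

variable {K F k : Type*} [Field K] [Field F] [Algebra K F] [Field k] {ι : Type*}
  {Fb : ι → Type*} [∀ i, Field (Fb i)] [∀ i, Algebra k (Fb i)]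

namespace MultiRed

variable (T : MultiRed K F k Fb)

theorem red_zero : T.red 0 = 0 := by
  funext i
  exact (T.R i).red_zero

theorem red_one : T.red 1 = 1 := by
  funext i
  exact (T.R i).red_one

theorem red_add {y z : F} (hy : y ∈ T.O) (hz : z ∈ T.O) : T.red (y + z) = T.red y + T.red z := by
  funext i
  exact (T.R i).red_add (hy i) (hz i)

theorem red_sub {y z : F} (hy : y ∈ T.O) (hz : z ∈ T.O) : T.red (y - z) = T.red y - T.red z := by
  funext i
  exact (T.R i).red_sub (hy i) (hz i)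

theorem red_neg (y : F) : T.red (-y) = -T.red y := by
  funext i
  exact (T.R i).red_neg y

theorem red_mul {y z : F} (hy : y ∈ T.O) (hz : z ∈ T.O) : T.red (y * z) = T.red y * T.red z := by
  funext i
  exact (T.R i).red_mul (hy i) (hz i)

theorem red_pow (y : F) (n : ℕ) : T.red (y ^ n) = T.red y ^ n := by
  funext i
  exact (T.R i).red_pow y n

theorem red_sum {κ : Type*} (s : Finset κ) (y : κ → F) (hy : ∀ j ∈ s, y j ∈ T.O) :
    T.red (∑ j ∈ s, y j) = ∑ j ∈ s, T.red (y j) := by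
  funext i
  rw [Finset.sum_apply]
  exact (T.R i).red_sum s y (fun j hj => hy j hj i)

theorem smul_mem {a : K} (ha : a ∈ T.A) {y : F} (hy : y ∈ T.O) : a • y ∈ T.O :=
  fun i => (T.R i).smul_mem ((T.mem_A_iff i).2 ha) (hy i)

theorem red_smul {a : K} (ha : a ∈ T.A) {y : F} (hy : y ∈ T.O) :
    T.red (a • y) = T.redA a • T.red y := by
  funext i
  rw [red_apply, (T.R i).red_smul ((T.mem_A_iff i).2 ha) (hy i), T.redA_eq i]
  rfl

theorem algebraMap_mem {a : K} (ha : a ∈ T.A) : algebraMap K F a ∈ T.O :=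
  fun i => (T.R i).algebraMap_mem a ((T.mem_A_iff i).2 ha)

theorem red_algebraMap (a : K) (i : ι) : T.red (algebraMap K F a) i = algebraMap k (Fb i) (T.redA a) := by
  rw [red_apply, (T.R i).red_algebraMap', T.redA_eq i]

/-- an element of the maximal ideal of `A` kills the reduction. -/
theorem red_smul_of_small {a : K} (ha : a ∈ T.A) (ha' : a⁻¹ ∉ T.A) {y : F} (hy : y ∈ T.O) :
    T.red (a • y) = 0 := by
  funext i
  have h0 : (T.R i).redA a = 0 := by
    by_contra h
    exact ha' ((T.mem_A_iff i).1 ((T.R i).redA_ne_zero_iff.1 h).2.2)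
  rw [red_apply, (T.R i).red_smul ((T.mem_A_iff i).2 ha) (hy i), h0, zero_smul]
  rfl

/-- if all the reductions of `y` are nonzero then `y` is a unit of `T.O`. -/
theorem inv_mem_of_red_ne_zero {y : F} (hy : ∀ i, T.red y i ≠ 0) : y⁻¹ ∈ T.O :=
  fun i => (T.R i).inv_mem_of_red_ne_zero (hy i)

theorem mem_of_red_ne_zero {y : F} (hy : ∀ i, T.red y i ≠ 0) : y ∈ T.O :=
  fun i => (T.R i).mem_of_red_ne_zero (hy i)

theorem red_inv (y : F) : T.red y⁻¹ = (T.red y)⁻¹ := by
  funext i
  exact (T.R i).red_inv y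

theorem redSub_mono {L L' : Submodule K F} (h : L ≤ L') : T.redSub L ≤ T.redSub L' := by
  rintro _ ⟨y, hyL, hyO, rfl⟩
  exact ⟨y, h hyL, hyO, rfl⟩

variable [Nonempty ι]

theorem redA_one : T.redA 1 = 1 := by
  obtain ⟨i⟩ := ‹Nonempty ι›
  rw [← T.redA_eq i]
  exact (T.R i).redA_one

theorem redA_ne_zero_iff {a : K} : T.redA a ≠ 0 ↔ a ≠ 0 ∧ a ∈ T.A ∧ a⁻¹ ∈ T.A := by
  obtain ⟨i⟩ := ‹Nonempty ι›
  rw [← T.redA_eq i, (T.R i).redA_ne_zero_iff, T.mem_A_iff i, T.mem_A_iff i]

/-- scaling of a finite family of constants. -/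
theorem Basic_exists_scale_family {κ : Type*} [Finite κ] (c : κ → K) (hc : c ≠ 0) :
    ∃ a : K, a ≠ 0 ∧ (∀ j, a * c j ∈ T.A) ∧ ∃ j, T.redA (a * c j) ≠ 0 := by
  obtain ⟨i₀⟩ := ‹Nonempty ι›
  obtain ⟨a, ha, hmem, j, hj⟩ := (T.R i₀).exists_scale_family c hc
  exact ⟨a, ha, fun j => (T.mem_A_iff i₀).1 (hmem j), j, by rwa [← T.redA_eq i₀]⟩

/-- as `RedData.linearIndependent_of_red`: divide a nontrivial relation by a coefficient of maximal
absolute value (`RedData.exists_scale_family`) and reduce. -/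
theorem linearIndependent_of_red {κ : Type*} {z : κ → F} (hz : ∀ j, z j ∈ T.O)
    (h : LinearIndependent k (fun j => T.red (z j))) : LinearIndependent K z := by
  rw [linearIndependent_iff'] at h ⊢
  intro s g hg
  by_contra hcon
  push Not at hcon
  obtain ⟨i₀, hi₀, hgi₀⟩ := hcon
  have hc : (fun i : s => g i) ≠ 0 := fun h0 => hgi₀ (congrFun h0 ⟨i₀, hi₀⟩)
  obtain ⟨a, -, hmem, ⟨i₁, hi₁⟩, hne⟩ := T.Basic_exists_scale_family (fun i : s => g i) hc
  have hmem' : ∀ i ∈ s, a * g i ∈ T.A := fun i hi => hmem ⟨i, hi⟩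
  have h1 : ∑ i ∈ s, (a * g i) • z i = 0 := by
    simp_rw [mul_smul]
    rw [← Finset.smul_sum, hg, smul_zero]
  have h2 : ∑ i ∈ s, T.redA (a * g i) • T.red (z i) = 0 := by
    have h3 := T.red_sum s (fun i => (a * g i) • z i)
      (fun i hi => T.smul_mem (hmem' i hi) (hz i))
    rw [h1, red_zero] at h3
    rw [h3]
    exact Finset.sum_congr rfl fun i hi => (T.red_smul (hmem' i hi) (hz i)).symm
  exact hne (h s (fun i => T.redA (a * g i)) h2 i₁ hi₁)

theorem Basic_rank_redSub_le (L : Submodule K F) [Module.Finite K L] :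
    Module.rank k (T.redSub L) ≤ (Module.finrank K L : ℕ) := by
  apply rank_le
  intro s hs
  have hex : ∀ i : s, ∃ f : F, f ∈ L ∧ f ∈ T.O ∧ T.red f = ((i : T.redSub L) : ∀ i, Fb i) :=
    fun i => (i : T.redSub L).2
  choose f hfL hfO hfr using hex
  have h1 : LinearIndependent k (fun i : s => T.red (f i)) := by
    have h2 : LinearIndependent k (fun i : s => ((i : T.redSub L) : ∀ i, Fb i)) :=
      hs.map' (T.redSub L).subtype (Submodule.ker_subtype _)
    simpa only [hfr] using h2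
  have h3 : LinearIndependent K f := T.linearIndependent_of_red hfO h1
  have h4 : LinearIndependent K (fun i : s => (⟨f i, hfL i⟩ : L)) :=
    LinearIndependent.of_comp L.subtype h3
  have h5 := h4.fintype_card_le_finrank
  simpa using h5

theorem finite_redSub (L : Submodule K F) [Module.Finite K L] : Module.Finite k (T.redSub L) := by
  rw [← Module.rank_lt_aleph0_iff]
  exact lt_of_le_of_lt (T.Basic_rank_redSub_le L) Cardinal.natCast_lt_aleph0

theorem finrank_redSub_le (L : Submodule K F) [Module.Finite K L] :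
    Module.finrank k (T.redSub L) ≤ Module.finrank K L :=
  Module.finrank_le_of_rank_le (T.Basic_rank_redSub_le L)

variable {T}

omit [Nonempty ι] in
theorem IsCartesian.nonempty (hC : T.IsCartesian) : Nonempty ι := by
  by_contra hemp
  rw [not_nonempty_iff] at hemp
  have h1 : Module.finrank k (T.redSub (Submodule.span K {(1 : F)})) = 1 := by
    rw [hC _ inferInstance, finrank_span_singleton one_ne_zero]
  have h2 : Subsingleton (T.redSub (Submodule.span K {(1 : F)})) :=
    ⟨fun a b => Subtype.ext (funext fun i => hemp.elim i)⟩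
  rw [Module.finrank_zero_of_subsingleton] at h1
  exact zero_ne_one h1

/-- apply `hC` to the line `K f`. -/
theorem IsCartesian.exists_scale (hC : T.IsCartesian) {f : F} (hf : f ≠ 0) :
    ∃ c : K, c ≠ 0 ∧ c • f ∈ T.O ∧ T.red (c • f) ≠ 0 := by
  have h1 : Module.finrank k (T.redSub (Submodule.span K {f})) = 1 := by
    rw [hC _ inferInstance, finrank_span_singleton hf]
  have h2 : T.redSub (Submodule.span K {f}) ≠ ⊥ := by
    intro h
    rw [h, finrank_bot] at h1
    exact zero_ne_one h1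
  obtain ⟨_, ⟨g, hgL, hgO, rfl⟩, hne⟩ := (Submodule.ne_bot_iff _).mp h2
  obtain ⟨c, rfl⟩ := Submodule.mem_span_singleton.mp hgL
  refine ⟨c, ?_, hgO, hne⟩
  rintro rfl
  rw [zero_smul, red_zero] at hne
  exact hne rfl

/-- an integral element with reduction `0` is (small constant) * (integral element with nonzero
reduction). -/
theorem IsCartesian.exists_small (hC : T.IsCartesian) {y : F} (hy : y ∈ T.O) (h0 : T.red y = 0)
    (hne : y ≠ 0) :
    ∃ (c : K) (y' : F), c ≠ 0 ∧ c ∈ T.A ∧ c⁻¹ ∉ T.A ∧ y' ∈ T.O ∧ T.red y' ≠ 0 ∧ y = c • y' := by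
  obtain ⟨c₀, hc₀, hO, hred⟩ := hC.exists_scale hne
  have hnot : c₀ ∉ T.A := by
    intro hmem
    rw [T.red_smul hmem hy, h0, smul_zero] at hred
    exact hred rfl
  refine ⟨c₀⁻¹, c₀ • y, inv_ne_zero hc₀, (T.A.mem_or_inv_mem c₀).resolve_left hnot, ?_, hO, hred, ?_⟩
  · rwa [inv_inv]
  · rw [smul_smul, inv_mul_cancel₀ hc₀, one_smul]

theorem IsCartesian.Basic_exists_scale_pair_aux (hC : T.IsCartesian) {z₁ z₂ : F}
    (h : ¬ (z₁ = 0 ∧ z₂ = 0)) :
    ∃ c : K, c ≠ 0 ∧ c • z₁ ∈ T.O ∧ c • z₂ ∈ T.O ∧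
      (T.red (c • z₁) ≠ 0 ∨ T.red (c • z₂) ≠ 0) := by
  by_cases h1 : z₁ = 0
  · have h2 : z₂ ≠ 0 := fun h2 => h ⟨h1, h2⟩
    obtain ⟨c, hc, hO, hred⟩ := hC.exists_scale h2
    exact ⟨c, hc, by rw [h1, smul_zero]; exact T.O.zero_mem, hO, Or.inr hred⟩
  by_cases h2 : z₂ = 0
  · obtain ⟨c, hc, hO, hred⟩ := hC.exists_scale h1
    exact ⟨c, hc, hO, by rw [h2, smul_zero]; exact T.O.zero_mem, Or.inl hred⟩
  obtain ⟨c₁, hc₁, hO₁, hred₁⟩ := hC.exists_scale h1
  obtain ⟨c₂, hc₂, hO₂, hred₂⟩ := hC.exists_scale h2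
  rcases T.A.mem_or_inv_mem (c₁ * c₂⁻¹) with hm | hm
  · refine ⟨c₁, hc₁, hO₁, ?_, Or.inl hred₁⟩
    have : c₁ • z₂ = (c₁ * c₂⁻¹) • (c₂ • z₂) := by
      rw [smul_smul, mul_assoc, inv_mul_cancel₀ hc₂, mul_one]
    rw [this]
    exact T.smul_mem hm hO₂
  · refine ⟨c₂, hc₂, ?_, hO₂, Or.inr hred₂⟩
    have : c₂ • z₁ = (c₁ * c₂⁻¹)⁻¹ • (c₁ • z₁) := by
      rw [smul_smul, mul_inv, inv_inv, mul_comm c₁⁻¹, mul_assoc, inv_mul_cancel₀ hc₁, mul_one]
    rw [this]
    exact T.smul_mem hm hO₁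

/-- two elements, not both integral, can be scaled simultaneously by a small constant such that both
become integral and one of them has nonzero reduction. -/
theorem IsCartesian.exists_scale_pair (hC : T.IsCartesian) {z₁ z₂ : F}
    (h : ¬ (z₁ ∈ T.O ∧ z₂ ∈ T.O)) :
    ∃ c : K, c ≠ 0 ∧ c ∈ T.A ∧ c⁻¹ ∉ T.A ∧ c • z₁ ∈ T.O ∧ c • z₂ ∈ T.O ∧
      (T.red (c • z₁) ≠ 0 ∨ T.red (c • z₂) ≠ 0) := by
  have h0 : ¬ (z₁ = 0 ∧ z₂ = 0) := by
    rintro ⟨rfl, rfl⟩
    exact h ⟨T.O.zero_mem, T.O.zero_mem⟩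
  obtain ⟨c, hc, hO₁, hO₂, hred⟩ := hC.Basic_exists_scale_pair_aux h0
  have hinv : c⁻¹ ∉ T.A := by
    intro hm
    apply h
    constructor
    · have := T.smul_mem hm hO₁
      rwa [smul_smul, inv_mul_cancel₀ hc, one_smul] at this
    · have := T.smul_mem hm hO₂
      rwa [smul_smul, inv_mul_cancel₀ hc, one_smul] at this
  exact ⟨c, hc, (T.A.mem_or_inv_mem c).resolve_right hinv, hinv, hO₁, hO₂, hred⟩

/-- If `U ⊆ redSub L` has smaller dimension than `L`, there is an integral element of `L` whose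
reduction is not in `U`. -/
theorem IsCartesian.exists_not_mem (hC : T.IsCartesian) (L : Submodule K F) [Module.Finite K L]
    (U : Submodule k (∀ i, Fb i)) (hU : U ≤ T.redSub L)
    (hlt : Module.finrank k U < Module.finrank K L) :
    ∃ y ∈ L, y ∈ T.O ∧ T.red y ∉ U := by
  have hne : U ≠ T.redSub L := by
    intro h
    rw [h, hC L inferInstance] at hlt
    exact lt_irrefl _ hlt
  obtain ⟨z, hz, hzU⟩ := SetLike.exists_of_lt (lt_of_le_of_ne hU hne)
  obtain ⟨y, hyL, hyO, rfl⟩ := hz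
  exact ⟨y, hyL, hyO, hzU⟩

/-- If `U ⊆ redSub L` has the dimension of `L` then `U = redSub L`. -/
theorem IsCartesian.redSub_eq (hC : T.IsCartesian) (L : Submodule K F) [Module.Finite K L]
    (U : Submodule k (∀ i, Fb i)) (hU : U ≤ T.redSub L)
    (hle : Module.finrank K L ≤ Module.finrank k U) : T.redSub L = U := by
  have := T.finite_redSub L
  refine (Submodule.eq_of_le_of_finrank_le hU ?_).symm
  rw [hC L inferInstance]
  exact hle

/-- lattice property: integral elements `b j ∈ L` whose reductions are a basis of `redSub L` (it is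
enough that they span it) span `L ∩ O` over `A`. -/
theorem IsCartesian.exists_coeff (hC : T.IsCartesian) (L : Submodule K F) [Module.Finite K L]
    {κ : Type*} [Fintype κ] (b : κ → F) (hbL : ∀ j, b j ∈ L) (hbO : ∀ j, b j ∈ T.O)
    (hli : LinearIndependent k (fun j => T.red (b j)))
    (hspan : T.redSub L ≤ Submodule.span k (Set.range fun j => T.red (b j)))
    {y : F} (hyL : y ∈ L) (hyO : y ∈ T.O) :
    ∃ a : κ → K, (∀ j, a j ∈ T.A) ∧ y = ∑ j, a j • b j := by
  have hK : LinearIndependent K b := T.linearIndependent_of_red hbO hli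
  have hKL : LinearIndependent K (fun j => (⟨b j, hbL j⟩ : L)) :=
    LinearIndependent.of_comp L.subtype hK
  have hcard : Fintype.card κ = Module.finrank K L := by
    apply le_antisymm hKL.fintype_card_le_finrank
    rw [← hC L inferInstance, ← finrank_span_eq_card hli]
    have : Module.Finite k (Submodule.span k (Set.range fun j => T.red (b j))) :=
      Module.Finite.span_of_finite k (Set.finite_range _)
    exact Submodule.finrank_mono hspan
  have htop := hKL.span_eq_top_of_card_eq_finrank' hcard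
  have hy : (⟨y, hyL⟩ : L) ∈ Submodule.span K (Set.range fun j => (⟨b j, hbL j⟩ : L)) := by
    rw [htop]; trivial
  obtain ⟨a, ha⟩ := (Submodule.mem_span_range_iff_exists_fun K).mp hy
  have hya : y = ∑ j, a j • b j := by
    have := congrArg (L.subtype) ha
    simpa using this.symm
  refine ⟨a, ?_, hya⟩
  by_contra hcon
  push Not at hcon
  obtain ⟨j₀, hj₀⟩ := hcon
  have ha0 : a ≠ 0 := by
    rintro rfl
    exact hj₀ T.A.zero_mem
  obtain ⟨c, hc, hmem, j₁, hj₁⟩ := T.Basic_exists_scale_family a ha0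
  have hinv : c⁻¹ ∉ T.A := by
    intro hm
    apply hj₀
    have := T.A.mul_mem _ _ hm (hmem j₀)
    rwa [← mul_assoc, inv_mul_cancel₀ hc, one_mul] at this
  have hcA : c ∈ T.A := (T.A.mem_or_inv_mem c).resolve_right hinv
  have h1 : T.red (c • y) = 0 := T.red_smul_of_small hcA hinv hyO
  have h2 : c • y = ∑ j, (c * a j) • b j := by
    rw [hya, Finset.smul_sum]
    exact Finset.sum_congr rfl fun j _ => by rw [smul_smul]
  have h3 : ∑ j, T.redA (c * a j) • T.red (b j) = 0 := by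
    rw [← h1, h2, T.red_sum Finset.univ _ (fun j _ => T.smul_mem (hmem j) (hbO j))]
    exact Finset.sum_congr rfl fun j _ => (T.red_smul (hmem j) (hbO j)).symm
  exact hj₁ (Fintype.linearIndependent_iff.mp hli _ h3 j₁)

end MultiRed

end Fermat.Agent.DR.Abs
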