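import Fermat.Agent.DR.Abs.Ev

/-!
# DR/Abs leaf A3: divisors `a (x)_∞ + b (x)_0` and Riemann-Roch spaces on ONE function field.

Pure bookkeeping with `mem_riemannRochSpace_iff`, `poleDiv_apply`, `Place.ord_mul`, `degree_divOf`.
-/

set_option autoImplicit false
set_option linter.unusedSectionVars false
set_option linter.unusedVariables false

namespace Fermat.Agent.DR.Abs

open AlgebraicCurve Fermat.Agent.Lib.RR Fermat.Agent.GAL.RED

variable {k Fb : Type*} [Field k] [Field Fb] [Algebra k Fb] [IsFF k Fb] [IsAlgClosed k]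

theorem bipole_apply (x : Fb) (a b : ℕ) (P : Place k Fb) :
    bipole k x a b P = a * max (-(P.ord x)) 0 + b * max (P.ord x) 0 := by
  unfold bipole
  rw [Finsupp.add_apply, Finsupp.smul_apply, Finsupp.smul_apply, poleDiv_apply, poleDiv_apply,
    P.ord_inv, neg_neg, nsmul_eq_mul, nsmul_eq_mul]

theorem bipole_nonneg (x : Fb) (a b : ℕ) : 0 ≤ bipole k x a b := by
  intro P
  rw [bipole_apply]
  exact add_nonneg (mul_nonneg (Nat.cast_nonneg _) (le_max_right _ _))
    (mul_nonneg (Nat.cast_nonneg _) (le_max_right _ _))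

theorem bipole_zero_right (x : Fb) (a : ℕ) : bipole k x a 0 = a • poleDiv (K := k) x := by
  simp [bipole]

theorem bipole_zero_left (x : Fb) (b : ℕ) : bipole k x 0 b = b • poleDiv (K := k) x⁻¹ := by
  simp [bipole]

theorem bipole_inv (x : Fb) (a b : ℕ) : bipole k x⁻¹ a b = bipole k x b a := by
  simp [bipole, add_comm]

theorem bipole_mono (x : Fb) {a a' b b' : ℕ} (ha : a ≤ a') (hb : b ≤ b') :
    bipole k x a b ≤ bipole k x a' b' := by
  intro P
  rw [bipole_apply, bipole_apply]
  exact add_le_add (mul_le_mul_of_nonneg_right (by exact_mod_cast ha) (le_max_right _ _))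
    (mul_le_mul_of_nonneg_right (by exact_mod_cast hb) (le_max_right _ _))

theorem bipole_add (x : Fb) (a a' b b' : ℕ) :
    bipole k x (a + a') (b + b') = bipole k x a b + bipole k x a' b' := by
  unfold bipole
  rw [add_smul, add_smul]
  abel

theorem bipole_smul (x : Fb) (m a b : ℕ) : bipole k x (m * a) (m * b) = m • bipole k x a b := by
  unfold bipole
  rw [mul_smul, mul_smul, smul_add]

/-- `(x)_0 - (x)_∞ = div x`. -/
theorem poleDiv_inv_sub_poleDiv {x : Fb} (hx : x ≠ 0) :
    poleDiv (K := k) x⁻¹ - poleDiv (K := k) x = divOf (K := k) x := by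
  ext P
  rw [Finsupp.sub_apply, poleDiv_apply, poleDiv_apply, P.ord_inv, neg_neg, divOf_apply]
  omega

theorem degree_poleDiv_inv {x : Fb} (hx : x ≠ 0) :
    Divisor.degree (poleDiv (K := k) x⁻¹) = Divisor.degree (poleDiv (K := k) x) := by
  have h := congrArg Divisor.degree (poleDiv_inv_sub_poleDiv (k := k) hx)
  rw [map_sub, degree_divOf] at h
  exact sub_eq_zero.mp h

/-- a non constant function has a pole (`mem_range_of_ord_nonneg`); all places have degree one
(`deg_eq_one`). -/
theorem degree_poleDiv_pos {x : Fb} (hx : x ∉ Set.range (algebraMap k Fb)) :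
    0 < Divisor.degree (poleDiv (K := k) x) := by
  have hex : ∃ P : Place k Fb, P.ord x < 0 := by
    by_contra hcon
    push Not at hcon
    exact hx (mem_range_of_ord_nonneg hcon)
  obtain ⟨P, hP⟩ := hex
  have h0 : 0 ≤ poleDiv (K := k) x := by
    intro Q
    rw [poleDiv_apply]
    exact le_max_right _ _
  have h1 := degree_nonneg h0
  rcases h1.lt_or_eq with h2 | h2
  · exact h2
  · exfalso
    have h3 := eq_zero_of_nonneg_of_degree h0 h2.symm
    have h4 := congrArg (fun D : Divisor k Fb => D P) h3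
    simp only [poleDiv_apply, Finsupp.coe_zero, Pi.zero_apply] at h4
    omega

theorem degree_bipole {x : Fb} (hx : x ≠ 0) (a b : ℕ) :
    Divisor.degree (bipole k x a b) = (a + b) * Divisor.degree (poleDiv (K := k) x) := by
  unfold bipole
  rw [map_add, map_nsmul, map_nsmul, degree_poleDiv_inv hx, nsmul_eq_mul, nsmul_eq_mul]
  ring

theorem L_mono {D D' : Divisor k Fb} (h : D ≤ D') : riemannRochSpace D ≤ riemannRochSpace D' := by
  intro u hu
  rw [mem_riemannRochSpace_iff] at hu ⊢
  intro v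
  rcases hu v with h0 | h1
  · exact Or.inl h0
  · right
    have := h v
    omega

theorem mul_mem_L {D D' : Divisor k Fb} {u v : Fb} (hu : u ∈ riemannRochSpace D)
    (hv : v ∈ riemannRochSpace D') : u * v ∈ riemannRochSpace (D + D') := by
  rw [mem_riemannRochSpace_iff] at *
  intro P
  rcases eq_or_ne u 0 with rfl | h0
  · left; simp
  rcases eq_or_ne v 0 with rfl | h0'
  · left; simp
  right
  have h1 := (hu P).resolve_left h0
  have h2 := (hv P).resolve_left h0'
  rw [P.ord_mul h0 h0', Finsupp.add_apply]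
  omega

theorem pow_mem_L {D : Divisor k Fb} {u : Fb} (hu : u ∈ riemannRochSpace D) (m : ℕ) :
    u ^ m ∈ riemannRochSpace (m • D) := by
  rw [mem_riemannRochSpace_iff] at *
  intro P
  rcases Nat.eq_zero_or_pos m with rfl | hm
  · right
    simp
  rcases hu P with rfl | h
  · left
    exact zero_pow hm.ne'
  · right
    rw [ord_pow, Finsupp.smul_apply, nsmul_eq_mul]
    have hm' : (0 : ℤ) ≤ (m : ℤ) := Nat.cast_nonneg _
    nlinarith

theorem mem_L_of_pow_mem {D : Divisor k Fb} {u : Fb} {m : ℕ} (hm : 0 < m)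
    (h : u ^ m ∈ riemannRochSpace (m • D)) : u ∈ riemannRochSpace D := by
  rw [mem_riemannRochSpace_iff] at *
  intro P
  rcases h P with h0 | h1
  · left
    exact pow_eq_zero_iff hm.ne' |>.mp h0
  · right
    rw [ord_pow, Finsupp.smul_apply, nsmul_eq_mul] at h1
    have hm' : (0 : ℤ) < (m : ℤ) := by exact_mod_cast hm
    refine Int.le_of_mul_le_mul_left (a := (m : ℤ)) ?_ hm'
    linarith

theorem one_mem_L {D : Divisor k Fb} (h : 0 ≤ D) : (1 : Fb) ∈ riemannRochSpace D := by
  rw [mem_riemannRochSpace_iff]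
  intro P
  right
  have h1 : (0 : ℤ) ≤ D P := h P
  have h2 : P.ord (1 : Fb) = 0 := by simp
  omega

theorem pow_mem_L_poleDiv (x : Fb) (a : ℕ) : x ^ a ∈ riemannRochSpace (a • poleDiv (K := k) x) := by
  refine pow_mem_L ?_ a
  rw [mem_riemannRochSpace_iff]
  intro P
  right
  rw [poleDiv_apply]
  omega

/-- `L(D₁) ∩ L(D₂) = L(min(D₁, D₂))`. -/
theorem mem_L_inf {D₁ D₂ D : Divisor k Fb} (hD : ∀ P, min (D₁ P) (D₂ P) ≤ D P) {u : Fb}
    (h₁ : u ∈ riemannRochSpace D₁) (h₂ : u ∈ riemannRochSpace D₂) : u ∈ riemannRochSpace D := by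
  rw [mem_riemannRochSpace_iff] at *
  intro P
  rcases h₁ P with h0 | h1
  · exact Or.inl h0
  rcases h₂ P with h0 | h2
  · exact Or.inl h0
  right
  have := hD P
  omega

/-- poles and zeros of `x` are disjoint. -/
theorem mem_L_bipole_inf (x : Fb) (D : Divisor k Fb) {a a' b b' : ℕ} {u : Fb}
    (h₁ : u ∈ riemannRochSpace (bipole k x a b + D))
    (h₂ : u ∈ riemannRochSpace (bipole k x a' b' + D)) :
    u ∈ riemannRochSpace (bipole k x (min a a') (min b b') + D) := by
  refine mem_L_inf (fun P => ?_) h₁ h₂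
  rw [Finsupp.add_apply, Finsupp.add_apply, Finsupp.add_apply, bipole_apply, bipole_apply,
    bipole_apply]
  rcases le_total (P.ord x) 0 with ho | ho
  · rw [max_eq_right ho, mul_zero, mul_zero, mul_zero, add_zero, add_zero, add_zero]
    rcases le_total a a' with h | h
    · rw [min_eq_left h]
      exact min_le_left _ _
    · rw [min_eq_right h]
      exact min_le_right _ _
  · rw [max_eq_right (by omega : -(P.ord x) ≤ 0), mul_zero, mul_zero, mul_zero, zero_add,
      zero_add, zero_add]
    rcases le_total b b' with h | h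
    · rw [min_eq_left h]
      exact min_le_left _ _
    · rw [min_eq_right h]
      exact min_le_right _ _

/-- multiplication by `x ^ b` : `L(a X_∞ + b X_0) ≃ L((a + b) X_∞)`. -/
theorem pow_mul_mem_L_iff {x : Fb} (hx : x ≠ 0) (a b : ℕ) (u : Fb) :
    x ^ b * u ∈ riemannRochSpace (bipole k x (a + b) 0) ↔ u ∈ riemannRochSpace (bipole k x a b) := by
  rw [mem_riemannRochSpace_iff, mem_riemannRochSpace_iff]
  refine forall_congr' fun v => ?_
  rcases eq_or_ne u 0 with rfl | hu
  · simp
  have hxb : x ^ b ≠ 0 := pow_ne_zero b hx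
  have e1 : v.ord (x ^ b * u) = b * v.ord x + v.ord u := by
    rw [v.ord_mul hxb hu, ord_pow]
  have e2 : max (v.ord x) 0 = max (-(v.ord x)) 0 + v.ord x := by omega
  rw [e1, bipole_apply, bipole_apply, e2]
  have hne : x ^ b * u ≠ 0 := mul_ne_zero hxb hu
  simp only [hu, hne, false_or]
  push_cast
  constructor <;> intro h <;> nlinarith

/-- multiplication by `x` : `L(a X_∞ + (b + 1) X_0) ≃ L((a + 1) X_∞ + b X_0)`. -/
theorem mul_mem_L_bipole_iff {x : Fb} (hx : x ≠ 0) (a b : ℕ) (u : Fb) :
    x * u ∈ riemannRochSpace (bipole k x (a + 1) b) ↔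
      u ∈ riemannRochSpace (bipole k x a (b + 1)) := by
  rw [mem_riemannRochSpace_iff, mem_riemannRochSpace_iff]
  refine forall_congr' fun v => ?_
  rcases eq_or_ne u 0 with rfl | hu
  · simp
  have e1 : v.ord (x * u) = v.ord x + v.ord u := v.ord_mul hx hu
  have e2 : max (v.ord x) 0 = max (-(v.ord x)) 0 + v.ord x := by omega
  rw [e1, bipole_apply, bipole_apply, e2]
  have hne : x * u ≠ 0 := mul_ne_zero hx hu
  simp only [hu, hne, false_or]
  push_cast
  constructor <;> intro h <;> nlinarith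

/-- `ℓ` of a divisor of large degree depends only on the degree. -/
theorem ell_bipole_add {x : Fb} (hx : x ≠ 0) (D : Divisor k Fb) (hD : Divisor.degree D = 0) (a b : ℕ)
    (h : 2 * (genusFF k Fb : ℤ) - 2 < (a + b) * Divisor.degree (poleDiv (K := k) x)) :
    (ell (bipole k x a b + D) : ℤ) =
      (a + b) * Divisor.degree (poleDiv (K := k) x) + 1 - genusFF k Fb := by
  have hdeg : Divisor.degree (bipole k x a b + D)
      = (a + b) * Divisor.degree (poleDiv (K := k) x) := by
    rw [map_add, degree_bipole hx, hD, add_zero]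
  rw [ell_eq_of_lt_degree' (by rw [hdeg]; exact h), hdeg]

/-- If `div f = m D` then `y ∈ L(E + D) ↔ y ^ m * f ∈ L(m E)`. -/
theorem mem_L_add_iff_pow_mul_mem {m : ℕ} (hm : 0 < m) {f : Fb} (hf : f ≠ 0) {D : Divisor k Fb}
    (hD : divOf (K := k) f = m • D) (E : Divisor k Fb) (y : Fb) :
    y ∈ riemannRochSpace (E + D) ↔ y ^ m * f ∈ riemannRochSpace (m • E) := by
  rw [mem_riemannRochSpace_iff, mem_riemannRochSpace_iff]
  refine forall_congr' fun v => ?_
  rcases eq_or_ne y 0 with rfl | hy
  · simp [zero_pow hm.ne']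
  have hym : y ^ m ≠ 0 := pow_ne_zero m hy
  have hordf : v.ord f = m * D v := by
    have h1 := DFunLike.congr_fun hD v
    rwa [divOf_apply, Finsupp.smul_apply, nsmul_eq_mul] at h1
  have e1 : v.ord (y ^ m * f) = m * v.ord y + m * D v := by
    rw [v.ord_mul hym hf, ord_pow, hordf]
  have hne : y ^ m * f ≠ 0 := mul_ne_zero hym hf
  rw [e1, Finsupp.add_apply, Finsupp.smul_apply, nsmul_eq_mul]
  simp only [hy, hne, false_or]
  have hm' : (0 : ℤ) < (m : ℤ) := by exact_mod_cast hm
  constructor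
  · intro h
    nlinarith
  · intro h
    refine Int.le_of_mul_le_mul_left (a := (m : ℤ)) ?_ hm'
    linarith

/-- existence of `D` with `div f = m D`. -/
theorem exists_divisor_of_dvd {m : ℕ} (hm : 0 < m) (f : Fb)
    (hdiv : ∀ P : Place k Fb, (m : ℤ) ∣ P.ord f) :
    ∃ D : Divisor k Fb, divOf (K := k) f = m • D ∧ Divisor.degree D = 0 := by
  have hm' : (m : ℤ) ≠ 0 := by exact_mod_cast hm.ne'
  have hD : divOf (K := k) f
      = m • (divOf (K := k) f).mapRange (fun n : ℤ => n / (m : ℤ)) (by simp) := by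
    ext P
    rw [Finsupp.smul_apply, Finsupp.mapRange_apply, divOf_apply, nsmul_eq_mul,
      Int.mul_ediv_cancel' (hdiv P)]
  refine ⟨_, hD, ?_⟩
  have h1 := congrArg Divisor.degree hD
  rw [degree_divOf, map_nsmul, nsmul_eq_mul] at h1
  exact (mul_eq_zero.mp h1.symm).resolve_left hm' 

/-- `u` is regular outside the poles of `x` iff `u ∈ L(a (x)_∞)` for some `a`. -/
theorem exists_mem_L_poleDiv_iff (x u : Fb) :
    (∃ a : ℕ, u ∈ riemannRochSpace (a • poleDiv (K := k) x)) ↔
      ∀ P : Place k Fb, 0 ≤ P.ord x → 0 ≤ P.ord u := by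
  classical
  constructor
  · rintro ⟨a, ha⟩ P hP
    rw [mem_riemannRochSpace_iff] at ha
    rcases ha P with rfl | h
    · rw [P.ord_zero]
    · rwa [Finsupp.smul_apply, poleDiv_apply, max_eq_right (by omega), smul_zero, neg_zero] at h
  · intro hu
    refine ⟨∑ P ∈ (divOf (K := k) x).support, (P.ord u).natAbs, ?_⟩
    rw [mem_riemannRochSpace_iff]
    intro P
    right
    set a := ∑ P ∈ (divOf (K := k) x).support, (P.ord u).natAbs with ha
    rw [Finsupp.smul_apply, poleDiv_apply, nsmul_eq_mul]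
    by_cases hP : P.ord x < 0
    · have hmem : P ∈ (divOf (K := k) x).support := by
        rw [Finsupp.mem_support_iff, divOf_apply]
        exact ne_of_lt hP
      have h1 : (P.ord u).natAbs ≤ a :=
        Finset.single_le_sum (f := fun Q : Place k Fb => (Q.ord u).natAbs)
          (fun _ _ => Nat.zero_le _) hmem
      have h3 : (1 : ℤ) ≤ max (-(P.ord x)) 0 := le_max_of_le_left (by omega)
      have h4 : (a : ℤ) * 1 ≤ (a : ℤ) * max (-(P.ord x)) 0 :=
        mul_le_mul_of_nonneg_left h3 (Nat.cast_nonneg _)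
      have h5 : -(P.ord u) ≤ ((P.ord u).natAbs : ℤ) := by
        rw [Int.natCast_natAbs]
        exact neg_le_abs _
      have h6 : ((P.ord u).natAbs : ℤ) ≤ (a : ℤ) := by exact_mod_cast h1
      omega
    · have h1 : 0 ≤ P.ord u := hu P (not_lt.mp hP)
      have h2 : (0 : ℤ) ≤ (a : ℤ) * max (-(P.ord x)) 0 :=
        mul_nonneg (Nat.cast_nonneg _) (le_max_right _ _)
      omega

end Fermat.Agent.DR.Abs
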