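import Fermat.Agent.DR.Abs.KeyIneq

/-!
# DR/Abs leaf C2: the criterion for `IsCartesian`: `deg (x)_∞ ≤ ∑ᵢ deg (x̄ᵢ)_∞`.
(port of `GAL/RED/Cartesian.lean` + `Echelon.lean` to a family of valuations)

NOTE (helper49): `isCartesian_of_basis` has the extra hypothesis `htr` (every `x̄ᵢ` is transcendental): it does
NOT follow from `hind` (example: `F = K(x)`, `b = 1`, Gauss valuations of `x` and of `x / π`).
-/

set_option autoImplicit false

namespace Fermat.Agent.DR.Abs

open AlgebraicCurve Fermat.Agent.Lib.RR Fermat.Agent.GAL.RED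

variable {K F k : Type*} [Field K] [Field F] [Algebra K F] [Field k] {ι : Type*}
  {Fb : ι → Type*} [∀ i, Field (Fb i)] [∀ i, Algebra k (Fb i)]

namespace MultiRed

/-- reduction at `i` of a polynomial in `x` with coefficients in `(R i₀).A`. -/
theorem cartesian_red_aeval (T : MultiRed K F k Fb) (i₀ i : ι) (q : Polynomial (T.R i₀).A) {x : F}
    (hx : x ∈ T.O) :
    Polynomial.aeval x (q.map (T.R i₀).A.subtype) ∈ (T.R i).O ∧
      (T.R i).red (Polynomial.aeval x (q.map (T.R i₀).A.subtype)) =
        Polynomial.aeval ((T.R i).red x) (q.map (T.R i₀).resA) := by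
  obtain ⟨q', h1, h2⟩ := T.keyIneq_transport i₀ i q
  rw [← h1, ← h2]
  exact ⟨(T.R i).aeval_map_mem q' (hx i), (T.R i).red_aeval_map q' (hx i)⟩

/-- joint independence of the reductions lifts. -/
theorem cartesian_polyIndep [Nonempty ι] (T : MultiRed K F k Fb) {n : ℕ} {x : F}
    {b : Fin n → F} (hx : x ∈ T.O) (hb : ∀ l, b l ∈ T.O)
    (hind : ∀ p : Fin n → Polynomial k,
      (∀ i, ∑ l, Polynomial.aeval ((T.R i).red x) (p l) * T.red (b l) i = 0) → p = 0) :
    PolyIndep K x b := by
  intro p hp
  by_contra hcon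
  let i₀ : ι := Classical.arbitrary ι
  obtain ⟨a, q, -, hq, hne⟩ := (T.R i₀).exists_scale_poly p hcon
  apply hne
  apply hind
  intro i
  have h1 : ∑ l, Polynomial.aeval x ((q l).map (T.R i₀).A.subtype) * b l = 0 := by
    simp_rw [hq, map_mul, Polynomial.aeval_C, mul_assoc]
    rw [← Finset.mul_sum, hp, mul_zero]
  have h3 := (T.R i).red_sum Finset.univ
    (fun l => Polynomial.aeval x ((q l).map (T.R i₀).A.subtype) * b l)
    (fun l _ => (T.R i).O.mul_mem _ _ (T.cartesian_red_aeval i₀ i (q l) hx).1 (hb l i))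
  rw [h1, RedData.red_zero] at h3
  rw [h3]
  refine Finset.sum_congr rfl fun l _ => ?_
  rw [(T.R i).red_mul (T.cartesian_red_aeval i₀ i (q l) hx).1 (hb l i),
    (T.cartesian_red_aeval i₀ i (q l) hx).2]
  rfl

/-- **Cartesian from a basis** (port of `GAL.RED.isCartesian_of_basis`).  If `F` is spanned over `K(x)` by
integral elements `b l` whose reductions are jointly independent over `k[X]` (acting on the `i`-th component
through `x̄ᵢ`, all transcendental), then `T` is cartesian. -/
theorem isCartesian_of_basis [Nonempty ι] (T : MultiRed K F k Fb) {n : ℕ} (hn : 0 < n) (x : F)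
    (b : Fin n → F) (hx : x ∈ T.O) (hb : ∀ l, b l ∈ T.O)
    (htr : ∀ i, ∀ d : Polynomial k, d ≠ 0 → Polynomial.aeval ((T.R i).red x) d ≠ 0)
    (hspan : ∀ f : F, ∃ (d : Polynomial K) (p : Fin n → Polynomial K), d ≠ 0 ∧
      Polynomial.aeval x d * f = ∑ l, Polynomial.aeval x (p l) * b l)
    (hind : ∀ p : Fin n → Polynomial k,
      (∀ i, ∑ l, Polynomial.aeval ((T.R i).red x) (p l) * T.red (b l) i = 0) → p = 0) :
    T.IsCartesian := by
  classical
  intro L hL
  refine le_antisymm (T.finrank_redSub_le L) ?_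
  let i₀ : ι := Classical.arbitrary ι
  have hindK : PolyIndep K x b := T.cartesian_polyIndep hx hb hind
  set r := Module.finrank K L with hr
  let fb : Module.Basis (Fin r) K L := Module.finBasis K L
  choose ds ps hds hps using fun s : Fin r => hspan (fb s : F)
  let d : Polynomial K := ∏ s, ds s
  have hd : d ≠ 0 := Finset.prod_ne_zero_iff.mpr fun s _ => hds s
  let D : F := Polynomial.aeval x d
  have hD : D ≠ 0 := aeval_ne_zero_of_polyIndep hn hindK hd
  let q : Fin r → Fin n → Polynomial K := fun s i => (∏ t ∈ Finset.univ.erase s, ds t) * ps s i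
  have hq : ∀ s, D * (fb s : F) = ∑ i, Polynomial.aeval x (q s i) * b i := by
    intro s
    have h1 : d = (∏ t ∈ Finset.univ.erase s, ds t) * ds s := by
      rw [mul_comm]
      exact (Finset.mul_prod_erase Finset.univ ds (Finset.mem_univ s)).symm
    simp only [D, q]
    rw [h1, map_mul, mul_assoc, hps s, Finset.mul_sum]
    refine Finset.sum_congr rfl fun i _ => ?_
    rw [map_mul, mul_assoc]
  let N : ℕ := (Finset.univ.sup fun s => Finset.univ.sup fun i => (q s i).natDegree) + 1
  have hqN : ∀ s i, (q s i).natDegree < N := by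
    intro s i
    have h1 : (q s i).natDegree ≤ Finset.univ.sup fun i => (q s i).natDegree :=
      Finset.le_sup (f := fun i => (q s i).natDegree) (Finset.mem_univ i)
    have h2 : (Finset.univ.sup fun i => (q s i).natDegree) ≤
        Finset.univ.sup fun s => Finset.univ.sup fun i => (q s i).natDegree :=
      Finset.le_sup (f := fun s => Finset.univ.sup fun i => (q s i).natDegree) (Finset.mem_univ s)
    exact Nat.lt_succ_of_le (h1.trans h2)
  let Φ := cartPhi K x b N
  let c : Fin r → (Fin n × Fin N → K) := fun s ij => (q s ij.1).coeff (ij.2 : ℕ)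
  have hΦc : ∀ s, Φ (c s) = D * (fb s : F) := by
    intro s
    rw [hq s]
    simp only [Φ]
    rw [cartPhi_eq_sum_aeval]
    refine Finset.sum_congr rfl fun i _ => ?_
    rw [cartPoly_of_coeff (q s) (hqN s) i]
  have hmulinj : LinearMap.ker (LinearMap.mulLeft K D) = ⊥ := by
    rw [LinearMap.ker_eq_bot]
    exact mul_right_injective₀ hD
  have hcind : LinearIndependent K c := by
    apply LinearIndependent.of_comp Φ
    have h1 : LinearIndependent K (fun s => (fb s : F)) :=
      fb.linearIndependent.map' L.subtype (Submodule.ker_subtype L)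
    have h2 := h1.map' (LinearMap.mulLeft K D) hmulinj
    have h3 : (⇑Φ ∘ c) = (⇑(LinearMap.mulLeft K D) ∘ fun s => (fb s : F)) := by
      funext s
      exact hΦc s
    rw [h3]
    exact h2
  let L' : Submodule K (Fin n × Fin N → K) := Submodule.span K (Set.range c)
  have hL' : Module.finrank K L' = r := by
    rw [finrank_span_eq_card hcind, Fintype.card_fin]
  obtain ⟨e, heL, heA, heind⟩ := exists_echelon (T.R i₀) L'
  have heA' : ∀ i s ij, e s ij ∈ (T.R i).A := by
    intro i s ij
    rw [T.A_eq i, ← T.A_eq i₀]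
    exact heA s ij
  have hle : L' ≤ (L.map (LinearMap.mulLeft K D)).comap Φ := by
    rw [Submodule.span_le]
    rintro _ ⟨s, rfl⟩
    exact ⟨fb s, (fb s).2, (hΦc s).symm⟩
  -- scaling of the denominator
  obtain ⟨a, q0, ha, hq0, hq0ne⟩ := (T.R i₀).exists_scale_poly (fun _ : Fin 1 => d)
    (fun h => hd (congrFun h 0))
  let D0 : F := Polynomial.aeval x ((q0 0).map (T.R i₀).A.subtype)
  have hD0 : D0 = algebraMap K F a * D := by
    simp only [D0, D]
    rw [hq0 0, map_mul, Polynomial.aeval_C]
  have hD0O : ∀ i, D0 ∈ (T.R i).O := fun i => (T.cartesian_red_aeval i₀ i (q0 0) hx).1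
  have hq0ne' : (q0 0).map (T.R i₀).resA ≠ 0 := by
    intro h
    apply hq0ne
    funext i
    rw [Subsingleton.elim i 0, h]
    rfl
  have hD0red : ∀ i, (T.R i).red D0 ≠ 0 := by
    intro i
    rw [(T.cartesian_red_aeval i₀ i (q0 0) hx).2]
    exact htr i _ hq0ne'
  let g : Fin (Module.finrank K L') → F := fun s => Φ (e s) / D0
  have hgL : ∀ s, g s ∈ L := by
    intro s
    obtain ⟨l, hl, hlΦ⟩ := hle (heL s)
    have h1 : g s = a⁻¹ • l := by
      simp only [g]
      rw [← hlΦ, hD0, LinearMap.mulLeft_apply, Algebra.smul_def, map_inv₀]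
      have ha' : algebraMap K F a ≠ 0 := by simpa using ha
      field_simp
    rw [h1]
    exact L.smul_mem _ hl
  have hΦe := fun i s => red_cartPhi (T.R i) (hx i) (fun l => hb l i) N (e s) (heA' i s)
  have hgO : ∀ s, g s ∈ T.O := by
    intro s i
    simp only [g]
    rw [div_eq_mul_inv]
    exact (T.R i).O.mul_mem _ _ (hΦe i s).1 ((T.R i).inv_mem_of_red_ne_zero (hD0red i))
  let Ψ : (Fin n × Fin N → k) →ₗ[k] (∀ i, Fb i) :=
    LinearMap.pi fun i => cartPhi k ((T.R i).red x) (fun l => (T.R i).red (b l)) N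
  let M : (∀ i, Fb i) →ₗ[k] (∀ i, Fb i) :=
    LinearMap.pi fun i => (LinearMap.mulLeft k ((T.R i).red D0)⁻¹).comp (LinearMap.proj i)
  have hΨ : LinearMap.ker Ψ = ⊥ := by
    rw [LinearMap.ker_eq_bot']
    intro c hc
    have h0 := hind (cartPoly c) (fun i => by
      have := congrFun hc i
      simp only [Ψ, LinearMap.pi_apply, Pi.zero_apply] at this
      rw [cartPhi_eq_sum_aeval] at this
      exact this)
    funext ij
    obtain ⟨i, j⟩ := ij
    have h1 := congrFun h0 i
    rw [← cartPoly_coeff c i j, h1]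
    simp
  have hM : LinearMap.ker M = ⊥ := by
    rw [LinearMap.ker_eq_bot']
    intro z hz
    funext i
    have := congrFun hz i
    simp only [M, LinearMap.pi_apply, LinearMap.comp_apply, LinearMap.proj_apply,
      LinearMap.mulLeft_apply, Pi.zero_apply] at this
    exact (mul_eq_zero.1 this).resolve_left (inv_ne_zero (hD0red i))
  have hgred : ∀ s, T.red (g s) = M (Ψ (fun ij => (T.R i₀).redA (e s ij))) := by
    intro s
    funext i
    simp only [M, Ψ, LinearMap.pi_apply, LinearMap.comp_apply, LinearMap.proj_apply,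
      LinearMap.mulLeft_apply, red_apply, g]
    rw [(T.R i).red_div (hΦe i s).1 (hD0red i), (hΦe i s).2, div_eq_mul_inv, mul_comm]
    simp only [T.redA_eq]
  have hind2 : LinearIndependent k (fun s => T.red (g s)) := by
    have h1 := heind.map' Ψ hΨ
    have h2 := h1.map' M hM
    have h3 : (fun s => T.red (g s)) = (⇑M ∘ (⇑Ψ ∘ fun s => fun ij => (T.R i₀).redA (e s ij))) := by
      funext s
      exact hgred s
    rw [h3]
    exact h2
  have hind3 : LinearIndependent k
      (fun s => (⟨T.red (g s), ⟨g s, hgL s, hgO s, rfl⟩⟩ : T.redSub L)) := by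
    apply LinearIndependent.of_comp (T.redSub L).subtype
    exact hind2
  have := T.finite_redSub L
  have h3 := hind3.fintype_card_le_finrank
  rw [Fintype.card_fin, hL'] at h3
  exact h3

variable [IsFF K F] [IsAlgClosed K] [∀ i, IsFF k (Fb i)] [IsAlgClosed k] [Fintype ι]

/-- a `PolyIndep` family with `deg (x)_∞` elements spans `F` over `K(x)`: otherwise `Fin.cons f b` would be
`PolyIndep`, contradicting `card_le_degree_poleDiv`. -/
theorem span_of_polyIndep_of_card (x : F) {n : ℕ} (b : Fin n → F) (hb : PolyIndep K x b)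
    (hn : Divisor.degree (poleDiv (K := K) x) ≤ n) (f : F) :
    ∃ (d : Polynomial K) (p : Fin n → Polynomial K), d ≠ 0 ∧
      Polynomial.aeval x d * f = ∑ l, Polynomial.aeval x (p l) * b l := by
  by_contra hcon
  have h1 : PolyIndep K x (Fin.cons f b : Fin (n + 1) → F) := by
    intro p hp
    rw [Fin.sum_univ_succ] at hp
    simp only [Fin.cons_zero, Fin.cons_succ] at hp
    have hp0 : p 0 = 0 := by
      by_contra h0
      apply hcon
      refine ⟨p 0, fun l => -p l.succ, h0, ?_⟩
      simp only [map_neg, neg_mul, Finset.sum_neg_distrib]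
      linear_combination hp
    rw [hp0, map_zero, zero_mul, zero_add] at hp
    have h2 := hb (fun l => p l.succ) hp
    funext i
    refine Fin.cases hp0 (fun l => ?_) i
    exact congrFun h2 l
  have h3 := card_le_degree_poleDiv x _ h1
  push_cast at h3
  omega

/-- a non constant function has a pole. -/
theorem cartesian_degree_poleDiv_pos {κ E : Type*} [Field κ] [Field E] [Algebra κ E] [IsFF κ E]
    [IsAlgClosed κ] {x : E} (hx : x ∉ Set.range (algebraMap κ E)) :
    0 < Divisor.degree (poleDiv (K := κ) x) := by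
  by_contra h
  have h0 : Divisor.degree (poleDiv (K := κ) x) = 0 :=
    le_antisymm (not_lt.1 h) (degree_nonneg (poleDegLe_poleDiv_nonneg x))
  have h1 := eq_zero_of_nonneg_of_degree (poleDegLe_poleDiv_nonneg x) h0
  apply hx
  apply mem_range_of_ord_nonneg
  intro P
  have h2 : poleDiv (K := κ) x P = 0 := by rw [h1]; rfl
  rw [poleDiv_apply] at h2
  have := le_max_left (-(P.ord x)) 0
  omega

/-- **The criterion.** -/
theorem isCartesian_of_degree_le [Nonempty ι] {T : MultiRed K F k Fb} (hS : T.Sep) (x : F)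
    (hx : ∀ i, (T.R i).red x ∉ Set.range (algebraMap k (Fb i)))
    (hdeg : Divisor.degree (poleDiv (K := K) x) ≤
      ∑ i, Divisor.degree (poleDiv (K := k) ((T.R i).red x))) : T.IsCartesian := by
  obtain ⟨n, b, hn, hbO, hbind, hbj⟩ := exists_polyIndep_lift hS x hx
  have hxO : x ∈ T.O := fun i =>
    (T.R i).mem_of_red_ne_zero (fun h => hx i ⟨0, by rw [h, map_zero]⟩)
  have hn0 : 0 < n := by
    have h1 : (0 : ℤ) < ∑ i, Divisor.degree (poleDiv (K := k) ((T.R i).red x)) :=
      Finset.sum_pos (fun i _ => cartesian_degree_poleDiv_pos (hx i)) Finset.univ_nonempty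
    rw [← hn] at h1
    exact_mod_cast h1
  refine T.isCartesian_of_basis hn0 x b hxO hbO ?_
    (span_of_polyIndep_of_card x b hbind (by rw [hn]; exact hdeg)) hbj
  intro i d hd h0
  apply hx i
  have halg : IsAlgebraic k ((T.R i).red x) := ⟨d, hd, h0⟩
  have hint : IsIntegral k ((T.R i).red x) := halg.isIntegral
  exact minpoly.mem_range_of_degree_eq_one k _
    (IsAlgClosed.degree_eq_one_of_irreducible k (minpoly.irreducible hint))

end MultiRed

end Fermat.Agent.DR.Abs
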