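import Fermat.Agent.DR.Abs.Structure

/-!
# DR/Abs leaves A7a, A7b, A7c: the dual graph of a nodal reduction is connected
(Zariski's connectedness theorem, by hand).
-/

set_option autoImplicit false

namespace Fermat.Agent.DR.Abs

open AlgebraicCurve Fermat.Agent.Lib.RR Fermat.Agent.GAL.RED

variable {K F k : Type*} [Field K] [Field F] [Algebra K F] [Field k] {ι : Type*}
  {Fb : ι → Type*} [∀ i, Field (Fb i)] [∀ i, Algebra k (Fb i)] {E : Type*}
  [IsFF K F] [IsAlgClosed K] [∀ i, IsFF k (Fb i)] [IsAlgClosed k]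

/-- An *extremal pair*: `y₁ ∈ L(a X_∞)`, `y₂ ∈ L(a X_0)` integral, with the same locally constant reduction `v`,
`y₁ - y₂ = c ξ`, `c` small, `ξ` integral and `red ξ ∉ H(a,0) + H(0,a)`. -/
structure ExtPair {T : MultiRed K F k Fb} {x : F} {N : NodeData k Fb E} {a₀ : ℕ}
    (h : IsPreNodal T x N a₀) (a : ℕ) (y₁ y₂ : F) (v : ι → k) : Prop where
  ha : a₀ ≤ a
  mem₁ : y₁ ∈ riemannRochSpace (bipole K x a 0)
  mem₂ : y₂ ∈ riemannRochSpace (bipole K x 0 a)
  int₁ : y₁ ∈ T.O
  int₂ : y₂ ∈ T.O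
  red₁ : ∀ i, T.red y₁ i = algebraMap k (Fb i) (v i)
  ext : ∃ (c : K) (ξ : F), c ≠ 0 ∧ c ∈ T.A ∧ c⁻¹ ∉ T.A ∧ ξ ∈ T.O ∧ y₁ - y₂ = c • ξ ∧
    T.red ξ ∉ gluedSub N (T.red x) h.adapted 1 a 0 ⊔ gluedSub N (T.red x) h.adapted 1 0 a

variable [Fintype ι] [Fintype E]

/-- **(A7a)**  If the graph is not connected there is an extremal pair with non constant `v`.
PROOF. `a := max a₀ 1`, `L₁ = L(a X_∞)`, `L₂ = L(a X_0)`, `Hᵢ = redSub Lᵢ = G(a,0), G(0,a)`. `H₁ ∩ H₂ = G(0,0)` (`gluedSub_inf`) has dimension `≥ 2`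
(it contains `1` and a non scalar locally constant family, `mem_gluedSub_zero_iff`), while `L₁ ∩ L₂ = K`. So
`dim (H₁ ⊔ H₂) < dim (L₁ ⊔ L₂)`; `IsCartesian.exists_not_mem`: `ξ₀ ∈ (L₁ ⊔ L₂) ∩ O`, `red ξ₀ ∉ H₁ ⊔ H₂`, `ξ₀ = z₁ - z₂`.
`z₁` is not constant (otherwise `ξ₀ ∈ L₂`). The plane `U = K + K z₁` has a `2`-dimensional reduction containing `1`: there is
`y₁ = c z₁ + c' ∈ O` with `red y₁ ∉ k · 1`; `c ≠ 0`. If `c⁻¹ ∈ A` then `z₁ + c'/c`, `z₂ + c'/c = y₁/c - ξ₀` are integral and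
`red ξ₀ ∈ H₁ + H₂`: so `c` is small. `y₂ := c z₂ + c' = y₁ - c ξ₀`. `red y₁ = red y₂ ∈ H₁ ∩ H₂ = G(0,0)`. -/
theorem exists_extPair {T : MultiRed K F k Fb} {x : F} {N : NodeData k Fb E} {a₀ : ℕ}
    (h : IsPreNodal T x N a₀) (hN : ¬ N.Connected) :
    ∃ (a : ℕ) (y₁ y₂ : F) (v : ι → k), ExtPair h a y₁ y₂ v ∧ ∃ i j, v i ≠ v j := by
  classical
  have hC := h.cart
  have : Nonempty ι := hC.nonempty
  obtain ⟨i₀⟩ := ‹Nonempty ι›
  have : Nonempty ι := ⟨i₀⟩
  set L₁ : Submodule K F := riemannRochSpace (bipole K x a₀ 0) with hL₁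
  set L₂ : Submodule K F := riemannRochSpace (bipole K x 0 a₀) with hL₂
  set H₁ := gluedSub N (T.red x) h.adapted 1 a₀ 0 with hH₁
  set H₂ := gluedSub N (T.red x) h.adapted 1 0 a₀ with hH₂
  have e₁ : T.redSub L₁ = H₁ := h.redSub_eq (by omega)
  have e₂ : T.redSub L₂ = H₂ := h.redSub_eq (by omega)
  have : Module.Finite K L₁ := instFiniteL _
  have : Module.Finite K L₂ := instFiniteL _
  have : Module.Finite k H₁ := e₁ ▸ T.finite_redSub L₁
  have : Module.Finite k H₂ := e₂ ▸ T.finite_redSub L₂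
  have d₁ : Module.finrank k H₁ = Module.finrank K L₁ := e₁ ▸ hC L₁ inferInstance
  have d₂ : Module.finrank k H₂ = Module.finrank K L₂ := e₂ ▸ hC L₂ inferInstance
  -- constants
  have const₁ : ∀ c : K, algebraMap K F c ∈ L₁ := fun c => by
    rw [Algebra.algebraMap_eq_smul_one]
    exact L₁.smul_mem c (one_mem_L (bipole_nonneg _ _ _))
  have const₂ : ∀ c : K, algebraMap K F c ∈ L₂ := fun c => by
    rw [Algebra.algebraMap_eq_smul_one]
    exact L₂.smul_mem c (one_mem_L (bipole_nonneg _ _ _))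
  -- the intersection upstairs
  have hinfL : Module.finrank K (L₁ ⊓ L₂ : Submodule K F) ≤ 1 := by
    have hle : L₁ ⊓ L₂ ≤ riemannRochSpace (0 : Divisor K F) := by
      intro u hu
      have h1 : u ∈ riemannRochSpace (bipole K x a₀ 0 + 0) := by rw [add_zero]; exact hu.1
      have h2 : u ∈ riemannRochSpace (bipole K x 0 a₀ + 0) := by rw [add_zero]; exact hu.2
      have h3 := mem_L_bipole_inf x 0 h1 h2
      simpa [bipole] using h3
    calc Module.finrank K (L₁ ⊓ L₂ : Submodule K F)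
        ≤ Module.finrank K (riemannRochSpace (0 : Divisor K F)) := Submodule.finrank_mono hle
      _ = 1 := ell_zero
  -- the intersection downstairs
  have hinfH : H₁ ⊓ H₂ = gluedSub N (T.red x) h.adapted 1 0 0 := by
    rw [hH₁, hH₂, gluedSub_inf]
    simp
  have hinfH2 : 2 ≤ Module.finrank k (H₁ ⊓ H₂ : Submodule k (∀ i, Fb i)) := by
    by_contra hlt
    have hle1 : Module.finrank k (H₁ ⊓ H₂ : Submodule k (∀ i, Fb i)) ≤ 1 := by omega
    rw [finrank_le_one_iff] at hle1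
    obtain ⟨w, hw⟩ := hle1
    apply hN
    intro c hc i j
    have m1 : (fun i => algebraMap k (Fb i) 1 : ∀ i, Fb i) ∈ H₁ ⊓ H₂ := by
      rw [hinfH, mem_gluedSub_zero_iff]
      exact ⟨fun _ => 1, fun _ => rfl, fun _ => by simp⟩
    have m2 : (fun i => algebraMap k (Fb i) (c i) : ∀ i, Fb i) ∈ H₁ ⊓ H₂ := by
      rw [hinfH, mem_gluedSub_zero_iff]
      exact ⟨c, fun _ => rfl, fun e => by simpa using hc e⟩
    obtain ⟨s, hs⟩ := hw ⟨_, m1⟩
    obtain ⟨t, ht⟩ := hw ⟨_, m2⟩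
    have hs' : ∀ i, s • (w : ∀ i, Fb i) i = algebraMap k (Fb i) 1 := fun i =>
      congrFun (congrArg Subtype.val hs) i
    have ht' : ∀ i, t • (w : ∀ i, Fb i) i = algebraMap k (Fb i) (c i) := fun i =>
      congrFun (congrArg Subtype.val ht) i
    have hs0 : s ≠ 0 := by
      rintro rfl
      have := hs' i₀
      simp at this
    have key : ∀ i, c i = t / s := by
      intro i
      apply (algebraMap k (Fb i)).injective
      have h1 : (w : ∀ i, Fb i) i = algebraMap k (Fb i) s⁻¹ := by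
        have := hs' i
        rw [Algebra.smul_def, map_one] at this
        rw [map_inv₀]
        exact eq_inv_of_mul_eq_one_right this
      rw [← ht' i, h1, Algebra.smul_def, ← map_mul, div_eq_mul_inv]
    rw [key i, key j]
  have s₁ := Submodule.finrank_sup_add_finrank_inf_eq L₁ L₂
  have s₂ := Submodule.finrank_sup_add_finrank_inf_eq H₁ H₂
  have hlt : Module.finrank k (H₁ ⊔ H₂ : Submodule k (∀ i, Fb i)) <
      Module.finrank K (L₁ ⊔ L₂ : Submodule K F) := by omega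
  have hU : H₁ ⊔ H₂ ≤ T.redSub (L₁ ⊔ L₂) :=
    sup_le (e₁ ▸ T.redSub_mono le_sup_left) (e₂ ▸ T.redSub_mono le_sup_right)
  obtain ⟨ξ, hξL, hξO, hξ⟩ := hC.exists_not_mem (L₁ ⊔ L₂) (H₁ ⊔ H₂) hU hlt
  obtain ⟨z₁, hz₁, z₂, hz₂, hz⟩ := Submodule.mem_sup.1 hξL
  -- `z₁` is not constant
  have hz₁c : z₁ ∉ Set.range (algebraMap K F) := by
    rintro ⟨c, rfl⟩
    apply hξ
    apply Submodule.mem_sup_right
    rw [← e₂]
    exact ⟨ξ, hz ▸ L₂.add_mem (const₂ c) hz₂, hξO, rfl⟩
  -- the plane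
  set U : Submodule K F := Submodule.span K {1, z₁} with hUdef
  have hUL : U ≤ L₁ := by
    rw [hUdef, Submodule.span_le]
    rintro u (rfl | rfl)
    · simpa using const₁ 1
    · exact hz₁
  have hli : LinearIndependent K ![(1 : F), z₁] := by
    rw [LinearIndependent.pair_iff]
    intro s t hst
    by_cases ht : t = 0
    · subst ht
      simp at hst
      exact ⟨hst, rfl⟩
    · exfalso
      apply hz₁c
      refine ⟨-(s / t), ?_⟩
      have : t • z₁ = -(s • (1 : F)) := by linear_combination hst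
      have h2 : z₁ = t⁻¹ • (-(s • (1 : F))) := by rw [← this, smul_smul, inv_mul_cancel₀ ht, one_smul]
      rw [h2, Algebra.algebraMap_eq_smul_one, smul_neg, smul_smul, neg_smul, div_eq_mul_inv, mul_comm]
  have hUfin : Module.finrank K U = 2 := by
    have h1 := finrank_span_eq_card hli
    have h2 : Set.range ![(1 : F), z₁] = {1, z₁} := by
      ext u
      simp only [Set.mem_range, Set.mem_insert_iff, Set.mem_singleton_iff]
      constructor
      · rintro ⟨j, rfl⟩
        fin_cases j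
        · left; rfl
        · right; rfl
      · rintro (rfl | rfl)
        · exact ⟨0, rfl⟩
        · exact ⟨1, rfl⟩
    rw [h2] at h1
    rw [hUdef, h1]
    simp
  have : Module.Finite K U := Module.Finite.span_of_finite K (by simp)
  have hone : Submodule.span k {(1 : ∀ i, Fb i)} ≤ T.redSub U := by
    rw [Submodule.span_le, Set.singleton_subset_iff]
    exact ⟨1, Submodule.subset_span (by simp), T.O.one_mem, T.red_one⟩
  have hone1 : Module.finrank k (Submodule.span k {(1 : ∀ i, Fb i)}) < Module.finrank K U := by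
    rw [hUfin]
    exact lt_of_le_of_lt (finrank_span_le_card _) (by simp)
  obtain ⟨y₁, hy₁U, hy₁O, hy₁⟩ := hC.exists_not_mem U _ hone hone1
  obtain ⟨c', c, hy₁eq⟩ := Submodule.mem_span_pair.1 hy₁U
  have hc0 : c ≠ 0 := by
    rintro rfl
    apply hy₁
    rw [Submodule.mem_span_singleton]
    refine ⟨T.redA c', ?_⟩
    funext i
    have h1 : y₁ = algebraMap K F c' := by
      rw [← hy₁eq, zero_smul, add_zero, Algebra.algebraMap_eq_smul_one]
    rw [h1, T.red_algebraMap]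
    simp [Algebra.smul_def]
  have hcinv : c⁻¹ ∉ T.A := by
    intro hcA
    apply hξ
    have hw : c⁻¹ • y₁ = z₁ + algebraMap K F (c⁻¹ * c') := by
      rw [← hy₁eq, smul_add, smul_smul, smul_smul, inv_mul_cancel₀ hc0, one_smul,
        Algebra.algebraMap_eq_smul_one, add_comm]
    have hwO : c⁻¹ • y₁ ∈ T.O := T.smul_mem hcA hy₁O
    have hw₁ : c⁻¹ • y₁ ∈ L₁ := L₁.smul_mem _ (hUL hy₁U)
    have hw₂ : c⁻¹ • y₁ - ξ ∈ L₂ := by
      have : c⁻¹ • y₁ - ξ = algebraMap K F (c⁻¹ * c') - z₂ := by rw [hw, ← hz]; ring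
      rw [this]
      exact L₂.sub_mem (const₂ _) hz₂
    have hw₂O : c⁻¹ • y₁ - ξ ∈ T.O := T.O.sub_mem hwO hξO
    have : T.red ξ = T.red (c⁻¹ • y₁) - T.red (c⁻¹ • y₁ - ξ) := by
      rw [T.red_sub hwO hξO]; abel
    rw [this]
    apply Submodule.sub_mem
    · apply Submodule.mem_sup_left
      rw [← e₁]
      exact ⟨_, hw₁, hwO, rfl⟩
    · apply Submodule.mem_sup_right
      rw [← e₂]
      exact ⟨_, hw₂, hw₂O, rfl⟩
  have hcA : c ∈ T.A := (T.A.mem_or_inv_mem c).resolve_right hcinv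
  have hcξO : c • ξ ∈ T.O := T.smul_mem hcA hξO
  have hy₂O : y₁ - c • ξ ∈ T.O := T.O.sub_mem hy₁O hcξO
  have hy₂L : y₁ - c • ξ ∈ L₂ := by
    have : y₁ - c • ξ = algebraMap K F c' - c • z₂ := by
      rw [← hy₁eq, ← hz, smul_add, Algebra.algebraMap_eq_smul_one]; abel
    rw [this]
    exact L₂.sub_mem (const₂ _) (L₂.smul_mem _ hz₂)
  have hred : T.red (y₁ - c • ξ) = T.red y₁ := by
    rw [T.red_sub hy₁O hcξO, T.red_smul_of_small hcA hcinv hξO, sub_zero]
  have hmem : T.red y₁ ∈ H₁ ⊓ H₂ := by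
    refine ⟨?_, ?_⟩
    · show T.red y₁ ∈ H₁
      rw [← e₁]
      exact ⟨_, hUL hy₁U, hy₁O, rfl⟩
    · show T.red y₁ ∈ H₂
      rw [← e₂]
      exact ⟨_, hy₂L, hy₂O, hred⟩
  rw [hinfH, mem_gluedSub_zero_iff] at hmem
  obtain ⟨v, hv, -⟩ := hmem
  refine ⟨a₀, y₁, y₁ - c • ξ, v, ⟨le_rfl, hUL hy₁U, hy₂L, hy₁O, hy₂O, hv,
    ⟨c, ξ, hc0, hcA, hcinv, hξO, by abel, hξ⟩⟩, ?_⟩
  by_contra hcon
  push Not at hcon
  apply hy₁
  rw [Submodule.mem_span_singleton]
  refine ⟨v i₀, ?_⟩
  funext i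
  rw [hv i, hcon i i₀]
  simp [Algebra.smul_def]

/-- (aux. for A7b) the polynomial of degree `< r` with given coefficients. -/
noncomputable def extPolyOf {R : Type*} [CommRing R] (r : ℕ) (g : Fin r → R) : Polynomial R :=
  ∑ j : Fin r, Polynomial.monomial (j : ℕ) (g j)

theorem extPolyOf_coeff {R : Type*} [CommRing R] (r : ℕ) (g : Fin r → R) (n : ℕ) :
    (extPolyOf r g).coeff n = if h : n < r then g ⟨n, h⟩ else 0 := by
  unfold extPolyOf
  rw [Polynomial.finsetSum_coeff]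
  simp only [Polynomial.coeff_monomial]
  split_ifs with h
  · rw [Finset.sum_eq_single ⟨n, h⟩]
    · simp
    · intro j _ hj
      rw [if_neg]
      intro h'
      exact hj (Fin.ext h')
    · simp
  · apply Finset.sum_eq_zero
    intro j _
    rw [if_neg]
    intro h'
    exact h (h' ▸ j.2)

theorem extPolyOf_degree_lt {R : Type*} [CommRing R] (r : ℕ) (g : Fin r → R) :
    (extPolyOf r g).degree < r := by
  rw [Polynomial.degree_lt_iff_coeff_zero]
  intro m hm
  rw [extPolyOf_coeff, dif_neg (by omega)]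

theorem aeval_extPolyOf {R A : Type*} [CommRing R] [CommRing A] [Algebra R A] (r : ℕ)
    (g : Fin r → R) (y : A) :
    Polynomial.aeval y (extPolyOf r g) = ∑ j : Fin r, g j • y ^ (j : ℕ) := by
  unfold extPolyOf
  rw [map_sum]
  simp [Polynomial.aeval_monomial, Algebra.smul_def]

/-- **(A7b)**  The optimal lift of the minimal polynomial.  Let `(y₁, y₂)` be an extremal pair, `r ≥ 2` the number of values
of `v`. There are a monic `P ∈ A[X]` of degree `r` (given as a polynomial over `K` with coefficients in `A`), `c'` small, `c' ≠ 0`, and `θ ∈ L(r a X_∞) ∩ O`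
with `P(y₁) = c' θ`, `red θ` not a polynomial in `red y₁`, i.e. not of the form `i ↦ g (v i)`, and `P̄(v i) = 0`, `P̄'(v i) ≠ 0` for all `i`.
PROOF. `y₁` is not constant, hence transcendental over `K`; `U := span (1, y₁, …, y₁ ^ r) ⊆ L(r a X_∞)` has dimension `r + 1`, and so has `redSub U`; it contains
the `r`-dimensional space `C_y` spanned by `red y₁ ^ i`, `i < r` (Vandermonde), which is the space of all `i ↦ g (v i)`. `IsCartesian.exists_not_mem`: `θ ∈ U ∩ O`, `red θ ∉ C_y`.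
`IsCartesian.exists_coeff` for the family `(1, …, y₁ ^ (r-1), θ)`: `y₁ ^ r = c' θ - ∑_{i<r} bᵢ y₁ ^ i`, `c', bᵢ ∈ A`. Reducing: `c̄' = 0` and
`P̄ = X ^ r + ∑ b̄ᵢ X ^ i` kills the `r` distinct values of `v`, so `P̄ = ∏ (X - value)` is separable. `c' ≠ 0` by transcendence. -/
theorem ExtPair.exists_poly {T : MultiRed K F k Fb} {x : F} {N : NodeData k Fb E} {a₀ : ℕ}
    {h : IsPreNodal T x N a₀} {a : ℕ} {y₁ y₂ : F} {v : ι → k} (hp : ExtPair h a y₁ y₂ v)
    (hv : ∃ i j, v i ≠ v j) :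
    ∃ (r : ℕ) (P : Polynomial K) (Pb : Polynomial k) (c' : K) (θ : F), 0 < r ∧ P.natDegree = r ∧
      (∀ n, P.coeff n ∈ T.A ∧ T.redA (P.coeff n) = Pb.coeff n) ∧
      (∀ i, Pb.eval (v i) = 0 ∧ (Polynomial.derivative Pb).eval (v i) ≠ 0) ∧
      c' ≠ 0 ∧ c' ∈ T.A ∧ c'⁻¹ ∉ T.A ∧ θ ∈ T.O ∧ θ ∈ riemannRochSpace (bipole K x (r * a) 0) ∧
      Polynomial.aeval y₁ P = c' • θ ∧
      ¬ ∃ g : k → k, ∀ i, T.red θ i = algebraMap k (Fb i) (g (v i)) := by
  classical
  obtain ⟨i₀, j₀, hij⟩ := hv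
  have hne : Nonempty ι := ⟨i₀⟩
  have hC := h.cart
  set ρ : ∀ i, Fb i := T.red y₁ with hρ
  have hρi : ∀ i, ρ i = algebraMap k (Fb i) (v i) := hp.red₁
  have haev : ∀ (p : Polynomial k) (i : ι),
      Polynomial.aeval ρ p i = algebraMap k (Fb i) (p.eval (v i)) := by
    intro p i
    have h1 : Polynomial.aeval (ρ i) p = Polynomial.aeval ρ p i :=
      Polynomial.aeval_algHom_apply (Pi.evalAlgHom k Fb i) ρ p
    rw [← h1, hρi, Polynomial.aeval_algebraMap_apply_eq_algebraMap_eval]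
  set S : Finset k := Finset.univ.image v with hS
  have hvS : ∀ i, v i ∈ S := fun i => Finset.mem_image_of_mem v (Finset.mem_univ i)
  set r : ℕ := S.card with hrdef
  have hr : 0 < r := Finset.card_pos.2 ⟨v i₀, hvS i₀⟩
  -- `y₁` is transcendental
  have hnc : y₁ ∉ Set.range (algebraMap K F) := by
    rintro ⟨c, hc⟩
    have h1 : ∀ i, v i = T.redA c := by
      intro i
      have h2 := hp.red₁ i
      rw [← hc, T.red_algebraMap] at h2
      exact ((algebraMap k (Fb i)).injective h2).symm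
    exact hij ((h1 i₀).trans (h1 j₀).symm)
  have htr : Transcendental K y₁ := by
    intro halg
    apply hnc
    have hint : IsIntegral K y₁ := halg.isIntegral
    have hdeg := IsAlgClosed.degree_eq_one_of_irreducible K (minpoly.irreducible hint)
    exact minpoly.mem_range_of_degree_eq_one K y₁ hdeg
  -- the space of the functions of `v`
  let e : Fin r → (∀ i, Fb i) := fun j => ρ ^ (j : ℕ)
  have hze : ∀ p : Polynomial k, p.degree < r → Polynomial.aeval ρ p = 0 → p = 0 := by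
    intro p hdeg h0
    apply Polynomial.eq_zero_of_degree_lt_of_eval_finset_eq_zero S hdeg
    intro s hs
    obtain ⟨i, -, rfl⟩ := Finset.mem_image.1 hs
    have h1 := congrFun h0 i
    rw [haev, Pi.zero_apply] at h1
    exact (map_eq_zero _).1 h1
  have hli_e : LinearIndependent k e := by
    rw [Fintype.linearIndependent_iff]
    intro g hg j
    have h1 : Polynomial.aeval ρ (extPolyOf r g) = 0 := by
      rw [aeval_extPolyOf]; exact hg
    have h2 := hze _ (extPolyOf_degree_lt r g) h1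
    have h3 := extPolyOf_coeff r g j
    rw [h2, Polynomial.coeff_zero, dif_pos j.2] at h3
    exact h3.symm
  set Cy : Submodule k (∀ i, Fb i) := Submodule.span k (Set.range e) with hCy
  have hCy_rank : Module.finrank k Cy = r := by
    rw [hCy, finrank_span_eq_card hli_e, Fintype.card_fin]
  have hfun : ∀ g : k → k, (fun i => algebraMap k (Fb i) (g (v i))) ∈ Cy := by
    intro g
    set p := Lagrange.interpolate S id g with hpdef
    have hdeg : p.degree < r := Lagrange.degree_interpolate_lt g (Set.injOn_id _)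
    have hnat : p.natDegree < r := by
      by_cases h0 : p = 0
      · rw [h0, Polynomial.natDegree_zero]; exact hr
      · exact (Polynomial.natDegree_lt_iff_degree_lt h0).2 hdeg
    have h1 : (fun i => algebraMap k (Fb i) (g (v i))) = Polynomial.aeval ρ p := by
      funext i
      rw [haev]
      congr 1
      exact (Lagrange.eval_interpolate_at_node (v := id) g (Set.injOn_id _) (hvS i)).symm
    rw [h1, Polynomial.aeval_eq_sum_range' hnat]
    apply Submodule.sum_mem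
    intro n hn
    apply Submodule.smul_mem
    exact Submodule.subset_span ⟨⟨n, Finset.mem_range.1 hn⟩, rfl⟩
  have hpowC : ∀ n : ℕ, ρ ^ n ∈ Cy := by
    intro n
    have h1 := hfun (fun s => s ^ n)
    have h2 : (fun i => algebraMap k (Fb i) ((fun s => s ^ n) (v i))) = ρ ^ n := by
      funext i
      rw [Pi.pow_apply, hρi, map_pow]
    rwa [h2] at h1
  -- the space `U`
  let u : Fin (r + 1) → F := fun j => y₁ ^ (j : ℕ)
  have hli_u : LinearIndependent K u :=
    (riemann_linearIndependent_pow htr).comp _ Fin.val_injective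
  set U : Submodule K F := Submodule.span K (Set.range u) with hU
  have hU_rank : Module.finrank K U = r + 1 := by
    rw [hU, finrank_span_eq_card hli_u, Fintype.card_fin]
  have hUfin : Module.Finite K U := Module.Finite.span_of_finite K (Set.finite_range u)
  have hyO : ∀ n : ℕ, y₁ ^ n ∈ T.O := fun n => T.O.pow_mem hp.int₁ n
  have hyU : ∀ n : ℕ, n ≤ r → y₁ ^ n ∈ U := fun n hn =>
    Submodule.subset_span ⟨⟨n, by omega⟩, rfl⟩
  have hUL : U ≤ riemannRochSpace (bipole K x (r * a) 0) := by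
    rw [hU, Submodule.span_le]
    rintro _ ⟨j, rfl⟩
    have h1 := pow_mem_L hp.mem₁ (j : ℕ)
    rw [← bipole_smul, mul_zero] at h1
    exact L_mono (bipole_mono x (Nat.mul_le_mul_right a (Nat.lt_succ_iff.1 j.2)) le_rfl) h1
  have hCyU : Cy ≤ T.redSub U := by
    rw [hCy, Submodule.span_le]
    rintro _ ⟨j, rfl⟩
    exact ⟨y₁ ^ (j : ℕ), hyU _ j.2.le, hyO _, T.red_pow _ _⟩
  obtain ⟨θ, hθU, hθO, hθC⟩ := hC.exists_not_mem U Cy hCyU (by rw [hCy_rank, hU_rank]; omega)
  -- the lattice basis `(θ, 1, …, y₁ ^ (r - 1))`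
  let b : Fin (r + 1) → F := Fin.cons θ (fun j : Fin r => y₁ ^ (j : ℕ))
  have hb0 : b 0 = θ := rfl
  have hbs : ∀ j : Fin r, b j.succ = y₁ ^ (j : ℕ) := fun j => rfl
  have hb_red : (fun j => T.red (b j)) = (Fin.cons (T.red θ) e : Fin (r + 1) → (∀ i, Fb i)) := by
    funext j
    refine Fin.cases ?_ (fun j => ?_) j
    · rw [hb0, Fin.cons_zero]
    · rw [hbs, Fin.cons_succ, T.red_pow]
  have hli_b : LinearIndependent k (fun j => T.red (b j)) := by
    rw [hb_red, linearIndependent_finCons]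
    exact ⟨hli_e, hθC⟩
  have hbU : ∀ j, b j ∈ U := by
    intro j
    refine Fin.cases ?_ (fun j => ?_) j
    · rw [hb0]; exact hθU
    · rw [hbs]; exact hyU _ j.2.le
  have hbO : ∀ j, b j ∈ T.O := by
    intro j
    refine Fin.cases ?_ (fun j => ?_) j
    · rw [hb0]; exact hθO
    · rw [hbs]; exact hyO _
  have hfin : Module.Finite k (T.redSub U) := T.finite_redSub U
  have hspan : T.redSub U ≤ Submodule.span k (Set.range fun j => T.red (b j)) := by
    have hle : Submodule.span k (Set.range fun j => T.red (b j)) ≤ T.redSub U := by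
      rw [Submodule.span_le]
      rintro _ ⟨j, rfl⟩
      exact ⟨b j, hbU j, hbO j, rfl⟩
    have hrk : Module.finrank k (Submodule.span k (Set.range fun j => T.red (b j))) =
        Module.finrank k (T.redSub U) := by
      rw [finrank_span_eq_card hli_b, Fintype.card_fin, hC U hUfin, hU_rank]
    exact (Submodule.eq_of_le_of_finrank_eq hle hrk).ge
  obtain ⟨c, hcA, hc⟩ := hC.exists_coeff U b hbU hbO hli_b hspan (hyU r le_rfl) (hyO r)
  rw [Fin.sum_univ_succ, hb0] at hc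
  simp only [hbs] at hc
  -- the polynomials
  set P : Polynomial K := Polynomial.X ^ r - extPolyOf r (fun j => c j.succ) with hP
  set Pb : Polynomial k := Polynomial.X ^ r - extPolyOf r (fun j => T.redA (c j.succ)) with hPb
  have hPmonic : P.Monic := Polynomial.monic_X_pow_sub (extPolyOf_degree_lt _ _)
  have hPbmonic : Pb.Monic := Polynomial.monic_X_pow_sub (extPolyOf_degree_lt _ _)
  have hPdeg : P.degree = r := by
    have h1 : (extPolyOf r fun j => c j.succ).degree < (Polynomial.X ^ r : Polynomial K).degree := by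
      rw [Polynomial.degree_X_pow]; exact extPolyOf_degree_lt _ _
    rw [hP, Polynomial.degree_sub_eq_left_of_degree_lt h1, Polynomial.degree_X_pow]
  have hPbdeg : Pb.degree = r := by
    have h1 : (extPolyOf r fun j => T.redA (c j.succ)).degree <
        (Polynomial.X ^ r : Polynomial k).degree := by
      rw [Polynomial.degree_X_pow]; exact extPolyOf_degree_lt _ _
    rw [hPb, Polynomial.degree_sub_eq_left_of_degree_lt h1, Polynomial.degree_X_pow]
  have hPaeval : Polynomial.aeval y₁ P = c 0 • θ := by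
    rw [hP, map_sub, map_pow, Polynomial.aeval_X, aeval_extPolyOf, hc, add_sub_cancel_right]
  have hredA_neg : ∀ t : K, T.redA (-t) = -T.redA t := by
    intro t
    rw [← T.redA_eq i₀, (T.R i₀).redA_neg, T.redA_eq]
  have hredA_zero : T.redA 0 = 0 := by
    rw [← T.redA_eq i₀, (T.R i₀).redA_zero]
  have hcoeff : ∀ n, P.coeff n ∈ T.A ∧ T.redA (P.coeff n) = Pb.coeff n := by
    intro n
    rw [hP, hPb, Polynomial.coeff_sub, Polynomial.coeff_sub, Polynomial.coeff_X_pow,
      Polynomial.coeff_X_pow, extPolyOf_coeff, extPolyOf_coeff]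
    by_cases h1 : n < r
    · rw [dif_pos h1, dif_pos h1, if_neg (by omega), if_neg (by omega), zero_sub, zero_sub]
      exact ⟨T.A.neg_mem _ (hcA _), hredA_neg _⟩
    · rw [dif_neg h1, dif_neg h1, sub_zero, sub_zero]
      by_cases h2 : n = r
      · rw [if_pos h2, if_pos h2]; exact ⟨T.A.one_mem, T.redA_one⟩
      · rw [if_neg h2, if_neg h2]; exact ⟨T.A.zero_mem, hredA_zero⟩
  -- the reduced equation
  have hred : ρ ^ r = T.redA (c 0) • T.red θ + ∑ j : Fin r, T.redA (c j.succ) • ρ ^ (j : ℕ) := by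
    have h1 := congrArg T.red hc
    rw [T.red_pow, T.red_add (T.smul_mem (hcA 0) hθO)
      (T.O.sum_mem fun j _ => T.smul_mem (hcA _) (hyO _)), T.red_smul (hcA 0) hθO,
      T.red_sum _ _ (fun j _ => T.smul_mem (hcA _) (hyO _))] at h1
    rw [h1]
    congr 1
    apply Finset.sum_congr rfl
    intro j _
    rw [T.red_smul (hcA _) (hyO _), T.red_pow]
  have hc0 : T.redA (c 0) = 0 := by
    by_contra hne0
    apply hθC
    have h1 : T.redA (c 0) • T.red θ ∈ Cy := by
      have h2 : T.redA (c 0) • T.red θ =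
          ρ ^ r - ∑ j : Fin r, T.redA (c j.succ) • ρ ^ (j : ℕ) := by
        rw [hred, add_sub_cancel_right]
      rw [h2]
      exact Cy.sub_mem (hpowC r) (Cy.sum_mem fun j _ => Cy.smul_mem _ (hpowC _))
    exact (Submodule.smul_mem_iff _ hne0).1 h1
  have hc0ne : c 0 ≠ 0 := by
    intro h0
    rw [h0, zero_smul] at hPaeval
    exact hPmonic.ne_zero ((transcendental_iff.1 htr) P hPaeval)
  have hc0inv : (c 0)⁻¹ ∉ T.A := by
    intro hinv
    exact (T.redA_ne_zero_iff.2 ⟨hc0ne, hcA 0, hinv⟩) hc0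
  have hPb_eval : ∀ i, Pb.eval (v i) = 0 := by
    intro i
    have h1 : Polynomial.aeval ρ Pb = 0 := by
      rw [hPb, map_sub, map_pow, Polynomial.aeval_X, aeval_extPolyOf, hred, hc0, zero_smul,
        zero_add, sub_self]
    have h2 := congrFun h1 i
    rw [haev, Pi.zero_apply] at h2
    exact (map_eq_zero _).1 h2
  have hPb_eq : Pb = Lagrange.nodal S id := by
    apply Polynomial.eq_of_degree_sub_lt_of_eval_finset_eq S
    · have h1 := Polynomial.degree_sub_lt_left (p := Pb) (q := Lagrange.nodal S id)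
        (by rw [hPbdeg, Lagrange.degree_nodal]) hPbmonic.ne_zero
        (by rw [hPbmonic.leadingCoeff, Lagrange.nodal_monic.leadingCoeff])
      rwa [hPbdeg] at h1
    · intro s hs
      obtain ⟨i, -, rfl⟩ := Finset.mem_image.1 hs
      rw [hPb_eval]
      exact (Lagrange.eval_nodal_at_node (v := id) hs).symm
  have hder : ∀ i, (Polynomial.derivative Pb).eval (v i) ≠ 0 := by
    intro i
    rw [hPb_eq]
    have h1 := Lagrange.eval_nodal_derivative_eval_node_eq (v := id) (hvS i)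
    simp only [id] at h1
    rw [h1]
    apply Lagrange.eval_nodal_not_at_node
    intro s hs'
    exact (Finset.mem_erase.1 hs').1.symm
  refine ⟨r, P, Pb, c 0, θ, hr, Polynomial.natDegree_eq_of_degree_eq_some hPdeg, hcoeff,
    fun i => ⟨hPb_eval i, hder i⟩, hc0ne, hcA 0, hc0inv, hθO, hUL hθU, hPaeval, ?_⟩
  rintro ⟨g, hg⟩
  apply hθC
  have h1 : T.red θ = fun i => algebraMap k (Fb i) (g (v i)) := funext hg
  rw [h1]
  exact hfun g

/-! ### helpers for (A7c) -/

/-- refining a function strictly increases the number of its values. -/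
theorem ExtMore.card_image_lt {ι κ : Type*} [Fintype ι] [DecidableEq κ] (f f' : ι → κ)
    (H1 : ∀ i j, f' i = f' j → f i = f j) (H2 : ∃ i j, f i = f j ∧ f' i ≠ f' j) :
    (Finset.univ.image f).card < (Finset.univ.image f').card := by
  classical
  obtain ⟨i₀, j₀, h0, h0'⟩ := H2
  let g : κ → κ := fun s => if h : ∃ i, f' i = s then f h.choose else f i₀
  have hg : ∀ i, g (f' i) = f i := by
    intro i
    have h : ∃ i', f' i' = f' i := ⟨i, rfl⟩
    simp only [g, dif_pos h]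
    exact H1 _ _ h.choose_spec
  have himg : Finset.univ.image f = (Finset.univ.image f').image g := by
    rw [Finset.image_image]
    refine Finset.image_congr fun i _ => ?_
    exact (hg i).symm
  rw [himg]
  refine lt_of_le_of_ne Finset.card_image_le ?_
  intro heq
  have hinj := Finset.card_image_iff.1 heq
  exact h0' (hinj (by simp) (by simp) (by rw [hg, hg, h0]))

omit [∀ i, IsFF k (Fb i)] [IsAlgClosed k] [Field k] [∀ i, Field (Fb i)] [∀ i, Algebra k (Fb i)] in
theorem ExtMore.aeval_mem_L (x : F) {a b : ℕ} {y : F}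
    (hy : y ∈ riemannRochSpace (bipole K x a b)) {r : ℕ} {P : Polynomial K} (hP : P.natDegree ≤ r) :
    Polynomial.aeval y P ∈ riemannRochSpace (bipole K x (r * a) (r * b)) := by
  rw [Polynomial.aeval_eq_sum_range' (Nat.lt_succ_of_le hP)]
  refine Submodule.sum_mem _ fun n hn => Submodule.smul_mem _ _ ?_
  have hn' : n ≤ r := Nat.lt_succ_iff.1 (Finset.mem_range.1 hn)
  have h1 := pow_mem_L hy n
  rw [← bipole_smul] at h1
  exact L_mono (bipole_mono x (Nat.mul_le_mul_right a hn') (Nat.mul_le_mul_right b hn')) h1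

omit [IsFF K F] [IsAlgClosed K] [∀ i, IsFF k (Fb i)] [IsAlgClosed k] [Fintype ι] in
theorem ExtMore.aeval_mem_O (T : MultiRed K F k Fb) {y : F} (hy : y ∈ T.O) {P : Polynomial K}
    (hP : ∀ n, P.coeff n ∈ T.A) : Polynomial.aeval y P ∈ T.O := by
  rw [Polynomial.aeval_eq_sum_range]
  exact T.O.sum_mem fun n _ => T.smul_mem (hP n) (T.O.pow_mem hy n)

/-- the divided difference `(P(y₁) - P(y₂)) / (y₁ - y₂)`. -/
noncomputable def ExtMore.Del (P : Polynomial K) (y₁ y₂ : F) : F :=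
  ∑ n ∈ Finset.range (P.natDegree + 1),
    P.coeff n • ∑ j ∈ Finset.range n, y₁ ^ j * y₂ ^ (n - 1 - j)

omit [IsFF K F] [IsAlgClosed K] in
theorem ExtMore.Del_mul (P : Polynomial K) (y₁ y₂ : F) :
    ExtMore.Del P y₁ y₂ * (y₁ - y₂) = Polynomial.aeval y₁ P - Polynomial.aeval y₂ P := by
  rw [ExtMore.Del, Finset.sum_mul, Polynomial.aeval_eq_sum_range, Polynomial.aeval_eq_sum_range,
    ← Finset.sum_sub_distrib]
  refine Finset.sum_congr rfl fun n _ => ?_
  rw [smul_mul_assoc, geom_sum₂_mul, smul_sub]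

omit [IsFF K F] [IsAlgClosed K] [∀ i, IsFF k (Fb i)] [IsAlgClosed k] [Fintype ι] in
theorem ExtMore.Del_mem_O (T : MultiRed K F k Fb) {P : Polynomial K} (hP : ∀ n, P.coeff n ∈ T.A)
    {y₁ y₂ : F} (h1 : y₁ ∈ T.O) (h2 : y₂ ∈ T.O) : ExtMore.Del P y₁ y₂ ∈ T.O :=
  T.O.sum_mem fun n _ => T.smul_mem (hP n) (T.O.sum_mem fun j _ =>
    T.O.mul_mem (T.O.pow_mem h1 j) (T.O.pow_mem h2 _))

omit [IsFF K F] [IsAlgClosed K] [∀ i, IsFF k (Fb i)] [IsAlgClosed k] [Fintype ι] in
theorem ExtMore.redA_zero (T : MultiRed K F k Fb) [Nonempty ι] : T.redA 0 = 0 := by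
  by_contra h0
  exact (T.redA_ne_zero_iff.1 h0).1 rfl

omit [IsFF K F] [IsAlgClosed K] [∀ i, IsFF k (Fb i)] [IsAlgClosed k] [Fintype ι] in
theorem ExtMore.red_Del (T : MultiRed K F k Fb) [Nonempty ι] {P : Polynomial K} {Pb : Polynomial k}
    (hP : ∀ n, P.coeff n ∈ T.A ∧ T.redA (P.coeff n) = Pb.coeff n) {y₁ y₂ : F} (h1 : y₁ ∈ T.O)
    (h2 : y₂ ∈ T.O) {v : ι → k} (hr1 : ∀ i, T.red y₁ i = algebraMap k (Fb i) (v i))
    (hr2 : ∀ i, T.red y₂ i = algebraMap k (Fb i) (v i)) (i : ι) :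
    T.red (ExtMore.Del P y₁ y₂) i =
      algebraMap k (Fb i) ((Polynomial.derivative Pb).eval (v i)) := by
  have hdeg : Pb.natDegree < P.natDegree + 1 := by
    refine Nat.lt_succ_of_le (Polynomial.natDegree_le_iff_coeff_eq_zero.2 fun n hn => ?_)
    rw [← (hP n).2, Polynomial.coeff_eq_zero_of_natDegree_lt hn, ExtMore.redA_zero]
  have hterm : ∀ n j : ℕ, j ∈ Finset.range n →
      T.red (y₁ ^ j * y₂ ^ (n - 1 - j)) i = algebraMap k (Fb i) (v i ^ (n - 1)) := by
    intro n j hj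
    have hj' : j + (n - 1 - j) = n - 1 := by
      have := Finset.mem_range.1 hj
      omega
    rw [T.red_mul (T.O.pow_mem h1 j) (T.O.pow_mem h2 _), T.red_pow, T.red_pow, Pi.mul_apply,
      Pi.pow_apply, Pi.pow_apply, hr1, hr2, ← pow_add, hj', map_pow]
  have hinner : ∀ n : ℕ, T.red (∑ j ∈ Finset.range n, y₁ ^ j * y₂ ^ (n - 1 - j)) i =
      algebraMap k (Fb i) (n * v i ^ (n - 1)) := by
    intro n
    rw [T.red_sum _ _ (fun j _ => T.O.mul_mem (T.O.pow_mem h1 j) (T.O.pow_mem h2 _)),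
      Finset.sum_apply, Finset.sum_congr rfl (hterm n), Finset.sum_const, Finset.card_range,
      nsmul_eq_mul, map_mul, map_natCast]
  rw [ExtMore.Del, T.red_sum _ _ (fun n _ => T.smul_mem (hP n).1 (T.O.sum_mem fun j _ =>
      T.O.mul_mem (T.O.pow_mem h1 j) (T.O.pow_mem h2 _))), Finset.sum_apply,
    Polynomial.derivative_eval, Polynomial.sum_over_range' _ (by intro n; simp) _ hdeg, map_sum]
  refine Finset.sum_congr rfl fun n _ => ?_
  rw [T.red_smul (hP n).1 (T.O.sum_mem fun j _ =>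
      T.O.mul_mem (T.O.pow_mem h1 j) (T.O.pow_mem h2 _)), Pi.smul_apply, hinner, (hP n).2,
    Algebra.smul_def, ← map_mul, mul_assoc]

/-- **(A7c)**  An extremal pair with non constant `v` produces an extremal pair with more values.
PROOF. `P, Pb, c', θ` from `exists_poly`; `c, ξ` from `hp.ext`. `w₂ := P(y₂) ∈ L(r a X_0) ∩ O`. `P(y₁) - P(y₂) = (y₁ - y₂) Δ` with `Δ ∈ O`,
`red Δ = Pb'(v)` (`Polynomial.sub_dvd_eval_sub`-type identity: do it monomial by monomial with `geom_sum₂`), a locally constant glued unit. `ξ'' := ξ Δ`.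
(i) `red ξ'' ∉ G(r a,0) ⊔ G(0,r a)`: otherwise, multiplying by the glued locally constant family `1 / Pb'(v) ∈ G(0,0)` (`mul_mem_gluedSub`), `red ξ` would be in it, and
`red ξ ∈ G(a,a)` (`ξ = c⁻¹ (y₁ - y₂) ∈ L(a X_∞ + a X_0)`), so `red ξ ∈ G(a,0) ⊔ G(0,a)` by `gluedSub_sup_inf`.
(ii) `c' θ - w₂ = c ξ''`. If `c'/c ∈ A`: `w₂ / c = (c'/c) θ - ξ''` is integral and `red ξ'' ∈ H(r a,0) + H(0,r a)`: contradiction with (i).
(iii) so `c/c'` is small; `θ₂ := w₂ / c' = θ - (c/c') ξ''` is integral, in `L(r a X_0)`, `red θ₂ = red θ ∈ G(r a,0) ∩ G(0,r a) = G(0,0)`: `red θ = (t i)ᵢ` locally constant.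
For `λ ∈ A`: `(θ + λ y₁, θ₂ + λ y₂)` is an extremal pair at level `r a` with `c/c'`, `ξ'' + λ c' ξ` (same reduction as `ξ''`) and `v' = t + λ̄ v`. `t` is not a function of `v`, so the partition
of `ι` defined by `(t, v)` is strictly finer than that of `v`; for `λ̄` outside the finite set `{-(t i - t j)/(v i - v j)}`, `v'` separates what `(t, v)` separates. -/
theorem ExtPair.exists_more {T : MultiRed K F k Fb} {x : F} {N : NodeData k Fb E} {a₀ : ℕ}
    {h : IsPreNodal T x N a₀} [DecidableEq k] {a : ℕ} {y₁ y₂ : F} {v : ι → k}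
    (hp : ExtPair h a y₁ y₂ v) (hv : ∃ i j, v i ≠ v j) :
    ∃ (a' : ℕ) (y₁' y₂' : F) (v' : ι → k), ExtPair h a' y₁' y₂' v' ∧
      (Finset.univ.image v).card < (Finset.univ.image v').card := by
  classical
  have hne : Nonempty ι := ⟨hv.choose⟩
  obtain ⟨r, P, Pb, c', θ, hr, hPdeg, hP, hPb, hc'0, hc'A, hc'inv, hθO, hθL, hPθ, hθg⟩ :=
    hp.exists_poly hv
  obtain ⟨c, ξ, hc0, hcA, hcinv, hξO, hyξ, hξ⟩ := hp.ext
  have hy1O := hp.int₁
  have hy2O := hp.int₂
  have hPA : ∀ n, P.coeff n ∈ T.A := fun n => (hP n).1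
  have ha_le : a ≤ r * a := Nat.le_mul_of_pos_left a hr
  have ha0 : a₀ ≤ r * a := hp.ha.trans ha_le
  -- abbreviations for the glued spaces
  set G : ℕ → ℕ → Submodule k (∀ i, Fb i) := fun s t => gluedSub N (T.red x) h.adapted 1 s t with hG
  have hredG : ∀ s t : ℕ, a₀ ≤ s + t → T.redSub (riemannRochSpace (bipole K x s t)) = G s t :=
    fun s t hst => h.redSub_eq hst
  -- `red y₂ = red y₁`
  have hred2 : ∀ i, T.red y₂ i = algebraMap k (Fb i) (v i) := by
    intro i
    have e : y₂ = y₁ - c • ξ := by rw [← hyξ]; ring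
    rw [e, T.red_sub hy1O (T.smul_mem hcA hξO), T.red_smul_of_small hcA hcinv hξO, sub_zero]
    exact hp.red₁ i
  -- `v` is glued
  have hvglue : ∀ e, v (N.i₁ e) = v (N.i₂ e) := by
    intro e
    have h1 : T.red y₁ ∈ G a 0 := by
      rw [← hredG a 0 (by simpa using hp.ha)]
      exact ⟨y₁, hp.mem₁, hy1O, rfl⟩
    have h2 := (mem_gluedSub.1 h1).2 e
    rw [hp.red₁, hp.red₁, ev_algebraMap, ev_algebraMap] at h2
    simpa using h2
  -- the divided difference
  set Δ := ExtMore.Del P y₁ y₂ with hΔ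
  have hΔO : Δ ∈ T.O := ExtMore.Del_mem_O T hPA hy1O hy2O
  have hΔred : ∀ i, T.red Δ i = algebraMap k (Fb i) ((Polynomial.derivative Pb).eval (v i)) :=
    ExtMore.red_Del T hP hy1O hy2O hp.red₁ hred2
  set w₂ := Polynomial.aeval y₂ P with hw₂
  have hw₂O : w₂ ∈ T.O := ExtMore.aeval_mem_O T hy2O hPA
  have hw₂L : w₂ ∈ riemannRochSpace (bipole K x 0 (r * a)) := by
    have := ExtMore.aeval_mem_L x hp.mem₂ hPdeg.le
    rwa [Nat.mul_zero] at this
  set ξ'' := ξ * Δ with hξ''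
  have hξ''O : ξ'' ∈ T.O := T.O.mul_mem hξO hΔO
  have hrel : c' • θ - w₂ = c • ξ'' := by
    rw [← hPθ, hw₂, ← ExtMore.Del_mul, hyξ, hξ'', ← hΔ]
    rw [mul_smul_comm, mul_comm]
  -- (i)
  have hξGaa : T.red ξ ∈ G a a := by
    rw [← hredG a a (hp.ha.trans (Nat.le_add_right a a))]
    refine ⟨ξ, ?_, hξO, rfl⟩
    have e : ξ = c⁻¹ • (y₁ - y₂) := by rw [hyξ, smul_smul, inv_mul_cancel₀ hc0, one_smul]
    rw [e]
    refine Submodule.smul_mem _ _ (Submodule.sub_mem _ ?_ ?_)
    · exact L_mono (bipole_mono x le_rfl (Nat.zero_le a)) hp.mem₁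
    · exact L_mono (bipole_mono x (Nat.zero_le a) le_rfl) hp.mem₂
  have hi : T.red ξ'' ∉ G (r * a) 0 ⊔ G 0 (r * a) := by
    intro hcon
    set ε : ∀ i, Fb i := fun i => algebraMap k (Fb i) ((Polynomial.derivative Pb).eval (v i))⁻¹
      with hε
    have hεG : ε ∈ G 0 0 := by
      rw [hG]
      refine (mem_gluedSub_zero_iff N (T.red x) h.adapted 1 ε).2
        ⟨fun i => ((Polynomial.derivative Pb).eval (v i))⁻¹, fun i => rfl, fun e => ?_⟩
      simp only [Pi.one_apply, one_mul]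
      rw [hvglue e]
    have hmul : ∀ s t : ℕ, ∀ z ∈ G s t, ε * z ∈ G s t := by
      intro s t z hz
      have := mul_mem_gluedSub N (T.red x) h.adapted hεG hz
      rwa [one_mul, Nat.zero_add, Nat.zero_add] at this
    have hεξ : ε * T.red ξ'' = T.red ξ := by
      funext i
      rw [hξ'', T.red_mul hξO hΔO, Pi.mul_apply, Pi.mul_apply, hΔred i, hε, mul_comm (T.red ξ i),
        ← mul_assoc, ← map_mul, inv_mul_cancel₀ (hPb i).2, map_one, one_mul]
    obtain ⟨z₁, hz₁, z₂, hz₂, hz⟩ := Submodule.mem_sup.1 hcon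
    have h1 : T.red ξ ∈ G (r * a) 0 ⊔ G 0 (r * a) := by
      rw [← hεξ, ← hz, mul_add]
      exact Submodule.add_mem_sup (hmul _ _ _ hz₁) (hmul _ _ _ hz₂)
    have h2 : T.red ξ ∈ (G (r * a) 0 ⊔ G 0 (r * a)) ⊓ G a a := ⟨h1, hξGaa⟩
    rw [hG, gluedSub_sup_inf N (T.red x) h.adapted 1 ha_le ha_le] at h2
    exact hξ h2
  -- (ii)
  have hii : c' * c⁻¹ ∉ T.A := by
    intro hcon
    apply hi
    have e : ξ'' = (c' * c⁻¹) • θ - c⁻¹ • w₂ := by
      have : c⁻¹ • (c' • θ - w₂) = ξ'' := by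
        rw [hrel, smul_smul, inv_mul_cancel₀ hc0, one_smul]
      rw [← this, smul_sub, smul_smul, mul_comm]
    have hθ' : (c' * c⁻¹) • θ ∈ T.O := T.smul_mem hcon hθO
    have hw' : c⁻¹ • w₂ ∈ T.O := by
      have : c⁻¹ • w₂ = (c' * c⁻¹) • θ - ξ'' := by rw [e]; ring
      rw [this]
      exact T.O.sub_mem hθ' hξ''O
    rw [e, T.red_sub hθ' hw', sub_eq_add_neg]
    refine Submodule.add_mem_sup ?_ (Submodule.neg_mem _ ?_)
    · rw [← hredG (r * a) 0 (by simpa using ha0)]
      exact ⟨_, Submodule.smul_mem _ _ hθL, hθ', rfl⟩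
    · rw [← hredG 0 (r * a) (by simpa using ha0)]
      exact ⟨_, Submodule.smul_mem _ _ hw₂L, hw', rfl⟩
  -- (iii)
  set c₁ := c * c'⁻¹ with hc₁
  have hc₁inv : c₁⁻¹ = c' * c⁻¹ := by rw [hc₁, mul_inv, inv_inv, mul_comm]
  have hc₁0 : c₁ ≠ 0 := mul_ne_zero hc0 (inv_ne_zero hc'0)
  have hc₁A : c₁ ∈ T.A := by
    rcases T.A.mem_or_inv_mem c₁ with h1 | h1
    · exact h1
    · rw [hc₁inv] at h1
      exact absurd h1 hii
  have hc₁small : c₁⁻¹ ∉ T.A := by rw [hc₁inv]; exact hii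
  set θ₂ := c'⁻¹ • w₂ with hθ₂
  have hθ₂eq : θ₂ = θ - c₁ • ξ'' := by
    have : c'⁻¹ • (c' • θ - w₂) = c₁ • ξ'' := by rw [hrel, smul_smul, mul_comm c'⁻¹]
    rw [← this, smul_sub, smul_smul, inv_mul_cancel₀ hc'0, one_smul, hθ₂]
    ring
  have hθ₂O : θ₂ ∈ T.O := by
    rw [hθ₂eq]
    exact T.O.sub_mem hθO (T.smul_mem hc₁A hξ''O)
  have hθ₂L : θ₂ ∈ riemannRochSpace (bipole K x 0 (r * a)) := Submodule.smul_mem _ _ hw₂L
  have hθ₂red : T.red θ₂ = T.red θ := by
    rw [hθ₂eq, T.red_sub hθO (T.smul_mem hc₁A hξ''O), T.red_smul_of_small hc₁A hc₁small hξ''O,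
      sub_zero]
  have hθG00 : T.red θ ∈ G 0 0 := by
    have h1 : T.red θ ∈ G (r * a) 0 := by
      rw [← hredG (r * a) 0 (by simpa using ha0)]
      exact ⟨θ, hθL, hθO, rfl⟩
    have h2 : T.red θ ∈ G 0 (r * a) := by
      rw [← hredG 0 (r * a) (by simpa using ha0), ← hθ₂red]
      exact ⟨θ₂, hθ₂L, hθ₂O, rfl⟩
    have h3 : T.red θ ∈ G (r * a) 0 ⊓ G 0 (r * a) := ⟨h1, h2⟩
    rw [hG, gluedSub_inf] at h3
    simpa using h3
  obtain ⟨t, ht, -⟩ := (mem_gluedSub_zero_iff N (T.red x) h.adapted 1 (T.red θ)).1 hθG00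
  -- `t` is not a function of `v`
  have hnot : ∃ i j, v i = v j ∧ t i ≠ t j := by
    by_contra hcon
    push Not at hcon
    apply hθg
    refine ⟨fun s => if hs : ∃ i, v i = s then t hs.choose else 0, fun i => ?_⟩
    have hs : ∃ i', v i' = v i := ⟨i, rfl⟩
    rw [ht i]
    show _ = algebraMap k (Fb i) (if hs : ∃ i', v i' = v i then t hs.choose else 0)
    rw [dif_pos hs, hcon _ _ hs.choose_spec]
  -- choice of `λ`
  obtain ⟨μ, hμ⟩ := Infinite.exists_notMem_finset
    ((Finset.univ : Finset (ι × ι)).image fun ij => -(t ij.1 - t ij.2) / (v ij.1 - v ij.2))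
  obtain ⟨lam, hlamA, hlam⟩ := T.redA_surj μ
  have hsmall : T.redA (lam * c') = 0 := by
    by_contra h0
    obtain ⟨h1, -, h3⟩ := T.redA_ne_zero_iff.1 h0
    have hl0 : lam ≠ 0 := left_ne_zero_of_mul h1
    apply hc'inv
    have : c'⁻¹ = lam * (lam * c')⁻¹ := by
      rw [mul_inv, ← mul_assoc, mul_inv_cancel₀ hl0, one_mul]
    rw [this]
    exact T.A.mul_mem _ _ hlamA h3
  refine ⟨r * a, θ + lam • y₁, θ₂ + lam • y₂, fun i => t i + μ * v i, ?_, ?_⟩
  · refine ⟨ha0, ?_, ?_, ?_, ?_, ?_, ?_⟩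
    · exact Submodule.add_mem _ hθL (Submodule.smul_mem _ _
        (L_mono (bipole_mono x ha_le le_rfl) hp.mem₁))
    · exact Submodule.add_mem _ hθ₂L (Submodule.smul_mem _ _
        (L_mono (bipole_mono x le_rfl ha_le) hp.mem₂))
    · exact T.O.add_mem hθO (T.smul_mem hlamA hy1O)
    · exact T.O.add_mem hθ₂O (T.smul_mem hlamA hy2O)
    · intro i
      rw [T.red_add hθO (T.smul_mem hlamA hy1O), T.red_smul hlamA hy1O, Pi.add_apply,
        Pi.smul_apply, ht i, hp.red₁ i, hlam, Algebra.smul_def, ← map_mul, ← map_add]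
    · refine ⟨c₁, ξ'' + (lam * c') • ξ, hc₁0, hc₁A, hc₁small,
        T.O.add_mem hξ''O (T.smul_mem (T.A.mul_mem _ _ hlamA hc'A) hξO), ?_, ?_⟩
      · have e1 : c₁ • (lam * c') • ξ = lam • (c • ξ) := by
          rw [smul_smul, smul_smul, hc₁]
          congr 1
          field_simp
        rw [smul_add, e1, ← hyξ, hθ₂eq, smul_sub]
        ring
      · rw [T.red_add hξ''O (T.smul_mem (T.A.mul_mem _ _ hlamA hc'A) hξO),
          T.red_smul (T.A.mul_mem _ _ hlamA hc'A) hξO, hsmall, zero_smul, add_zero]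
        exact hi
  · refine ExtMore.card_image_lt v _ ?_ ?_
    · intro i j hij
      by_contra hvij
      apply hμ
      refine Finset.mem_image.2 ⟨(i, j), Finset.mem_univ _, ?_⟩
      have hsub : v i - v j ≠ 0 := sub_ne_zero.2 hvij
      rw [div_eq_iff hsub]
      linear_combination -hij
    · obtain ⟨i, j, hvij, htij⟩ := hnot
      refine ⟨i, j, hvij, ?_⟩
      rw [hvij]
      intro hcon
      exact htij (add_right_cancel hcon)

/-- **Connectedness.** -/
theorem IsPreNodal.connected {T : MultiRed K F k Fb} {x : F} {N : NodeData k Fb E} {a₀ : ℕ}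
    (h : IsPreNodal T x N a₀) : N.Connected := by
  classical
  by_contra hN
  obtain ⟨a, y₁, y₂, v, hp, hv⟩ := exists_extPair h hN
  -- strong induction on `card ι - #values`
  have key : ∀ (n : ℕ) (a : ℕ) (y₁ y₂ : F) (v : ι → k), ExtPair h a y₁ y₂ v → (∃ i j, v i ≠ v j) →
      Fintype.card ι - (Finset.univ.image v).card ≤ n → False := by
    intro n
    induction n with
    | zero =>
      intro a y₁ y₂ v hp hv hn
      obtain ⟨a', y₁', y₂', v', -, hlt⟩ := hp.exists_more hv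
      have h1 : (Finset.univ.image v').card ≤ Fintype.card ι := Finset.card_image_le
      omega
    | succ n ih =>
      intro a y₁ y₂ v hp hv hn
      obtain ⟨a', y₁', y₂', v', hp', hlt⟩ := hp.exists_more hv
      have h1 : (Finset.univ.image v').card ≤ Fintype.card ι := Finset.card_image_le
      refine ih a' y₁' y₂' v' hp' ?_ (by omega)
      by_contra hcon
      push_neg at hcon
      obtain ⟨i, j, hij⟩ := hv
      have h2 : (Finset.univ.image v').card ≤ 1 := by
        rw [Finset.card_le_one]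
        intro s hs t ht
        obtain ⟨i', -, rfl⟩ := Finset.mem_image.1 hs
        obtain ⟨j', -, rfl⟩ := Finset.mem_image.1 ht
        exact hcon i' j'
      have h3 : 0 < (Finset.univ.image v).card :=
        Finset.card_pos.2 ⟨v i, Finset.mem_image_of_mem v (Finset.mem_univ i)⟩
      omega
  exact key _ a y₁ y₂ v hp hv le_rfl

theorem IsPreNodal.isNodal {T : MultiRed K F k Fb} {x : F} {N : NodeData k Fb E} {a₀ : ℕ}
    (h : IsPreNodal T x N a₀) : IsNodal T x N a₀ :=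
  { h with conn := h.connected }

end Fermat.Agent.DR.Abs
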