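import Fermat.Agent.GAL.RED.Main

/-!
# DR/Abs : abstract nodal reduction of a function field.  Definitions.

`K` algebraically closed with a valuation subring `A`, residue field `k`; `F / K` a function field.
A FINITE FAMILY of valuation subrings `O i` of `F` over `A` with residue fields `Fb i` (function fields
over `k`): `T : MultiRed K F k Fb`.  (DR: two of them, `Fb i = Fb`.  S36: several.)

* `T.O` : the elements integral for all valuations;  `T.red y : ∀ i, Fb i`.
* `T.redSub L` : the reduction of a `K`-subspace `L` of `F` (a `k`-subspace of `∀ i, Fb i`).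
* `T.IsCartesian` : `dim_k (redSub L) = dim_K L`.
* `T.Sep` : independence of the valuations (approximation with arbitrary scalings).
* `ev P u` : the value of `u` at the place `P`.
* `bipole K x a b = a (x)_∞ + b (x)_0`.
* `NodeData k Fb E` : a family (indexed by `E`) of pairs of points of the curves `Fb i` ("nodes").
* `N.Glued δ z` : `z_{i₁ e}(p₁ e) = δ e * z_{i₂ e}(p₂ e)` for all nodes `e`.
* `IsPreNodal T x N a₀`, `IsNodal T x N a₀` : the reduction of `L(a (x)_∞ + b (x)_0)` is the space of
  all families of functions with the corresponding pole bounds which are glued along the nodes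
  (`a + b ≥ a₀`).
-/

set_option autoImplicit false

namespace Fermat.Agent.DR.Abs

open AlgebraicCurve Fermat.Agent.Lib.RR Fermat.Agent.GAL.RED

/-- A family of reductions of `F` with the same valuation ring of constants. -/
structure MultiRed (K F k : Type*) [Field K] [Field F] [Algebra K F] [Field k] {ι : Type*}
    (Fb : ι → Type*) [∀ i, Field (Fb i)] [∀ i, Algebra k (Fb i)] where
  /-- the reductions -/
  R : ∀ i, RedData K F k (Fb i)
  /-- the common valuation ring of constants -/
  A : ValuationSubring K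
  /-- the common reduction of constants -/
  redA : K → k
  A_eq : ∀ i, (R i).A = A
  redA_eq : ∀ i a, (R i).redA a = redA a
  redA_surj : ∀ c : k, ∃ a ∈ A, redA a = c

section

variable {K F k : Type*} [Field K] [Field F] [Algebra K F] [Field k] {ι : Type*}
  {Fb : ι → Type*} [∀ i, Field (Fb i)] [∀ i, Algebra k (Fb i)]

namespace MultiRed

variable (T : MultiRed K F k Fb)

/-- The elements which are integral for all the valuations. -/
def O : Subring F where
  carrier := {y | ∀ i, y ∈ (T.R i).O}
  mul_mem' := fun ha hb i => (T.R i).O.mul_mem _ _ (ha i) (hb i)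
  one_mem' := fun i => (T.R i).O.one_mem
  add_mem' := fun ha hb i => (T.R i).O.add_mem _ _ (ha i) (hb i)
  zero_mem' := fun i => (T.R i).O.zero_mem
  neg_mem' := fun ha i => (T.R i).O.neg_mem _ (ha i)

theorem mem_O {y : F} : y ∈ T.O ↔ ∀ i, y ∈ (T.R i).O := Iff.rfl

/-- The family of the reductions of `y`. -/
noncomputable def red (y : F) : ∀ i, Fb i := fun i => (T.R i).red y

@[simp] theorem red_apply (y : F) (i : ι) : T.red y i = (T.R i).red y := rfl

theorem mem_A_iff (i : ι) {a : K} : a ∈ (T.R i).A ↔ a ∈ T.A := by rw [T.A_eq i]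

/-- The reduction of a `K`-subspace of `F`. -/
def redSub (L : Submodule K F) : Submodule k (∀ i, Fb i) where
  carrier := {z | ∃ y ∈ L, y ∈ T.O ∧ T.red y = z}
  zero_mem' := ⟨0, L.zero_mem, T.O.zero_mem, by
    funext i
    rw [red_apply, (T.R i).red_of_mem (T.R i).O.zero_mem]
    exact map_zero _⟩
  add_mem' := by
    rintro _ _ ⟨f, hfL, hfO, rfl⟩ ⟨g, hgL, hgO, rfl⟩
    exact ⟨f + g, L.add_mem hfL hgL, T.O.add_mem hfO hgO, by
      funext i
      exact (T.R i).red_add (hfO i) (hgO i)⟩
  smul_mem' := by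
    rintro c _ ⟨f, hfL, hfO, rfl⟩
    obtain ⟨a, ha, rfl⟩ := T.redA_surj c
    refine ⟨a • f, L.smul_mem a hfL, fun i => ?_, ?_⟩
    · exact (T.R i).smul_mem ((T.mem_A_iff i).2 ha) (hfO i)
    · funext i
      rw [red_apply, (T.R i).red_smul ((T.mem_A_iff i).2 ha) (hfO i), T.redA_eq i]
      rfl

theorem mem_redSub {L : Submodule K F} {z : ∀ i, Fb i} :
    z ∈ T.redSub L ↔ ∃ y ∈ L, y ∈ T.O ∧ T.red y = z := Iff.rfl

/-- Reduction preserves the dimension of finite dimensional subspaces. -/
def IsCartesian : Prop :=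
  ∀ L : Submodule K F, Module.Finite K L →
    Module.finrank k (T.redSub L) = Module.finrank K L

/-- Independence of the valuations: arbitrary residues with arbitrary scalings. -/
def Sep : Prop :=
  ∀ (u : ∀ i, Fb i) (c : ι → K), (∀ i, c i ≠ 0) →
    ∃ h : F, ∀ i, c i • h ∈ (T.R i).O ∧ (T.R i).red (c i • h) = u i

end MultiRed

end

section ev

variable {k Fb : Type*} [Field k] [Field Fb] [Algebra k Fb]

open Classical in
/-- The value of `u` at the place `P` (junk value `0` if there is none). -/
noncomputable def ev (P : Place k Fb) (u : Fb) : k :=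
  if h : ∃ c : k, u = algebraMap k Fb c ∨ 0 < P.ord (u - algebraMap k Fb c) then h.choose else 0

/-- `a (x)_∞ + b (x)_0`. -/
noncomputable def bipole (k : Type*) {Fb : Type*} [Field k] [Field Fb] [Algebra k Fb]
    [HasPrincipalDivisors k Fb] (x : Fb) (a b : ℕ) : Divisor k Fb :=
  a • poleDiv (K := k) x + b • poleDiv (K := k) x⁻¹

end ev

/-- A family of pairs of points on the curves `Fb i`. -/
structure NodeData (k : Type*) [Field k] {ι : Type*} (Fb : ι → Type*) [∀ i, Field (Fb i)]
    [∀ i, Algebra k (Fb i)] (E : Type*) where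
  /-- the component of the first branch -/
  i₁ : E → ι
  /-- the component of the second branch -/
  i₂ : E → ι
  /-- the first branch -/
  p₁ : ∀ e, Place k (Fb (i₁ e))
  /-- the second branch -/
  p₂ : ∀ e, Place k (Fb (i₂ e))

section

variable {K F k : Type*} [Field K] [Field F] [Algebra K F] [Field k] {ι : Type*}
  {Fb : ι → Type*} [∀ i, Field (Fb i)] [∀ i, Algebra k (Fb i)] {E : Type*}

namespace NodeData

variable (N : NodeData k Fb E)

/-- All the branches. -/
def branch : E ⊕ E → Σ i, Place k (Fb i) :=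
  Sum.elim (fun e => ⟨N.i₁ e, N.p₁ e⟩) (fun e => ⟨N.i₂ e, N.p₂ e⟩)

/-- `z` is glued along the nodes, with multipliers `δ`. -/
def Glued (δ : E → k) (z : ∀ i, Fb i) : Prop :=
  ∀ e, ev (N.p₁ e) (z (N.i₁ e)) = δ e * ev (N.p₂ e) (z (N.i₂ e))

/-- The dual graph is connected. -/
def Connected : Prop :=
  ∀ c : ι → k, (∀ e, c (N.i₁ e) = c (N.i₂ e)) → ∀ i j, c i = c j

end NodeData

/-- The family of pole bounds `z i ∈ L(a (x_i)_∞ + b (x_i)_0)`, `x_i` the reduction of `x`. -/
def MultiRed.Bounded [∀ i, HasPrincipalDivisors k (Fb i)] (T : MultiRed K F k Fb) (x : F) (a b : ℕ)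
    (z : ∀ i, Fb i) : Prop :=
  ∀ i, z i ∈ riemannRochSpace (bipole k ((T.R i).red x) a b)

/-- Nodal reduction (without the connectedness of the dual graph, which is a consequence). -/
structure IsPreNodal [HasPrincipalDivisors K F] [∀ i, HasPrincipalDivisors k (Fb i)]
    (T : MultiRed K F k Fb) (x : F) (N : NodeData k Fb E) (a₀ : ℕ) : Prop where
  cart : T.IsCartesian
  sep : T.Sep
  inj : Function.Injective N.branch
  nonconst : ∀ i, (T.R i).red x ∉ Set.range (algebraMap k (Fb i))
  unit₁ : ∀ e, (N.p₁ e).ord ((T.R (N.i₁ e)).red x) = 0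
  unit₂ : ∀ e, (N.p₂ e).ord ((T.R (N.i₂ e)).red x) = 0
  mem_iff : ∀ a b : ℕ, a₀ ≤ a + b → ∀ z : ∀ i, Fb i,
    z ∈ T.redSub (riemannRochSpace (bipole K x a b)) ↔ T.Bounded x a b z ∧ N.Glued 1 z

/-- Nodal reduction. -/
structure IsNodal [HasPrincipalDivisors K F] [∀ i, HasPrincipalDivisors k (Fb i)]
    (T : MultiRed K F k Fb) (x : F) (N : NodeData k Fb E) (a₀ : ℕ) : Prop
    extends IsPreNodal T x N a₀ where
  conn : N.Connected

/-- `y` is an integral section of `⋃ₐ L(a (x)_∞ + D)`, where `div f = m D`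
(`y ∈ L(a X + D) ↔ y ^ m * f ∈ L(m a X)`). -/
def IsSection [HasPrincipalDivisors K F] (T : MultiRed K F k Fb) (x : F) (m : ℕ) (f y : F) : Prop :=
  y ∈ T.O ∧ ∃ a : ℕ, y ^ m * f ∈ riemannRochSpace (a • poleDiv (K := K) x)

end

end Fermat.Agent.DR.Abs
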