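import Fermat.Agent.DR.Abs.Defs
import Fermat.Agent.Lib.PlaceEval

/-!
# DR/Abs leaf A1: the value of a function at a place (`k` algebraically closed).

Everything follows from `GAL.RED.exists_eval` (existence of a value), `GAL.RED.min_le_ord_add`,
`ord_add_eq_of_lt`, `ord_algebraMap`, `Place.ord_mul`.  Recall the convention `P.ord 0 = 0`, so that
`0 ≤ P.ord u` means "`u` is regular at `P`" (including `u = 0`).
-/

set_option autoImplicit false

namespace Fermat.Agent.DR.Abs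

open AlgebraicCurve Fermat.Agent.Lib.RR Fermat.Agent.GAL.RED

variable {k Fb : Type*} [Field k] [Field Fb] [Algebra k Fb] [IsFF k Fb] [IsAlgClosed k]

/-- the value of `DR/Abs/Defs.lean` is the value of `Lib/PlaceEval.lean`. -/
theorem Ev_ev_eq (P : Place k Fb) (u : Fb) : ev P u = Lib.PlaceEval.ev P u := by
  classical
  unfold ev
  by_cases hu : 0 ≤ P.ord u
  · have hex : ∃ c : k, u = algebraMap k Fb c ∨ 0 < P.ord (u - algebraMap k Fb c) :=
      ⟨Lib.PlaceEval.ev P u, Lib.PlaceEval.ord_sub_ev_pos P hu⟩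
    rw [dif_pos hex]
    exact ((Lib.PlaceEval.ev_eq_iff P hu _).2 hex.choose_spec).symm
  · have hnex : ¬ ∃ c : k, u = algebraMap k Fb c ∨ 0 < P.ord (u - algebraMap k Fb c) := by
      rintro ⟨c, hc | hc⟩
      · apply hu
        rw [hc, ord_algebraMap]
      · apply hu
        have h1 : u - algebraMap k Fb c ∈ P.toValuationSubring := (Lib.PlaceEval.mem_iff P).2 hc.le
        have h2 : algebraMap k Fb c ∈ P.toValuationSubring := P.algebraMap_mem' c
        have h3 := add_mem h1 h2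
        rw [sub_add_cancel] at h3
        exact (Lib.PlaceEval.mem_iff P).1 h3
    rw [dif_neg hnex]
    exact (Lib.PlaceEval.ev_of_not_mem P (fun h => hu ((Lib.PlaceEval.mem_iff P).1 h))).symm

/-- a function with a value at `P` is regular at `P`. -/
theorem Ev_ord_nonneg_of (P : Place k Fb) {u : Fb} {c : k}
    (h : u = algebraMap k Fb c ∨ 0 < P.ord (u - algebraMap k Fb c)) : 0 ≤ P.ord u := by
  rcases h with hc | hc
  · rw [hc, ord_algebraMap]
  · have h1 : u - algebraMap k Fb c ∈ P.toValuationSubring := (Lib.PlaceEval.mem_iff P).2 hc.le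
    have h2 : algebraMap k Fb c ∈ P.toValuationSubring := P.algebraMap_mem' c
    have h3 := add_mem h1 h2
    rw [sub_add_cancel] at h3
    exact (Lib.PlaceEval.mem_iff P).1 h3

/-- uniqueness of the value: two constants `c, c'` with `u - c`, `u - c'` zero or of positive order
are equal (`c' - c` is a constant, of order `0` unless it is `0`). -/
theorem ev_eq_of (P : Place k Fb) {u : Fb} {c : k}
    (h : u = algebraMap k Fb c ∨ 0 < P.ord (u - algebraMap k Fb c)) : ev P u = c := by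
  rw [Ev_ev_eq]
  exact (Lib.PlaceEval.ev_eq_iff P (Ev_ord_nonneg_of P h) c).2 h

theorem ev_spec (P : Place k Fb) {u : Fb} (h : 0 ≤ P.ord u) :
    u = algebraMap k Fb (ev P u) ∨ 0 < P.ord (u - algebraMap k Fb (ev P u)) := by
  rw [Ev_ev_eq]
  exact Lib.PlaceEval.ord_sub_ev_pos P h

@[simp] theorem ev_algebraMap (P : Place k Fb) (c : k) : ev P (algebraMap k Fb c) = c :=
  ev_eq_of P (Or.inl rfl)

@[simp] theorem ev_zero (P : Place k Fb) : ev P (0 : Fb) = 0 := by
  simpa using ev_algebraMap P (0 : k)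

@[simp] theorem ev_one (P : Place k Fb) : ev P (1 : Fb) = 1 := by
  simpa using ev_algebraMap P (1 : k)

theorem ord_add_nonneg (P : Place k Fb) {u v : Fb} (hu : 0 ≤ P.ord u) (hv : 0 ≤ P.ord v) :
    0 ≤ P.ord (u + v) :=
  (Lib.PlaceEval.mem_iff P).1
    (add_mem ((Lib.PlaceEval.mem_iff P).2 hu) ((Lib.PlaceEval.mem_iff P).2 hv))

theorem ord_mul_nonneg (P : Place k Fb) {u v : Fb} (hu : 0 ≤ P.ord u) (hv : 0 ≤ P.ord v) :
    0 ≤ P.ord (u * v) :=
  (Lib.PlaceEval.mem_iff P).1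
    (mul_mem ((Lib.PlaceEval.mem_iff P).2 hu) ((Lib.PlaceEval.mem_iff P).2 hv))

theorem ord_smul_nonneg (P : Place k Fb) (c : k) {u : Fb} (hu : 0 ≤ P.ord u) :
    0 ≤ P.ord (c • u) := by
  rw [Algebra.smul_def]
  exact ord_mul_nonneg P (ord_algebraMap P c).ge hu

theorem ev_add (P : Place k Fb) {u v : Fb} (hu : 0 ≤ P.ord u) (hv : 0 ≤ P.ord v) :
    ev P (u + v) = ev P u + ev P v := by
  simp only [Ev_ev_eq]
  exact Lib.PlaceEval.ev_add P hu hv

theorem ev_neg (P : Place k Fb) (u : Fb) : ev P (-u) = -ev P u := by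
  simp only [Ev_ev_eq]
  exact Lib.PlaceEval.ev_neg P u

theorem ev_sub (P : Place k Fb) {u v : Fb} (hu : 0 ≤ P.ord u) (hv : 0 ≤ P.ord v) :
    ev P (u - v) = ev P u - ev P v := by
  simp only [Ev_ev_eq]
  exact Lib.PlaceEval.ev_sub P hu hv

theorem ev_mul (P : Place k Fb) {u v : Fb} (hu : 0 ≤ P.ord u) (hv : 0 ≤ P.ord v) :
    ev P (u * v) = ev P u * ev P v := by
  simp only [Ev_ev_eq]
  exact Lib.PlaceEval.ev_mul P hu hv

theorem ev_smul (P : Place k Fb) (c : k) {u : Fb} (hu : 0 ≤ P.ord u) :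
    ev P (c • u) = c * ev P u := by
  simp only [Ev_ev_eq]
  exact Lib.PlaceEval.ev_smul P c u

theorem ev_pow (P : Place k Fb) {u : Fb} (hu : 0 ≤ P.ord u) (n : ℕ) :
    ev P (u ^ n) = ev P u ^ n := by
  simp only [Ev_ev_eq]
  exact Lib.PlaceEval.ev_pow P hu n

theorem ev_eq_zero_iff (P : Place k Fb) {u : Fb} (hu : 0 ≤ P.ord u) :
    ev P u = 0 ↔ u = 0 ∨ 0 < P.ord u := by
  rw [Ev_ev_eq]
  exact Lib.PlaceEval.ev_eq_zero_iff P hu

theorem ev_ne_zero_iff (P : Place k Fb) {u : Fb} (hu : 0 ≤ P.ord u) :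
    ev P u ≠ 0 ↔ u ≠ 0 ∧ P.ord u = 0 := by
  rw [Ne, ev_eq_zero_iff P hu, not_or]
  constructor
  · rintro ⟨h1, h2⟩
    exact ⟨h1, by omega⟩
  · rintro ⟨h1, h2⟩
    exact ⟨h1, by omega⟩

theorem ev_inv (P : Place k Fb) {u : Fb} (hu : u ≠ 0) (h0 : P.ord u = 0) :
    ev P u⁻¹ = (ev P u)⁻¹ := by
  simp only [Ev_ev_eq]
  exact Lib.PlaceEval.ev_inv P h0

theorem ord_sum_nonneg (P : Place k Fb) {κ : Type*} (s : Finset κ) (u : κ → Fb)
    (hu : ∀ j ∈ s, 0 ≤ P.ord (u j)) : 0 ≤ P.ord (∑ j ∈ s, u j) :=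
  (Lib.PlaceEval.mem_iff P).1 (sum_mem fun j hj => (Lib.PlaceEval.mem_iff P).2 (hu j hj))

theorem ev_sum (P : Place k Fb) {κ : Type*} (s : Finset κ) (u : κ → Fb)
    (hu : ∀ j ∈ s, 0 ≤ P.ord (u j)) : ev P (∑ j ∈ s, u j) = ∑ j ∈ s, ev P (u j) := by
  classical
  induction s using Finset.induction_on with
  | empty => simp
  | insert a s ha ih =>
    rw [Finset.sum_insert ha, Finset.sum_insert ha,
      ev_add P (hu a (Finset.mem_insert_self a s))
        (ord_sum_nonneg P s u fun j hj => hu j (Finset.mem_insert_of_mem hj)),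
      ih fun j hj => hu j (Finset.mem_insert_of_mem hj)]

/-- elements of `L(D)` are regular at the places outside the support of the positive part. -/
theorem ord_nonneg_of_mem_L {D : Divisor k Fb} {u : Fb} (hu : u ∈ riemannRochSpace D)
    {P : Place k Fb} (hP : D P ≤ 0) : 0 ≤ P.ord u := by
  rcases mem_L_iff.1 hu with h | h
  · rw [h, Place.ord_zero]
  · have := h P
    simp only [Finsupp.coe_zero, Pi.zero_apply, Finsupp.coe_add, Pi.add_apply, divOf_apply] at this
    omega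

end Fermat.Agent.DR.Abs
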