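import Fermat.Agent.DR.Abs.Lifting
import Fermat.Agent.DR.Abs.Connected

/-!
# DR/Abs leaf A9: the exported theorems (no divisor `D`, no `δ` in the statements).

`T, x, N` a nodal reduction, `m` invertible in `k`, `f` with `m ∣ div f` and `red f = 1`.
* `IsSection.bounded`, `IsSection.regular` : reductions of sections are regular outside the poles of the `x̄ᵢ`;
* `glued_of_isSection_one` : sections of the trivial class are glued;
* `exists_section` : there are sections which are units at any given finite sets of points;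
* `isPow_of_sections` : if for every node there is a section whose values at the two branches are nonzero and
  in the ratio `c (i₁ e) / c (i₂ e)` (a coboundary), then `f` is an `m`-th power.
-/

set_option autoImplicit false

namespace Fermat.Agent.DR.Abs

open AlgebraicCurve Fermat.Agent.Lib.RR Fermat.Agent.GAL.RED

variable {K F k : Type*} [Field K] [Field F] [Algebra K F] [Field k] {ι : Type*}
  {Fb : ι → Type*} [∀ i, Field (Fb i)] [∀ i, Algebra k (Fb i)] {E : Type*}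
  [IsFF K F] [IsAlgClosed K] [∀ i, IsFF k (Fb i)] [IsAlgClosed k] [Fintype ι] [Fintype E]

/-- a section lies in `L(a X_∞ + D)` for all large `a`. -/
theorem IsSection.exists_mem {T : MultiRed K F k Fb} {x : F} {m : ℕ} (hm : 0 < m) {f y : F} (hf : f ≠ 0)
    {D : Divisor K F} (hD : divOf (K := K) f = m • D) (hy : IsSection T x m f y) :
    ∃ a₁ : ℕ, ∀ a : ℕ, a₁ ≤ a → y ∈ riemannRochSpace (bipole K x a 0 + D) := by
  obtain ⟨-, a₁, ha₁⟩ := hy
  refine ⟨a₁, fun a ha => ?_⟩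
  rw [mem_L_add_iff_pow_mul_mem hm hf hD]
  have h1 : a₁ ≤ m * a := le_trans ha (Nat.le_mul_of_pos_left a hm)
  have h2 : bipole K x a₁ 0 ≤ m • bipole K x a 0 := by
    rw [← bipole_smul]
    exact bipole_mono x h1 (Nat.zero_le _)
  rw [← bipole_zero_right] at ha₁
  exact L_mono h2 ha₁

/-- PROOF. `y ^ m f ∈ L(a X_∞) ∩ O` reduces to `(red y) ^ m`, which is bounded (`h.mem_iff`, enlarge `a`);
`mem_L_of_pow_mem`. -/
theorem IsSection.regular {T : MultiRed K F k Fb} {x : F} {N : NodeData k Fb E} {a₀ : ℕ}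
    (h : IsPreNodal T x N a₀) {m : ℕ} (hm : 0 < m) {f y : F} (hf : T.red f = 1)
    (hy : IsSection T x m f y) (i : ι) (P : Place k (Fb i)) (hP : 0 ≤ P.ord ((T.R i).red x)) :
    0 ≤ P.ord (T.red y i) := by
  obtain ⟨hyO, a, ha⟩ := hy
  have hfO : f ∈ T.O := T.mem_of_red_ne_zero (fun j => by rw [hf]; exact one_ne_zero)
  have hO : y ^ m * f ∈ T.O := T.O.mul_mem (T.O.pow_mem hyO m) hfO
  have hred : T.red (y ^ m * f) = T.red y ^ m := by
    rw [T.red_mul (T.O.pow_mem hyO m) hfO, hf, mul_one, T.red_pow]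
  have hmem : y ^ m * f ∈ riemannRochSpace (bipole K x (max a a₀) 0) := by
    rw [← bipole_zero_right] at ha
    exact L_mono (bipole_mono x (le_max_left a a₀) le_rfl) ha
  have hb := ((h.mem_iff (max a a₀) 0 (by simp) (T.red y ^ m)).1
    ⟨y ^ m * f, hmem, hO, hred⟩).1 i
  have hP0 : bipole k ((T.R i).red x) (max a a₀) 0 P ≤ 0 := by
    rw [bipole_apply, max_eq_right (by omega : -(P.ord ((T.R i).red x)) ≤ 0)]
    simp
  have h1 := ord_nonneg_of_mem_L hb hP0
  rw [Pi.pow_apply, ord_pow] at h1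
  have hm' : (0 : ℤ) < m := by exact_mod_cast hm
  by_contra hneg
  push Not at hneg
  have := mul_neg_of_pos_of_neg hm' hneg
  omega

theorem glued_of_isSection_one {T : MultiRed K F k Fb} {x : F} {N : NodeData k Fb E} {a₀ : ℕ}
    (h : IsPreNodal T x N a₀) {m : ℕ} (hm : 0 < m) {z : F} (hz : IsSection T x m 1 z) :
    N.Glued 1 (T.red z) := by
  obtain ⟨hzO, a, ha⟩ := hz
  rw [mul_one] at ha
  have h1 : z ^ m ∈ riemannRochSpace (m • bipole K x a 0) := by
    rw [← bipole_smul]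
    rw [← bipole_zero_right] at ha
    exact L_mono (bipole_mono x (Nat.le_mul_of_pos_left a hm) (Nat.zero_le _)) ha
  have h2 : z ∈ riemannRochSpace (bipole K x a 0) := mem_L_of_pow_mem hm h1
  have h3 : z ∈ riemannRochSpace (bipole K x (max a a₀) 0) :=
    L_mono (bipole_mono x (le_max_left a a₀) le_rfl) h2
  exact ((h.mem_iff (max a a₀) 0 (by simp) (T.red z)).1 ⟨z, h3, hzO, rfl⟩).2

/-- PROOF. `exists_divisor_of_dvd`, `exists_delta`, `exists_glued_units` (`δ e ≠ 0` since `δ e ^ m = 1`), `mem_L_add_iff_pow_mul_mem`,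
`ev_ne_zero_iff`. -/
theorem exists_section {T : MultiRed K F k Fb} {x : F} {N : NodeData k Fb E} {a₀ : ℕ}
    (h : IsPreNodal T x N a₀) {m : ℕ} (hm : (m : k) ≠ 0) {f : F}
    (hdiv : ∀ P : Place K F, (m : ℤ) ∣ P.ord f) (hf : T.red f = 1)
    (S : ∀ i, Finset (Place k (Fb i))) (hS : ∀ i, ∀ P ∈ S i, 0 ≤ P.ord ((T.R i).red x)) :
    ∃ y : F, IsSection T x m f y ∧ ∀ i, ∀ P ∈ S i, T.red y i ≠ 0 ∧ P.ord (T.red y i) = 0 := by
  have hm0 : 0 < m := Nat.pos_of_ne_zero (fun h0 => hm (by rw [h0, Nat.cast_zero]))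
  obtain ⟨i₀⟩ := h.cart.nonempty
  have hf0 : f ≠ 0 := by
    rintro rfl
    rw [T.red_zero] at hf
    exact zero_ne_one (congrFun hf i₀)
  obtain ⟨D, hD, -⟩ := exists_divisor_of_dvd hm0 f hdiv
  obtain ⟨δ, a₁, hδ, hM⟩ := exists_delta h hm hD hf
  obtain ⟨a₂, ha₂⟩ := exists_glued_units N (T.red x) h.adapted S hS
  have hδ0 : ∀ e, δ e ≠ 0 := by
    intro e h0
    have := hδ e
    rw [h0, zero_pow hm0.ne'] at this
    exact zero_ne_one this
  obtain ⟨z, hz, hzS, -, -⟩ := ha₂ δ hδ0 (max a₁ a₂) (le_max_right _ _)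
  rw [← hM (max a₁ a₂) 0 (by simp)] at hz
  obtain ⟨y, hyL, hyO, rfl⟩ := hz
  refine ⟨y, ⟨hyO, m * max a₁ a₂, ?_⟩, fun i P hP => ?_⟩
  · have := (mem_L_add_iff_pow_mul_mem hm0 hf0 hD _ y).1 hyL
    rwa [bipole_zero_right, smul_smul] at this
  · have hsec : IsSection T x m f y := by
      refine ⟨hyO, m * max a₁ a₂, ?_⟩
      have := (mem_L_add_iff_pow_mul_mem hm0 hf0 hD _ y).1 hyL
      rwa [bipole_zero_right, smul_smul] at this
    have hreg := hsec.regular h hm0 hf i P (hS i P hP)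
    exact (ev_ne_zero_iff P hreg).1 (hzS i P hP)

/-- **Main theorem of DR/Abs.**
PROOF. `D` from `exists_divisor_of_dvd`, `δ, a₁` from `exists_delta`. The section `y` attached to `e` lies in `L(a X_∞ + D)` for `a` large, so
`red y ∈ gluedSub δ a 0`: `y(p₁ e) = δ e y(p₂ e)`; with `hsec`: `δ e * c (i₂ e) = c (i₁ e)`.
Replace `c` by `c̃ i := c i / ρ (c i ^ m)`, `ρ` a choice of `m`-th roots in `k`: since `δ e ^ m = 1`, `c (i₁ e) ^ m = c (i₂ e) ^ m`, so `c̃` has the same coboundary, and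
`c̃ i ^ m = 1`. By `h.sep` choose `g ∈ O` with `red g = c̃⁻¹`; `f' := f / g ^ m` (`red f' = 1`), `D' := D - div g`,
`L(E + D') = g L(E + D)`, whose reduction is `c̃⁻¹ • gluedSub δ a b = gluedSub 1 a b`. `isPow_of_glued_one` for `f'` (with `h.isNodal`). -/
theorem isPow_of_sections {T : MultiRed K F k Fb} {x : F} {N : NodeData k Fb E} {a₀ : ℕ}
    (h : IsPreNodal T x N a₀) {m : ℕ} (hm : (m : k) ≠ 0) {f : F}
    (hdiv : ∀ P : Place K F, (m : ℤ) ∣ P.ord f) (hf : T.red f = 1)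
    (c : ι → k) (hc : ∀ i, c i ≠ 0)
    (hsec : ∀ e : E, ∃ y : F, IsSection T x m f y ∧ ev (N.p₂ e) (T.red y (N.i₂ e)) ≠ 0 ∧
      ev (N.p₁ e) (T.red y (N.i₁ e)) * c (N.i₂ e) = c (N.i₁ e) * ev (N.p₂ e) (T.red y (N.i₂ e))) :
    ∃ w : F, f = w ^ m := by
  classical
  have hm0 : 0 < m := Nat.pos_of_ne_zero (by rintro rfl; simp at hm)
  have hne : Nonempty ι := h.cart.nonempty
  have hf0 : f ≠ 0 := by
    rintro rfl
    rw [T.red_zero] at hf
    obtain ⟨i⟩ := hne
    exact zero_ne_one (congrFun hf i)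
  obtain ⟨D, hD, -⟩ := exists_divisor_of_dvd hm0 f hdiv
  obtain ⟨δ, a₁, hδ, hM⟩ := exists_delta h hm hD hf
  have hδ0 : ∀ e, δ e ≠ 0 := by
    intro e h0
    have := hδ e
    rw [h0, zero_pow hm0.ne'] at this
    exact zero_ne_one this
  -- the coboundary relation
  have hcob : ∀ e, c (N.i₁ e) = δ e * c (N.i₂ e) := by
    intro e
    obtain ⟨y, hy, hy2, hy12⟩ := hsec e
    obtain ⟨a₂, ha₂⟩ := hy.exists_mem hm0 hf0 hD
    have hmem : T.red y ∈ T.redSub (riemannRochSpace (bipole K x (max a₂ a₁) 0 + D)) :=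
      ⟨y, ha₂ _ (le_max_left _ _), hy.1, rfl⟩
    rw [hM _ _ (by simp)] at hmem
    have hgl := (mem_gluedSub.mp hmem).2 e
    rw [hgl] at hy12
    have h3 : (δ e * c (N.i₂ e) - c (N.i₁ e)) * ev (N.p₂ e) (T.red y (N.i₂ e)) = 0 := by
      linear_combination hy12
    rcases mul_eq_zero.mp h3 with h4 | h4
    · exact (sub_eq_zero.mp h4).symm
    · exact absurd h4 hy2
  -- normalisation of `c`
  choose ρ hρ using fun t : k => IsAlgClosed.exists_pow_nat_eq t hm0
  let ct : ι → k := fun i => c i / ρ (c i ^ m)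
  have hρ0 : ∀ i, ρ (c i ^ m) ≠ 0 := by
    intro i h0
    have := hρ (c i ^ m)
    rw [h0, zero_pow hm0.ne'] at this
    exact pow_ne_zero m (hc i) this.symm
  have hct0 : ∀ i, ct i ≠ 0 := fun i => div_ne_zero (hc i) (hρ0 i)
  have hctm : ∀ i, ct i ^ m = 1 := by
    intro i
    show (c i / ρ (c i ^ m)) ^ m = 1
    rw [div_pow, hρ, div_self (pow_ne_zero m (hc i))]
  have hctcob : ∀ e, ct (N.i₁ e) = δ e * ct (N.i₂ e) := by
    intro e
    have h1 : c (N.i₁ e) ^ m = c (N.i₂ e) ^ m := by rw [hcob e, mul_pow, hδ e, one_mul]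
    show c (N.i₁ e) / ρ (c (N.i₁ e) ^ m) = δ e * (c (N.i₂ e) / ρ (c (N.i₂ e) ^ m))
    rw [h1, hcob e, mul_div_assoc]
  -- the function `g`
  obtain ⟨g, hg⟩ := h.sep (fun i => algebraMap k (Fb i) (ct i)⁻¹) (fun _ => 1)
    (fun _ => one_ne_zero)
  simp only [one_smul] at hg
  have hgred : ∀ i, T.red g i = algebraMap k (Fb i) (ct i)⁻¹ := fun i => (hg i).2
  have hgO : g ∈ T.O := fun i => (hg i).1
  have hgne : ∀ i, T.red g i ≠ 0 := by
    intro i
    rw [hgred i]
    exact (map_ne_zero _).mpr (inv_ne_zero (hct0 i))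
  have hg0 : g ≠ 0 := by
    rintro rfl
    obtain ⟨i⟩ := hne
    exact hgne i (congrFun T.red_zero i)
  have hginvO : g⁻¹ ∈ T.O := T.inv_mem_of_red_ne_zero hgne
  have hginvred : ∀ i, T.red g⁻¹ i = algebraMap k (Fb i) (ct i) := by
    intro i
    rw [T.red_inv]
    show (T.red g i)⁻¹ = _
    rw [hgred i, map_inv₀, inv_inv]
  have hfO : f ∈ T.O := T.mem_of_red_ne_zero (by
    intro i
    rw [hf]
    exact one_ne_zero)
  -- the new function and the new divisor
  have hf' : T.red (f * g⁻¹ ^ m) = 1 := by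
    rw [T.red_mul hfO (T.O.pow_mem hginvO m), hf, one_mul, T.red_pow]
    funext i
    show (T.red g⁻¹ i) ^ m = 1
    rw [hginvred i, ← map_pow, hctm i, map_one]
  have hD' : divOf (K := K) (f * g⁻¹ ^ m) = m • (D - divOf (K := K) g) := by
    rw [divOf_mul hf0 (pow_ne_zero m (inv_ne_zero hg0)), divOf_pow, divOf_inv, hD, smul_sub,
      smul_neg, sub_eq_add_neg]
  -- constant families
  have hC : (fun i => algebraMap k (Fb i) (ct i)) ∈ gluedSub N (T.red x) h.adapted δ 0 0 :=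
    (mem_gluedSub_zero_iff N (T.red x) h.adapted δ _).mpr ⟨ct, fun _ => rfl, hctcob⟩
  have hCinv : (fun i => algebraMap k (Fb i) (ct i)⁻¹) ∈
      gluedSub N (T.red x) h.adapted δ⁻¹ 0 0 := by
    refine (mem_gluedSub_zero_iff N (T.red x) h.adapted δ⁻¹ _).mpr
      ⟨fun i => (ct i)⁻¹, fun _ => rfl, fun e => ?_⟩
    show (ct (N.i₁ e))⁻¹ = (δ e)⁻¹ * (ct (N.i₂ e))⁻¹
    rw [hctcob e, mul_inv]
  have hδδ : δ⁻¹ * δ = 1 := by
    funext e
    exact inv_mul_cancel₀ (hδ0 e)
  have hM' : ∀ a b : ℕ, a₁ ≤ a + b →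
      T.redSub (riemannRochSpace (bipole K x a b + (D - divOf (K := K) g))) =
        gluedSub N (T.red x) h.adapted 1 a b := by
    intro a b hab
    have hL : ∀ y : F, g * y ∈ riemannRochSpace (bipole K x a b + (D - divOf (K := K) g)) ↔
        y ∈ riemannRochSpace (bipole K x a b + D) := by
      intro y
      rw [mul_mem_L_iff _ hg0]
      have e : bipole K x a b + (D - divOf (K := K) g) + divOf (K := K) g = bipole K x a b + D := by
        abel
      rw [e]
    apply le_antisymm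
    · rintro _ ⟨y', hy'L, hy'O, rfl⟩
      have hy : g⁻¹ * y' ∈ riemannRochSpace (bipole K x a b + D) := by
        rw [← hL, mul_inv_cancel_left₀ hg0]
        exact hy'L
      have hyO : g⁻¹ * y' ∈ T.O := T.O.mul_mem hginvO hy'O
      have hmem : T.red (g⁻¹ * y') ∈ gluedSub N (T.red x) h.adapted δ a b := by
        rw [← hM a b hab]
        exact ⟨_, hy, hyO, rfl⟩
      have h2 := mul_mem_gluedSub N (T.red x) h.adapted hCinv hmem
      rw [hδδ, zero_add, zero_add] at h2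
      have e : (fun i => algebraMap k (Fb i) (ct i)⁻¹) * T.red (g⁻¹ * y') = T.red y' := by
        have e1 : y' = g * (g⁻¹ * y') := by rw [mul_inv_cancel_left₀ hg0]
        conv_rhs => rw [e1, T.red_mul hgO hyO]
        congr 1
        funext i
        exact (hgred i).symm
      rwa [e] at h2
    · intro z' hz'
      have h2 := mul_mem_gluedSub N (T.red x) h.adapted hC hz'
      rw [mul_one, zero_add, zero_add, ← hM a b hab] at h2
      obtain ⟨y, hyL, hyO, hyred⟩ := h2
      refine ⟨g * y, (hL y).mpr hyL, T.O.mul_mem hgO hyO, ?_⟩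
      rw [T.red_mul hgO hyO, hyred]
      funext i
      show T.red g i * (algebraMap k (Fb i) (ct i) * z' i) = z' i
      rw [hgred i, ← mul_assoc, ← map_mul, inv_mul_cancel₀ (hct0 i), map_one, one_mul]
  obtain ⟨w, hw⟩ := isPow_of_glued_one h.isNodal hm hD' hf' a₁ hM'
  refine ⟨w * g, ?_⟩
  rw [mul_pow, ← hw, mul_assoc, ← mul_pow, inv_mul_cancel₀ hg0, one_pow, mul_one]

/-- normalisation: a function which, suitably scaled, reduces to an `m`-th power at every valuation can be multiplied by an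
`m`-th power so as to have reduction `1`.  (`h.sep` with `u i = (v i)⁻¹`, scalings `e i`, `e i ^ m = c i`.) -/
theorem exists_normalised {T : MultiRed K F k Fb} (hS : T.Sep) {m : ℕ} (hm : 0 < m) {f : F}
    (c : ι → K) (hc : ∀ i, c i ≠ 0) (v : ∀ i, Fb i) (hv : ∀ i, v i ≠ 0)
    (hf : ∀ i, (T.R i).red (c i • f) = v i ^ m) :
    ∃ g : F, g ≠ 0 ∧ T.red (f * g ^ m) = 1 := by
  by_cases hι : Nonempty ι
  · obtain ⟨i₀⟩ := hι
    have hex : ∀ i, ∃ e : K, e ^ m = c i := fun i => IsAlgClosed.exists_pow_nat_eq (c i) hm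
    choose e he using hex
    have he0 : ∀ i, e i ≠ 0 := by
      intro i h0
      have := he i
      rw [h0, zero_pow hm.ne'] at this
      exact hc i this.symm
    obtain ⟨g, hg⟩ := hS (fun i => (v i)⁻¹) (fun i => (e i)⁻¹) (fun i => inv_ne_zero (he0 i))
    refine ⟨g, ?_, ?_⟩
    · rintro rfl
      have := (hg i₀).2
      rw [smul_zero, (T.R i₀).red_zero] at this
      exact inv_ne_zero (hv i₀) this.symm
    · funext i
      obtain ⟨h1, h2⟩ := hg i
      have hcf : c i • f ∈ (T.R i).O := (T.R i).mem_of_red_ne_zero (by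
        rw [hf i]
        exact pow_ne_zero m (hv i))
      have hfac : f * g ^ m = (c i • f) * ((e i)⁻¹ • g) ^ m := by
        rw [smul_pow, inv_pow, he i, smul_mul_smul_comm, mul_inv_cancel₀ (hc i), one_smul]
      rw [MultiRed.red_apply, hfac, (T.R i).red_mul hcf ((T.R i).O.pow_mem h1 m), (T.R i).red_pow,
        hf i, h2, inv_pow, mul_inv_cancel₀ (pow_ne_zero m (hv i))]
      rfl
  · refine ⟨1, one_ne_zero, ?_⟩
    funext i
    exact absurd ⟨i⟩ hι

end Fermat.Agent.DR.Abs
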