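import Fermat.Agent.DR.Abs.Interp

/-!
# DR/Abs leaf A5: the spaces of glued families on the special fibre (only `k`, `Fb i`, no valuation).

`xb : ∀ i, Fb i` a family of non constant functions, `N` a family of nodes at which the `xb i` are units.
`gluedSub N xb hN δ a b = {z | z i ∈ L(a (xb i)_∞ + b (xb i)_0), z_{i₁ e}(p₁ e) = δ e z_{i₂ e}(p₂ e)}`.
-/

set_option autoImplicit false

namespace Fermat.Agent.DR.Abs

open AlgebraicCurve Fermat.Agent.Lib.RR Fermat.Agent.GAL.RED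

variable {k : Type*} [Field k] {ι : Type*} {Fb : ι → Type*} [∀ i, Field (Fb i)]
  [∀ i, Algebra k (Fb i)] {E : Type*}

variable (k) in
/-- pole bounds. -/
def BoundedBy [∀ i, HasPrincipalDivisors k (Fb i)] (xb : ∀ i, Fb i) (a b : ℕ) (z : ∀ i, Fb i) : Prop :=
  ∀ i, z i ∈ riemannRochSpace (bipole k (xb i) a b)

/-- The nodes are pairwise distinct points at which the coordinate functions are units. -/
structure NodeData.Adapted (N : NodeData k Fb E) (xb : ∀ i, Fb i) : Prop where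
  inj : Function.Injective N.branch
  nonconst : ∀ i, xb i ∉ Set.range (algebraMap k (Fb i))
  unit₁ : ∀ e, (N.p₁ e).ord (xb (N.i₁ e)) = 0
  unit₂ : ∀ e, (N.p₂ e).ord (xb (N.i₂ e)) = 0

variable [∀ i, IsFF k (Fb i)] [IsAlgClosed k]

/-- bounded families are regular at the nodes. -/
theorem BoundedBy.ord₁ {N : NodeData k Fb E} {xb : ∀ i, Fb i} (hN : N.Adapted xb) {a b : ℕ}
    {z : ∀ i, Fb i} (hz : BoundedBy k xb a b z) (e : E) : 0 ≤ (N.p₁ e).ord (z (N.i₁ e)) := by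
  refine ord_nonneg_of_mem_L (hz (N.i₁ e)) ?_
  rw [bipole_apply, hN.unit₁ e]
  simp

theorem BoundedBy.ord₂ {N : NodeData k Fb E} {xb : ∀ i, Fb i} (hN : N.Adapted xb) {a b : ℕ}
    {z : ∀ i, Fb i} (hz : BoundedBy k xb a b z) (e : E) : 0 ≤ (N.p₂ e).ord (z (N.i₂ e)) := by
  refine ord_nonneg_of_mem_L (hz (N.i₂ e)) ?_
  rw [bipole_apply, hN.unit₂ e]
  simp

/-- The space of bounded glued families. -/
def gluedSub (N : NodeData k Fb E) (xb : ∀ i, Fb i) (hN : N.Adapted xb) (δ : E → k) (a b : ℕ) :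
    Submodule k (∀ i, Fb i) where
  carrier := {z | BoundedBy k xb a b z ∧ N.Glued δ z}
  zero_mem' := by
    refine ⟨fun i => Submodule.zero_mem _, fun e => ?_⟩
    simp only [Pi.zero_apply, ev_zero, mul_zero]
  add_mem' := by
    rintro z z' ⟨hz, hg⟩ ⟨hz', hg'⟩
    refine ⟨fun i => Submodule.add_mem _ (hz i) (hz' i), fun e => ?_⟩
    simp only [Pi.add_apply]
    rw [ev_add _ (hz.ord₁ hN e) (hz'.ord₁ hN e), ev_add _ (hz.ord₂ hN e) (hz'.ord₂ hN e), hg e,
      hg' e, mul_add]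
  smul_mem' := by
    rintro c z ⟨hz, hg⟩
    refine ⟨fun i => Submodule.smul_mem _ c (hz i), fun e => ?_⟩
    simp only [Pi.smul_apply]
    rw [ev_smul _ c (hz.ord₁ hN e), ev_smul _ c (hz.ord₂ hN e), hg e]
    ring

theorem mem_gluedSub {N : NodeData k Fb E} {xb : ∀ i, Fb i} {hN : N.Adapted xb} {δ : E → k} {a b : ℕ}
    {z : ∀ i, Fb i} : z ∈ gluedSub N xb hN δ a b ↔ BoundedBy k xb a b z ∧ N.Glued δ z := Iff.rfl

variable [Fintype ι] [Fintype E]

omit [Fintype E] in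
theorem Glued_exists_values_aux (xb : ∀ i, Fb i)
    (hx : ∀ i, xb i ∉ Set.range (algebraMap k (Fb i))) (S : ∀ i, Finset (Place k (Fb i)))
    (a b : ℕ) (hab : (∑ i, (2 * genusFF k (Fb i) + (S i).card)) ≤ a + b)
    (hS : ∀ i, ∀ P ∈ S i, bipole k (xb i) a b P = 0) (val : ∀ i, Place k (Fb i) → k) :
    ∃ z : ∀ i, Fb i, BoundedBy k xb a b z ∧ ∀ i, ∀ P ∈ S i, ev P (z i) = val i P := by
  have key : ∀ i, ∃ u ∈ riemannRochSpace (bipole k (xb i) a b), ∀ P ∈ S i, ev P u = val i P := by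
    intro i
    have hx0 : xb i ≠ 0 := by
      intro h
      exact hx i ⟨0, by rw [h, map_zero]⟩
    refine exists_interp _ (S i) (hS i) ?_ (val i)
    rw [degree_bipole hx0]
    have hpos := degree_poleDiv_pos (hx i)
    have h1 : 2 * genusFF k (Fb i) + (S i).card ≤ ∑ i, (2 * genusFF k (Fb i) + (S i).card) :=
      Finset.single_le_sum (f := fun i => 2 * genusFF k (Fb i) + (S i).card)
        (fun _ _ => Nat.zero_le _) (Finset.mem_univ i)
    have h2 : ((2 * genusFF k (Fb i) + (S i).card : ℕ) : ℤ) ≤ ((a + b : ℕ) : ℤ) := by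
      exact_mod_cast h1.trans hab
    push_cast at h2
    have h3 : (0 : ℤ) ≤ (a : ℤ) + b := by positivity
    nlinarith
  choose z hz hv using key
  exact ⟨z, hz, hv⟩

/-- **Prescribed values.**  For `a + b` large there are bounded families with arbitrary values at finitely
many points at which the `xb i` are units (e.g. the branches of the nodes).
PROOF. `exists_interp` on each component; `degree_bipole`, `degree_poleDiv_pos`. -/
theorem exists_bounded_values (xb : ∀ i, Fb i) (hx : ∀ i, xb i ∉ Set.range (algebraMap k (Fb i)))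
    (S : ∀ i, Finset (Place k (Fb i))) (hS : ∀ i, ∀ P ∈ S i, P.ord (xb i) = 0) :
    ∃ a₂ : ℕ, ∀ a b : ℕ, a₂ ≤ a + b → ∀ val : ∀ i, Place k (Fb i) → k,
      ∃ z : ∀ i, Fb i, BoundedBy k xb a b z ∧ ∀ i, ∀ P ∈ S i, ev P (z i) = val i P := by
  refine ⟨∑ i, (2 * genusFF k (Fb i) + (S i).card), fun a b hab val => ?_⟩
  refine Glued_exists_values_aux xb hx S a b hab (fun i P hP => ?_) val
  rw [bipole_apply, hS i P hP]
  simp

/-- variant with `b = 0`: the points only have to be different from the poles. -/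
theorem exists_bounded_values' (xb : ∀ i, Fb i) (hx : ∀ i, xb i ∉ Set.range (algebraMap k (Fb i)))
    (S : ∀ i, Finset (Place k (Fb i))) (hS : ∀ i, ∀ P ∈ S i, 0 ≤ P.ord (xb i)) :
    ∃ a₂ : ℕ, ∀ a : ℕ, a₂ ≤ a → ∀ val : ∀ i, Place k (Fb i) → k,
      ∃ z : ∀ i, Fb i, BoundedBy k xb a 0 z ∧ ∀ i, ∀ P ∈ S i, ev P (z i) = val i P := by
  refine ⟨∑ i, (2 * genusFF k (Fb i) + (S i).card), fun a hab val => ?_⟩
  refine Glued_exists_values_aux xb hx S a 0 (by simpa using hab) (fun i P hP => ?_) val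
  rw [bipole_apply, max_eq_right (by have := hS i P hP; omega)]
  simp

omit [∀ i, IsFF k (Fb i)] [IsAlgClosed k] [Fintype ι] in
theorem Glued_brSet_finite (N : NodeData k Fb E) (i : ι) :
    {P : Place k (Fb i) | ∃ x, N.branch x = ⟨i, P⟩}.Finite := by
  have h : (Set.range N.branch).Finite := Set.finite_range _
  exact h.preimage (f := fun P : Place k (Fb i) => (⟨i, P⟩ : Σ i, Place k (Fb i)))
    (fun _ _ _ _ h => eq_of_heq (Sigma.mk.inj h).2)

/-- the branches lying on the component `i`. -/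
noncomputable def Glued_brSet (N : NodeData k Fb E) (i : ι) : Finset (Place k (Fb i)) :=
  (Glued_brSet_finite N i).toFinset

omit [∀ i, IsFF k (Fb i)] [IsAlgClosed k] [Fintype ι] in
theorem Glued_mem_brSet (N : NodeData k Fb E) (i : ι) (P : Place k (Fb i)) :
    P ∈ Glued_brSet N i ↔ ∃ x, N.branch x = ⟨i, P⟩ :=
  (Glued_brSet_finite N i).mem_toFinset

omit [∀ i, IsFF k (Fb i)] [IsAlgClosed k] [Fintype ι] in
theorem Glued_p₁_mem_brSet (N : NodeData k Fb E) (e : E) : N.p₁ e ∈ Glued_brSet N (N.i₁ e) :=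
  (Glued_mem_brSet N _ _).2 ⟨Sum.inl e, rfl⟩

omit [∀ i, IsFF k (Fb i)] [IsAlgClosed k] [Fintype ι] in
theorem Glued_p₂_mem_brSet (N : NodeData k Fb E) (e : E) : N.p₂ e ∈ Glued_brSet N (N.i₂ e) :=
  (Glued_mem_brSet N _ _).2 ⟨Sum.inr e, rfl⟩

omit [∀ i, IsFF k (Fb i)] [IsAlgClosed k] [Fintype ι] in
theorem Glued_ord_of_mem_brSet {N : NodeData k Fb E} {xb : ∀ i, Fb i} (hN : N.Adapted xb) (i : ι)
    (P : Place k (Fb i)) (hP : P ∈ Glued_brSet N i) : P.ord (xb i) = 0 := by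
  obtain ⟨x, hx⟩ := (Glued_mem_brSet N i P).1 hP
  rcases x with e | e
  · have h : (⟨N.i₁ e, N.p₁ e⟩ : Σ i, Place k (Fb i)) = ⟨i, P⟩ := hx
    cases h
    exact hN.unit₁ e
  · have h : (⟨N.i₂ e, N.p₂ e⟩ : Σ i, Place k (Fb i)) = ⟨i, P⟩ := hx
    cases h
    exact hN.unit₂ e

omit [Fintype ι] [Fintype E] in
/-- the gluing map `∏ᵢ L(a,b)ᵢ → k^E`. -/
noncomputable def Glued_glue (N : NodeData k Fb E) (xb : ∀ i, Fb i) (hN : N.Adapted xb) (δ : E → k)
    (a b : ℕ) : (∀ i, riemannRochSpace (bipole k (xb i) a b)) →ₗ[k] (E → k) where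
  toFun z e := ev (N.p₁ e) (z (N.i₁ e) : Fb (N.i₁ e)) - δ e * ev (N.p₂ e) (z (N.i₂ e) : Fb (N.i₂ e))
  map_add' z w := by
    funext e
    have hz : BoundedBy k xb a b (fun i => (z i : Fb i)) := fun i => (z i).2
    have hw : BoundedBy k xb a b (fun i => (w i : Fb i)) := fun i => (w i).2
    have h1 := ev_add (N.p₁ e) (hz.ord₁ hN e) (hw.ord₁ hN e)
    have h2 := ev_add (N.p₂ e) (hz.ord₂ hN e) (hw.ord₂ hN e)
    show ev (N.p₁ e) ((z (N.i₁ e) : Fb (N.i₁ e)) + (w (N.i₁ e) : Fb (N.i₁ e))) -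
      δ e * ev (N.p₂ e) ((z (N.i₂ e) : Fb (N.i₂ e)) + (w (N.i₂ e) : Fb (N.i₂ e))) = _
    rw [h1, h2]
    simp only [Pi.add_apply]
    ring
  map_smul' c z := by
    funext e
    have hz : BoundedBy k xb a b (fun i => (z i : Fb i)) := fun i => (z i).2
    have h1 := ev_smul (N.p₁ e) c (hz.ord₁ hN e)
    have h2 := ev_smul (N.p₂ e) c (hz.ord₂ hN e)
    show ev (N.p₁ e) (c • (z (N.i₁ e) : Fb (N.i₁ e))) -
      δ e * ev (N.p₂ e) (c • (z (N.i₂ e) : Fb (N.i₂ e))) = _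
    rw [h1, h2]
    simp only [RingHom.id_apply, Pi.smul_apply, smul_eq_mul]
    ring

omit [Fintype ι] [Fintype E] in
/-- the inclusion `∏ᵢ L(a,b)ᵢ → ∏ᵢ Fb i`. -/
noncomputable def Glued_incl (xb : ∀ i, Fb i) (a b : ℕ) :
    (∀ i, riemannRochSpace (bipole k (xb i) a b)) →ₗ[k] (∀ i, Fb i) :=
  LinearMap.pi fun i => (riemannRochSpace (bipole k (xb i) a b)).subtype.comp (LinearMap.proj i)

omit [Fintype ι] [Fintype E] in
theorem Glued_incl_injective (xb : ∀ i, Fb i) (a b : ℕ) :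
    Function.Injective (Glued_incl (k := k) xb a b) := by
  intro z w h
  funext i
  exact Subtype.ext (congrFun h i)

omit [Fintype ι] [Fintype E] in
theorem Glued_gluedSub_eq_map (N : NodeData k Fb E) (xb : ∀ i, Fb i) (hN : N.Adapted xb) (δ : E → k)
    (a b : ℕ) : gluedSub N xb hN δ a b =
      (LinearMap.ker (Glued_glue N xb hN δ a b)).map (Glued_incl xb a b) := by
  ext z
  rw [mem_gluedSub, Submodule.mem_map]
  constructor
  · rintro ⟨hb, hg⟩
    refine ⟨fun i => ⟨z i, hb i⟩, ?_, rfl⟩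
    rw [LinearMap.mem_ker]
    funext e
    exact sub_eq_zero.2 (hg e)
  · rintro ⟨w, hw, rfl⟩
    rw [LinearMap.mem_ker] at hw
    exact ⟨fun i => (w i).2, fun e => sub_eq_zero.1 (congrFun hw e)⟩

omit [Fintype ι] in
theorem Glued_glue_surjective (N : NodeData k Fb E) (xb : ∀ i, Fb i) (hN : N.Adapted xb) (δ : E → k)
    (a b : ℕ)
    (hval : ∀ val : ∀ i, Place k (Fb i) → k, ∃ z : ∀ i, Fb i, BoundedBy k xb a b z ∧
      ∀ i, ∀ P ∈ Glued_brSet N i, ev P (z i) = val i P) :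
    Function.Surjective (Glued_glue N xb hN δ a b) := by
  classical
  intro t
  obtain ⟨z, hz, hv⟩ := hval (fun i P =>
    ∑ e, if N.branch (Sum.inl e) = (⟨i, P⟩ : Σ i, Place k (Fb i)) then t e else 0)
  refine ⟨fun i => ⟨z i, hz i⟩, ?_⟩
  funext e
  show ev (N.p₁ e) (z (N.i₁ e)) - δ e * ev (N.p₂ e) (z (N.i₂ e)) = t e
  rw [hv _ _ (Glued_p₁_mem_brSet N e), hv _ _ (Glued_p₂_mem_brSet N e)]
  have h1 : (∑ e', if N.branch (Sum.inl e') = (⟨N.i₁ e, N.p₁ e⟩ : Σ i, Place k (Fb i))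
      then t e' else 0) = t e := by
    rw [Finset.sum_eq_single e]
    · exact if_pos rfl
    · intro e' _ hne
      refine if_neg fun h => hne ?_
      have h' : N.branch (Sum.inl e') = N.branch (Sum.inl e) := h
      exact Sum.inl_injective (hN.inj h')
    · intro h
      exact absurd (Finset.mem_univ e) h
  have h2 : (∑ e', if N.branch (Sum.inl e') = (⟨N.i₂ e, N.p₂ e⟩ : Σ i, Place k (Fb i))
      then t e' else 0) = 0 := by
    refine Finset.sum_eq_zero fun e' _ => if_neg fun h => ?_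
    have h' : N.branch (Sum.inl e') = N.branch (Sum.inr e) := h
    exact Sum.inl_ne_inr (hN.inj h')
  rw [h1, h2, mul_zero, sub_zero]

/-- **Dimension.**  For `a + b` large, `dim gluedSub = ∑ᵢ ((a + b) nᵢ + 1 - gᵢ) - #E`.
PROOF. `gluedSub` is the kernel of the linear map `∏ᵢ L(a,b)ᵢ → k^E`,
`z ↦ (z(p₁ e) - δ e z(p₂ e))ₑ`, which is onto by `exists_bounded_values` (values `1` at `p₁ e₀`, `0` at the
other branches; the branches are distinct by `hN.inj`); `ell_bipole_add` with `D = 0`,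
`Module.finrank_pi_fintype`. -/
theorem finrank_gluedSub (N : NodeData k Fb E) (xb : ∀ i, Fb i) (hN : N.Adapted xb) :
    ∃ a₂ : ℕ, ∀ (δ : E → k) (a b : ℕ), a₂ ≤ a + b →
      Module.Finite k (gluedSub N xb hN δ a b) ∧
      (Module.finrank k (gluedSub N xb hN δ a b) : ℤ) =
        ∑ i, ((a + b) * Divisor.degree (poleDiv (K := k) (xb i)) + 1 - genusFF k (Fb i))
          - Fintype.card E := by
  obtain ⟨a₁, ha₁⟩ := exists_bounded_values xb hN.nonconst (Glued_brSet N)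
    (Glued_ord_of_mem_brSet hN)
  refine ⟨a₁ + ∑ i, 2 * genusFF k (Fb i), fun δ a b hab => ?_⟩
  have hsurj := Glued_glue_surjective N xb hN δ a b (ha₁ a b (by omega))
  rw [Glued_gluedSub_eq_map]
  refine ⟨inferInstance, ?_⟩
  rw [← (Submodule.equivMapOfInjective _ (Glued_incl_injective xb a b) _).finrank_eq]
  have h2 := LinearMap.finrank_range_add_finrank_ker (Glued_glue N xb hN δ a b)
  rw [LinearMap.range_eq_top.mpr hsurj, finrank_top, Module.finrank_fintype_fun_eq_card,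
    Module.finrank_pi_fintype] at h2
  have h4 : ∀ i, (Module.finrank k (riemannRochSpace (bipole k (xb i) a b)) : ℤ) =
      (a + b) * Divisor.degree (poleDiv (K := k) (xb i)) + 1 - genusFF k (Fb i) := by
    intro i
    have hx0 : xb i ≠ 0 := by
      intro h
      exact hN.nonconst i ⟨0, by rw [h, map_zero]⟩
    have h5 := ell_bipole_add hx0 (0 : Divisor k (Fb i)) (map_zero _) a b (by
      have hpos := degree_poleDiv_pos (hN.nonconst i)
      have h1 : 2 * genusFF k (Fb i) ≤ ∑ i, 2 * genusFF k (Fb i) :=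
        Finset.single_le_sum (f := fun i => 2 * genusFF k (Fb i))
          (fun _ _ => Nat.zero_le _) (Finset.mem_univ i)
      have h2 : ((2 * genusFF k (Fb i) : ℕ) : ℤ) ≤ ((a + b : ℕ) : ℤ) := by
        exact_mod_cast (h1.trans (Nat.le_add_left _ _)).trans hab
      push_cast at h2
      have h3 : (0 : ℤ) ≤ (a : ℤ) + b := by positivity
      nlinarith)
    rw [add_zero] at h5
    exact h5
  have h6 : ((Fintype.card E : ℤ) +
      (Module.finrank k (LinearMap.ker (Glued_glue N xb hN δ a b)) : ℤ)) =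
      ∑ i, (Module.finrank k (riemannRochSpace (bipole k (xb i) a b)) : ℤ) := by
    exact_mod_cast h2
  rw [Finset.sum_congr rfl fun i _ => h4 i] at h6
  linarith

/-- glued families which are units at given points (`b = 0`). -/
theorem exists_glued_units (N : NodeData k Fb E) (xb : ∀ i, Fb i) (hN : N.Adapted xb)
    (S : ∀ i, Finset (Place k (Fb i))) (hS : ∀ i, ∀ P ∈ S i, 0 ≤ P.ord (xb i)) :
    ∃ a₂ : ℕ, ∀ (δ : E → k), (∀ e, δ e ≠ 0) → ∀ a : ℕ, a₂ ≤ a →
      ∃ z ∈ gluedSub N xb hN δ a 0, (∀ i, ∀ P ∈ S i, ev P (z i) ≠ 0) ∧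
        (∀ e, ev (N.p₁ e) (z (N.i₁ e)) ≠ 0) ∧ ∀ e, ev (N.p₂ e) (z (N.i₂ e)) ≠ 0 := by
  classical
  obtain ⟨a₁, ha₁⟩ := exists_bounded_values' xb hN.nonconst (fun i => S i ∪ Glued_brSet N i)
    (fun i P hP => by
      rcases Finset.mem_union.1 hP with h | h
      · exact hS i P h
      · exact (Glued_ord_of_mem_brSet hN i P h).ge)
  refine ⟨a₁, fun δ hδ a ha => ?_⟩
  obtain ⟨z, hz, hv⟩ := ha₁ a ha (fun i P =>
    if h : ∃ e, N.branch (Sum.inl e) = (⟨i, P⟩ : Σ i, Place k (Fb i)) then δ h.choose else 1)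
  have hne : ∀ i (P : Place k (Fb i)),
      (if h : ∃ e, N.branch (Sum.inl e) = (⟨i, P⟩ : Σ i, Place k (Fb i)) then δ h.choose else 1)
        ≠ 0 := by
    intro i P
    split_ifs with h
    · exact hδ _
    · exact one_ne_zero
  have h1 : ∀ e, ev (N.p₁ e) (z (N.i₁ e)) = δ e := by
    intro e
    rw [hv _ _ (Finset.mem_union_right _ (Glued_p₁_mem_brSet N e))]
    have hex : ∃ e', N.branch (Sum.inl e') = (⟨N.i₁ e, N.p₁ e⟩ : Σ i, Place k (Fb i)) := ⟨e, rfl⟩
    rw [dif_pos hex]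
    have h' : N.branch (Sum.inl hex.choose) = N.branch (Sum.inl e) := hex.choose_spec
    rw [Sum.inl_injective (hN.inj h')]
  have h2 : ∀ e, ev (N.p₂ e) (z (N.i₂ e)) = 1 := by
    intro e
    rw [hv _ _ (Finset.mem_union_right _ (Glued_p₂_mem_brSet N e))]
    refine dif_neg ?_
    rintro ⟨e', h⟩
    have h' : N.branch (Sum.inl e') = N.branch (Sum.inr e) := h
    exact Sum.inl_ne_inr (hN.inj h')
  refine ⟨z, mem_gluedSub.2 ⟨hz, fun e => by rw [h1, h2, mul_one]⟩, fun i P hP => ?_,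
    fun e => by rw [h1]; exact hδ e, fun e => by rw [h2]; exact one_ne_zero⟩
  rw [hv i P (Finset.mem_union_left _ hP)]
  exact hne i P

omit [Fintype ι] [Fintype E] in
theorem gluedSub_mono (N : NodeData k Fb E) (xb : ∀ i, Fb i) (hN : N.Adapted xb) (δ : E → k)
    {a a' b b' : ℕ} (ha : a ≤ a') (hb : b ≤ b') :
    gluedSub N xb hN δ a b ≤ gluedSub N xb hN δ a' b' := by
  rintro z ⟨hz, hg⟩
  exact ⟨fun i => L_mono (bipole_mono (xb i) ha hb) (hz i), hg⟩

omit [Fintype ι] [Fintype E] in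
/-- looking at poles. -/
theorem gluedSub_inf (N : NodeData k Fb E) (xb : ∀ i, Fb i) (hN : N.Adapted xb) (δ : E → k)
    (a a' b b' : ℕ) :
    gluedSub N xb hN δ a b ⊓ gluedSub N xb hN δ a' b' =
      gluedSub N xb hN δ (min a a') (min b b') := by
  apply le_antisymm
  · rintro z ⟨⟨hz, hg⟩, ⟨hz', -⟩⟩
    refine ⟨fun i => ?_, hg⟩
    have h := mem_L_bipole_inf (xb i) 0 (a := a) (a' := a') (b := b) (b' := b') (u := z i)
      (by rw [add_zero]; exact hz i) (by rw [add_zero]; exact hz' i)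
    rwa [add_zero] at h
  · exact le_inf (gluedSub_mono N xb hN δ (min_le_left _ _) (min_le_left _ _))
      (gluedSub_mono N xb hN δ (min_le_right _ _) (min_le_right _ _))

omit [Fintype ι] [Fintype E] in
/-- `gluedSub δ 0 0` consists of the locally constant families. -/
theorem mem_gluedSub_zero_iff (N : NodeData k Fb E) (xb : ∀ i, Fb i) (hN : N.Adapted xb) (δ : E → k)
    (z : ∀ i, Fb i) :
    z ∈ gluedSub N xb hN δ 0 0 ↔ ∃ c : ι → k, (∀ i, z i = algebraMap k (Fb i) (c i)) ∧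
      ∀ e, c (N.i₁ e) = δ e * c (N.i₂ e) := by
  have h0 : ∀ i, bipole k (xb i) 0 0 = 0 := fun i => by simp [bipole]
  constructor
  · rintro ⟨hz, hg⟩
    have h1 : ∀ i, ∃ c : k, algebraMap k (Fb i) c = z i := fun i =>
      mem_range_of_mem_L_zero (by rw [← h0 i]; exact hz i)
    choose c hc using h1
    refine ⟨c, fun i => (hc i).symm, fun e => ?_⟩
    have h2 := hg e
    rwa [← hc, ← hc, ev_algebraMap, ev_algebraMap] at h2
  · rintro ⟨c, hc, hg⟩
    refine ⟨fun i => ?_, fun e => ?_⟩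
    · rw [h0 i, hc i, Algebra.algebraMap_eq_smul_one]
      exact Submodule.smul_mem _ _ (one_mem_L le_rfl)
    · rw [hc, hc, ev_algebraMap, ev_algebraMap]
      exact hg e

omit [Fintype ι] [Fintype E] in
/-- looking at poles: `(G(a',0) + G(0,b')) ∩ G(a,b) = G(a,0) + G(0,b)` for `a ≤ a'`, `b ≤ b'`. -/
theorem gluedSub_sup_inf (N : NodeData k Fb E) (xb : ∀ i, Fb i) (hN : N.Adapted xb) (δ : E → k)
    {a a' b b' : ℕ} (ha : a ≤ a') (hb : b ≤ b') :
    (gluedSub N xb hN δ a' 0 ⊔ gluedSub N xb hN δ 0 b') ⊓ gluedSub N xb hN δ a b =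
      gluedSub N xb hN δ a 0 ⊔ gluedSub N xb hN δ 0 b := by
  apply le_antisymm
  · rintro ξ ⟨hξ1, hξ2⟩
    obtain ⟨w₁, hw₁, w₂, hw₂, rfl⟩ := Submodule.mem_sup.mp hξ1
    have hξ2' : w₁ + w₂ ∈ gluedSub N xb hN δ a b := hξ2
    have h1 : w₁ ∈ gluedSub N xb hN δ a 0 := by
      have h2 : w₁ ∈ gluedSub N xb hN δ a b' := by
        have h3 := Submodule.sub_mem _ (gluedSub_mono N xb hN δ le_rfl hb hξ2')
          (gluedSub_mono N xb hN δ (Nat.zero_le a) le_rfl hw₂)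
        rwa [add_sub_cancel_right] at h3
      have h4 : w₁ ∈ gluedSub N xb hN δ a b' ⊓ gluedSub N xb hN δ a' 0 := ⟨h2, hw₁⟩
      rwa [gluedSub_inf, min_eq_left ha, Nat.min_zero] at h4
    have h2 : w₂ ∈ gluedSub N xb hN δ 0 b := by
      have h2 : w₂ ∈ gluedSub N xb hN δ a' b := by
        have h3 := Submodule.sub_mem _ (gluedSub_mono N xb hN δ ha le_rfl hξ2')
          (gluedSub_mono N xb hN δ le_rfl (Nat.zero_le b) hw₁)
        rwa [add_sub_cancel_left] at h3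
      have h4 : w₂ ∈ gluedSub N xb hN δ a' b ⊓ gluedSub N xb hN δ 0 b' := ⟨h2, hw₂⟩
      rwa [gluedSub_inf, Nat.min_zero, min_eq_left hb] at h4
    exact Submodule.add_mem_sup h1 h2
  · exact le_inf (sup_le_sup (gluedSub_mono N xb hN δ ha le_rfl)
      (gluedSub_mono N xb hN δ le_rfl hb))
      (sup_le (gluedSub_mono N xb hN δ le_rfl (Nat.zero_le b))
        (gluedSub_mono N xb hN δ (Nat.zero_le a) le_rfl))

omit [Fintype ι] [Fintype E] in
/-- products. -/
theorem mul_mem_gluedSub (N : NodeData k Fb E) (xb : ∀ i, Fb i) (hN : N.Adapted xb) {δ δ' : E → k}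
    {a a' b b' : ℕ} {z z' : ∀ i, Fb i} (hz : z ∈ gluedSub N xb hN δ a b)
    (hz' : z' ∈ gluedSub N xb hN δ' a' b') :
    z * z' ∈ gluedSub N xb hN (δ * δ') (a + a') (b + b') := by
  obtain ⟨hb, hg⟩ := hz
  obtain ⟨hb', hg'⟩ := hz'
  refine ⟨fun i => ?_, fun e => ?_⟩
  · rw [bipole_add]
    exact mul_mem_L (hb i) (hb' i)
  · simp only [Pi.mul_apply]
    rw [ev_mul _ (hb.ord₁ hN e) (hb'.ord₁ hN e), ev_mul _ (hb.ord₂ hN e) (hb'.ord₂ hN e), hg e,
      hg' e]
    ring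

omit [Fintype ι] [Fintype E] in
/-- multiplication by the coordinate, if it is glued. -/
theorem mul_coord_mem_gluedSub_iff (N : NodeData k Fb E) (xb : ∀ i, Fb i) (hN : N.Adapted xb)
    (hx : N.Glued 1 xb) (δ : E → k) (a b : ℕ) (z : ∀ i, Fb i) :
    xb * z ∈ gluedSub N xb hN δ (a + 1) b ↔ z ∈ gluedSub N xb hN δ a (b + 1) := by
  have hx0 : ∀ i, xb i ≠ 0 := fun i h => hN.nonconst i ⟨0, by rw [map_zero, h]⟩
  have hbd : BoundedBy k xb (a + 1) b (xb * z) ↔ BoundedBy k xb a (b + 1) z :=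
    forall_congr' fun i => mul_mem_L_bipole_iff (hx0 i) a b (z i)
  rw [mem_gluedSub, mem_gluedSub, hbd]
  refine and_congr_right fun hz => forall_congr' fun e => ?_
  have h1 : ev (N.p₁ e) (xb (N.i₁ e)) = ev (N.p₂ e) (xb (N.i₂ e)) := by
    have := hx e
    rwa [Pi.one_apply, one_mul] at this
  have h2 : ev (N.p₂ e) (xb (N.i₂ e)) ≠ 0 :=
    (ev_ne_zero_iff _ (hN.unit₂ e).ge).mpr ⟨hx0 _, hN.unit₂ e⟩
  simp only [Pi.mul_apply]
  rw [ev_mul _ (hN.unit₁ e).ge (hz.ord₁ hN e), ev_mul _ (hN.unit₂ e).ge (hz.ord₂ hN e), h1]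
  constructor
  · intro h
    apply mul_left_cancel₀ h2
    rw [h]
    ring
  · intro h
    rw [h]
    ring

end Fermat.Agent.DR.Abs
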