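import Fermat.Agent.DR.Abs.Bipole
import Fermat.Agent.DR.Abs.Nodal.Approx

/-!
# DR/Abs leaf A4: interpolation and strong approximation on ONE function field (Riemann-Roch).
-/

set_option autoImplicit false

namespace Fermat.Agent.DR.Abs

open AlgebraicCurve Fermat.Agent.Lib.RR Fermat.Agent.GAL.RED

variable {k Fb : Type*} [Field k] [Field Fb] [Algebra k Fb] [IsFF k Fb] [IsAlgClosed k]

/-- the two notions of value at a place coincide (copy of `Nodal.abs_ev_eq`). -/
theorem Interp_ev_eq (P : Place k Fb) (u : Fb) :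
    ev P u = Fermat.Agent.Lib.PlaceEval.ev P u := by
  classical
  unfold Fermat.Agent.DR.Abs.ev
  by_cases hu : 0 ≤ P.ord u
  · have hex : ∃ c : k, u = algebraMap k Fb c ∨ 0 < P.ord (u - algebraMap k Fb c) :=
      ⟨Fermat.Agent.Lib.PlaceEval.ev P u, Fermat.Agent.Lib.PlaceEval.ord_sub_ev_pos P hu⟩
    rw [dif_pos hex]
    exact ((Fermat.Agent.Lib.PlaceEval.ev_eq_iff P hu _).2 hex.choose_spec).symm
  · have hnex : ¬ ∃ c : k, u = algebraMap k Fb c ∨ 0 < P.ord (u - algebraMap k Fb c) := by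
      rintro ⟨c, hc | hc⟩
      · apply hu
        rw [hc, ord_algebraMap]
      · apply hu
        have h1 : u - algebraMap k Fb c ∈ P.toValuationSubring :=
          (Fermat.Agent.Lib.PlaceEval.mem_iff P).2 hc.le
        have h2 : algebraMap k Fb c ∈ P.toValuationSubring := P.algebraMap_mem' c
        have h3 := add_mem h1 h2
        rw [sub_add_cancel] at h3
        exact (Fermat.Agent.Lib.PlaceEval.mem_iff P).1 h3
    rw [dif_neg hnex]
    exact (Fermat.Agent.Lib.PlaceEval.ev_of_not_mem P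
      (fun h => hu ((Fermat.Agent.Lib.PlaceEval.mem_iff P).1 h))).symm

/-- a non constant function has a pole. -/
theorem Interp_polesOf_nonempty {x : Fb} (hx : x ∉ Set.range (algebraMap k Fb)) :
    (Fermat.Agent.DR.Nodal.polesOf (k := k) x).Nonempty := by
  by_contra hcon
  apply hx
  apply mem_range_of_ord_nonneg
  intro P
  by_contra hP
  exact hcon ⟨P, not_le.1 hP⟩

/-- **Interpolation.**  `deg D > 2g - 2 + #S`, `D = 0` on `S`: the evaluation map `L(D) → k^S` is onto.
PROOF. Induction on `S`, or: it is `k`-linear (`ev_add`, `ev_smul`, elements of `L(D)` are regular on `S`)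
with kernel `L(D - ∑_{P ∈ S} P)` (`ev_eq_zero_iff`), and
`ℓ(D) - ℓ(D - ∑ P) = #S` by `ell_eq_of_lt_degree'` (`degree_pt`, `deg_eq_one`); rank-nullity. -/
theorem exists_interp (D : Divisor k Fb) (S : Finset (Place k Fb)) (hS : ∀ P ∈ S, D P = 0)
    (hdeg : 2 * (genusFF k Fb : ℤ) - 2 + S.card < Divisor.degree D) (val : Place k Fb → k) :
    ∃ u ∈ riemannRochSpace D, ∀ P ∈ S, ev P u = val P := by
  obtain ⟨u, hu, h⟩ := Fermat.Agent.DR.Nodal.exists_mem_L_ev D S hS hdeg val
  exact ⟨u, hu, fun P hP => by rw [Interp_ev_eq, h P hP]⟩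

/-- **Strong approximation.**  Given finitely many places `Z`, targets `v P` and orders `e P`, and a
divisor `D` of degree `> 2g - 2 + ∑ e`, `D = 0` on `Z`, there is `c` with `ord_P (c - v P) ≥ e P` on `Z` (or
`c = v P`) and `ord_P c ≥ - D P` elsewhere.
PROOF. `h1 (D - ∑ e P • P) = 0` (`h1_eq_zero_of_lt_degree`), i.e.
`repartitionsOf (D - ∑ e P) ⊔ principalRepartitions = ⊤`; apply this to the repartition equal to
`v P` on `Z` and `0` elsewhere (`mem_repartitions_of_finite_ord`). -/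
theorem exists_approx (Z : Finset (Place k Fb)) (v : Place k Fb → Fb) (e : Place k Fb → ℕ)
    (D : Divisor k Fb) (hZ : ∀ P ∈ Z, D P = 0)
    (hdeg : 2 * (genusFF k Fb : ℤ) - 2 + ∑ P ∈ Z, (e P : ℤ) < Divisor.degree D) :
    ∃ c : Fb, (∀ P ∈ Z, c = v P ∨ (e P : ℤ) ≤ P.ord (c - v P)) ∧
      ∀ P ∉ Z, c = 0 ∨ -D P ≤ P.ord c := by
  classical
  set D' : Divisor k Fb := D - ∑ P ∈ Z, Finsupp.single P (e P : ℤ) with hD'
  have hD'Z : ∀ P ∈ Z, D' P = -(e P : ℤ) := by
    intro P hP
    simp only [hD', Finsupp.sub_apply, Finsupp.finsetSum_apply, Finsupp.single_apply,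
      Finset.sum_ite_eq', if_pos hP, hZ P hP, zero_sub]
  have hD'N : ∀ P, P ∉ Z → D' P = D P := by
    intro P hP
    simp only [hD', Finsupp.sub_apply, Finsupp.finsetSum_apply, Finsupp.single_apply,
      Finset.sum_ite_eq', if_neg hP, sub_zero]
  have hdegD' : Divisor.degree D' = Divisor.degree D - ∑ P ∈ Z, (e P : ℤ) := by
    simp only [hD', map_sub, map_sum, Divisor.degree_single, deg_eq_one, Nat.cast_one, mul_one]
  have hh1 : h1 D' = 0 := by
    apply h1_eq_zero_of_lt_degree
    have h0 : ell (0 : Divisor k Fb) = 1 := ell_zero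
    rw [h0, hdegD']
    push_cast
    linarith
  have hmem : (fun w => if w ∈ Z then v w else 0) ∈ repartitions k Fb := by
    apply mem_repartitions_of_finite_ord
    refine Z.finite_toSet.subset fun w hw => ?_
    by_contra hcon
    have hcon' : w ∉ Z := hcon
    have hw' : w.ord (if w ∈ Z then v w else 0) < 0 := hw
    rw [if_neg hcon', Place.ord_zero] at hw'
    exact lt_irrefl _ hw'
  obtain ⟨z, hz⟩ := Fermat.Agent.GAL.FF.exists_sub_mem_of_h1_eq_zero hh1 ⟨_, hmem⟩
  refine ⟨z, fun P hP => ?_, fun P hP => ?_⟩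
  · have := hz P
    simp only [if_pos hP, hD'Z P hP, neg_neg] at this
    rcases this with h | h
    · exact Or.inl h.symm
    · right
      rwa [← ord_neg, neg_sub]
  · have := hz P
    simp only [if_neg hP, hD'N P hP, zero_sub, ord_neg] at this
    rcases this with h | h
    · exact Or.inl h.symm
    · exact Or.inr h

/-- a uniformizer at `P` with poles only on the poles of `x`. -/
theorem exists_uniformizer {x : Fb} (hx : x ∉ Set.range (algebraMap k Fb)) (P : Place k Fb)
    (hP : 0 ≤ P.ord x) :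
    ∃ t : Fb, P.ord t = 1 ∧ ∀ Q : Place k Fb, 0 ≤ Q.ord x → 0 ≤ Q.ord t := by
  obtain ⟨t, ht, h1⟩ := Fermat.Agent.DR.Nodal.exists_unif (Fermat.Agent.DR.Nodal.polesOf (k := k) x)
    (Interp_polesOf_nonempty hx) P (fun h => absurd hP (not_le.2 h))
  exact ⟨t, h1, fun Q hQ => (Fermat.Agent.Lib.PlaceEval.mem_iff Q).1
    (ht Q (fun h => absurd hQ (not_le.2 h)))⟩

/-- functions with poles only on the poles of `x` separate the other points. -/
theorem exists_separating {x : Fb} (hx : x ∉ Set.range (algebraMap k Fb)) {P Q : Place k Fb}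
    (hP : 0 ≤ P.ord x) (hQ : 0 ≤ Q.ord x) (hPQ : P ≠ Q) :
    ∃ t : Fb, ev P t = 0 ∧ ev Q t = 1 ∧ ∀ Q' : Place k Fb, 0 ≤ Q'.ord x → 0 ≤ Q'.ord t := by
  classical
  obtain ⟨t, ht, h1⟩ := Fermat.Agent.DR.Nodal.exists_interp
    (Fermat.Agent.DR.Nodal.polesOf (k := k) x) (Interp_polesOf_nonempty hx) {P, Q}
    (fun R hR => by
      rcases Finset.mem_insert.1 hR with rfl | hR
      · exact fun h => absurd hP (not_le.2 h)
      · rw [Finset.mem_singleton.1 hR]
        exact fun h => absurd hQ (not_le.2 h))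
    (fun R => if R = Q then 1 else 0)
  refine ⟨t, ?_, ?_, fun Q' hQ' => (Fermat.Agent.Lib.PlaceEval.mem_iff Q').1
    (ht Q' (fun h => absurd hQ' (not_le.2 h)))⟩
  · rw [Interp_ev_eq, h1 P (Finset.mem_insert_self _ _), if_neg hPQ]
  · rw [Interp_ev_eq, h1 Q (Finset.mem_insert_of_mem (Finset.mem_singleton_self _)), if_pos rfl]

end Fermat.Agent.DR.Abs
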