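import Fermat.Agent.DR.Abs.Basic

/-!
# DR/Abs leaf C1: lifting of independent families (the heart of the fundamental inequality
`∑ᵢ deg (ȳᵢ)_∞ ≤ deg (y)_∞`, which is `MultiRed.sum_degree_poleDiv_red_le` in `PoleBound.lean`: it follows from
`exists_polyIndep_lift` below and `GAL.RED.card_le_degree_poleDiv`).
-/

set_option autoImplicit false

namespace Fermat.Agent.DR.Abs

open AlgebraicCurve Fermat.Agent.Lib.RR Fermat.Agent.GAL.RED

variable {K F k : Type*} [Field K] [Field F] [Algebra K F] [Field k] {ι : Type*}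
  {Fb : ι → Type*} [∀ i, Field (Fb i)] [∀ i, Algebra k (Fb i)]

namespace MultiRed

variable (T : MultiRed K F k Fb)

/-- lifting with `Sep` (all scalings `1`). -/
theorem Sep.exists_lift {T : MultiRed K F k Fb} (hS : T.Sep) (u : ∀ i, Fb i) :
    ∃ h : F, h ∈ T.O ∧ T.red h = u := by
  obtain ⟨h, hh⟩ := hS u (fun _ => 1) (fun _ => one_ne_zero)
  refine ⟨h, fun i => ?_, funext fun i => ?_⟩
  · have := (hh i).1
    rwa [one_smul] at this
  · have := (hh i).2
    rwa [one_smul] at this

/-- transport of a polynomial over `(R i₀).A` to `(R i).A`. -/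
theorem keyIneq_transport (i₀ i : ι) (q : Polynomial (T.R i₀).A) :
    ∃ q' : Polynomial (T.R i).A, q'.map (T.R i).A.subtype = q.map (T.R i₀).A.subtype ∧
      q'.map (T.R i).resA = q.map (T.R i₀).resA := by
  have h1 : ∃ q' : Polynomial (T.R i).A, q'.map (T.R i).A.subtype = q.map (T.R i₀).A.subtype := by
    rw [← Polynomial.mem_lifts, Polynomial.lifts_iff_coeff_lifts]
    intro j
    rw [Polynomial.coeff_map]
    have h2 : ((q.coeff j : (T.R i₀).A) : K) ∈ (T.R i).A := by
      rw [T.A_eq i, ← T.A_eq i₀]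
      exact (q.coeff j).2
    exact ⟨⟨_, h2⟩, rfl⟩
  obtain ⟨q', hq'⟩ := h1
  refine ⟨q', hq', ?_⟩
  ext j
  rw [Polynomial.coeff_map, Polynomial.coeff_map]
  have h3 : ((q'.coeff j : (T.R i).A) : K) = ((q.coeff j : (T.R i₀).A) : K) := by
    have := congrArg (fun r => Polynomial.coeff r j) hq'
    simp only [Polynomial.coeff_map] at this
    exact this
  have h4 : (T.R i).resA (q'.coeff j) = (T.R i).redA ((q'.coeff j : (T.R i).A) : K) := by
    rw [(T.R i).redA_of_mem (q'.coeff j).2]
  have h5 : (T.R i₀).resA (q.coeff j) = (T.R i₀).redA ((q.coeff j : (T.R i₀).A) : K) := by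
    rw [(T.R i₀).redA_of_mem (q.coeff j).2]
  rw [h4, h5, h3, T.redA_eq, T.redA_eq]

/-- **Independence lifts.** -/
theorem polyIndep_sigma [Fintype ι] [DecidableEq ι] {y : F} (hy : y ∈ T.O) (n : ι → ℕ) (zb : ∀ i, Fin (n i) → Fb i)
    (hzb : ∀ i, PolyIndep k ((T.R i).red y) (zb i))
    (b : (Σ i, Fin (n i)) → F) (hb : ∀ s, b s ∈ T.O)
    (hred : ∀ s : Σ i, Fin (n i), T.red (b s) = Pi.single s.1 (zb s.1 s.2))
    (p : (Σ i, Fin (n i)) → Polynomial K) (hp : ∑ s, Polynomial.aeval y (p s) * b s = 0) : p = 0 := by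
  let e := Fintype.equivFin (Σ i, Fin (n i))
  by_contra hcon
  obtain ⟨s₀, -⟩ : ∃ s₀, p s₀ ≠ 0 := by
    by_contra h
    push Not at h
    exact hcon (funext h)
  let i₀ : ι := s₀.1
  have hcon' : (fun m => p (e.symm m)) ≠ 0 := by
    intro h
    apply hcon
    funext s
    have := congrFun h (e s)
    simpa using this
  obtain ⟨a, q, -, hq, hne⟩ := (T.R i₀).exists_scale_poly (fun m => p (e.symm m)) hcon'
  apply hne
  have h1 : ∑ m, Polynomial.aeval y ((q m).map (T.R i₀).A.subtype) * b (e.symm m) = 0 := by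
    simp_rw [hq, map_mul, Polynomial.aeval_C, mul_assoc]
    rw [← Finset.mul_sum, Equiv.sum_comp e.symm (fun s => Polynomial.aeval y (p s) * b s), hp,
      mul_zero]
  have key : ∀ i, (fun j : Fin (n i) => (q (e ⟨i, j⟩)).map (T.R i₀).resA) = 0 := by
    intro i
    apply hzb i
    choose q' hq'1 hq'2 using fun m => T.keyIneq_transport i₀ i (q m)
    have h2 : ∑ m, Polynomial.aeval y ((q' m).map (T.R i).A.subtype) * b (e.symm m) = 0 := by
      simp_rw [hq'1]; exact h1
    have h3 := (T.R i).red_sum Finset.univ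
      (fun m => Polynomial.aeval y ((q' m).map (T.R i).A.subtype) * b (e.symm m))
      (fun m _ => (T.R i).O.mul_mem _ _ ((T.R i).aeval_map_mem (q' m) (hy i)) (hb _ i))
    rw [h2, RedData.red_zero] at h3
    let W : (Σ i, Fin (n i)) → Fb i := fun s => (Pi.single s.1 (zb s.1 s.2) : ∀ i, Fb i) i
    have h4 : ∀ m, (T.R i).red (Polynomial.aeval y ((q' m).map (T.R i).A.subtype) * b (e.symm m))
        = Polynomial.aeval ((T.R i).red y) ((q m).map (T.R i₀).resA) * W (e.symm m) := by
      intro m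
      rw [(T.R i).red_mul ((T.R i).aeval_map_mem (q' m) (hy i)) (hb _ i),
        (T.R i).red_aeval_map (q' m) (hy i), hq'2]
      congr 1
      exact congrFun (hred (e.symm m)) i
    simp_rw [h4] at h3
    rw [← Equiv.sum_comp e, Fintype.sum_sigma, Finset.sum_eq_single i] at h3
    · rw [h3]
      refine Finset.sum_congr rfl fun j _ => ?_
      rw [Equiv.symm_apply_apply]
      show _ = _ * (Pi.single i (zb i j) : ∀ i, Fb i) i
      rw [Pi.single_eq_same]
    · intro i' _ hne'
      refine Finset.sum_eq_zero fun j _ => ?_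
      rw [Equiv.symm_apply_apply]
      show _ * (Pi.single i' (zb i' j) : ∀ i, Fb i) i = 0
      rw [Pi.single_eq_of_ne (Ne.symm hne'), mul_zero]
    · intro h; exact absurd (Finset.mem_univ _) h
  funext m
  have := congrFun (key (e.symm m).1) (e.symm m).2
  simpa using this

variable [IsFF K F] [IsAlgClosed K] [∀ i, IsFF k (Fb i)] [IsAlgClosed k] [Fintype ι]

/-- existence of a family as in `polyIndep_sigma` with `n i = deg (ȳᵢ)_∞`, reindexed by `Fin`. -/
theorem exists_polyIndep_lift {T : MultiRed K F k Fb} (hS : T.Sep) (y : F)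
    (hy : ∀ i, (T.R i).red y ∉ Set.range (algebraMap k (Fb i))) :
    ∃ (n : ℕ) (b : Fin n → F), (n : ℤ) = ∑ i, Divisor.degree (poleDiv (K := k) ((T.R i).red y)) ∧
      (∀ l, b l ∈ T.O) ∧ PolyIndep K y b ∧
      (∀ p : Fin n → Polynomial k,
        (∀ i, ∑ l, Polynomial.aeval ((T.R i).red y) (p l) * T.red (b l) i = 0) → p = 0) := by
  classical
  choose n zb hn hzb using fun i => exists_polyIndep (K := k) ((T.R i).red y) (hy i)
  have hyO : y ∈ T.O := fun i =>
    (T.R i).mem_of_red_ne_zero (fun h => hy i ⟨0, by rw [h, map_zero]⟩)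
  choose Z hZO hZ using fun s : (Σ i, Fin (n i)) => hS.exists_lift (Pi.single s.1 (zb s.1 s.2))
  let e := Fintype.equivFin (Σ i, Fin (n i))
  have hcard : (Fintype.card (Σ i, Fin (n i)) : ℤ)
      = ∑ i, Divisor.degree (poleDiv (K := k) ((T.R i).red y)) := by
    rw [Fintype.card_sigma]
    push_cast
    exact Finset.sum_congr rfl fun i _ => by rw [Fintype.card_fin, hn]
  refine ⟨_, fun m => Z (e.symm m), hcard, fun l => hZO _, ?_, ?_⟩
  · intro p hp
    have h1 := T.polyIndep_sigma hyO n zb hzb Z hZO hZ (fun s => p (e s)) (by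
      rw [← hp, ← Equiv.sum_comp e]
      simp only [Equiv.symm_apply_apply])
    funext m
    have := congrFun h1 (e.symm m)
    simpa using this
  · intro p hp
    have key : ∀ i, (fun j : Fin (n i) => p (e ⟨i, j⟩)) = 0 := by
      intro i
      apply hzb i
      have h3 := hp i
      let W : (Σ i, Fin (n i)) → Fb i := fun s => (Pi.single s.1 (zb s.1 s.2) : ∀ i, Fb i) i
      have h4 : ∀ m, T.red (Z (e.symm m)) i = W (e.symm m) := fun m => congrFun (hZ (e.symm m)) i
      simp_rw [h4] at h3
      rw [← Equiv.sum_comp e, Fintype.sum_sigma, Finset.sum_eq_single i] at h3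
      · rw [← h3]
        refine Finset.sum_congr rfl fun j _ => ?_
        rw [Equiv.symm_apply_apply]
        show _ = _ * (Pi.single i (zb i j) : ∀ i, Fb i) i
        rw [Pi.single_eq_same]
      · intro i' _ hne'
        refine Finset.sum_eq_zero fun j _ => ?_
        rw [Equiv.symm_apply_apply]
        show _ * (Pi.single i' (zb i' j) : ∀ i, Fb i) i = 0
        rw [Pi.single_eq_of_ne (Ne.symm hne'), mul_zero]
      · intro h; exact absurd (Finset.mem_univ _) h
    funext m
    have := congrFun (key (e.symm m).1) (e.symm m).2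
    simpa using this

end MultiRed

end Fermat.Agent.DR.Abs
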