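import Fermat.Agent.DR.Abs.Structure

/-!
# DR/Abs leaf A8: the lifting lemma (`δ = 1 ⟹ D` principal).
-/

set_option autoImplicit false

namespace Fermat.Agent.DR.Abs

open AlgebraicCurve Fermat.Agent.Lib.RR Fermat.Agent.GAL.RED

variable {K F k : Type*} [Field K] [Field F] [Algebra K F] [Field k] {ι : Type*}
  {Fb : ι → Type*} [∀ i, Field (Fb i)] [∀ i, Algebra k (Fb i)] {E : Type*}
  [IsFF K F] [IsAlgClosed K] [∀ i, IsFF k (Fb i)] [IsAlgClosed k] [Fintype ι] [Fintype E]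

/-- `H(a,0) ∩ H(0,a) = k · 1`  (`gluedSub_inf`, `mem_gluedSub_zero_iff`, `h.conn`). -/
theorem IsNodal.inf_eq {T : MultiRed K F k Fb} {x : F} {N : NodeData k Fb E} {a₀ : ℕ}
    (h : IsNodal T x N a₀) (a b : ℕ) {z : ∀ i, Fb i}
    (h₁ : z ∈ gluedSub N (T.red x) h.adapted 1 a 0) (h₂ : z ∈ gluedSub N (T.red x) h.adapted 1 0 b) :
    ∃ c : k, z = c • (1 : ∀ i, Fb i) := by
  have hz : z ∈ gluedSub N (T.red x) h.adapted 1 a 0 ⊓ gluedSub N (T.red x) h.adapted 1 0 b :=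
    ⟨h₁, h₂⟩
  rw [gluedSub_inf] at hz
  simp only [Nat.min_zero, Nat.zero_min] at hz
  obtain ⟨c, hc, hglue⟩ := (mem_gluedSub_zero_iff _ _ _ _ _).1 hz
  have hconn := h.conn c (fun e => by simpa using hglue e)
  obtain ⟨i₀⟩ := MultiRed.IsCartesian.nonempty h.cart
  refine ⟨c i₀, ?_⟩
  funext i
  rw [hc i, hconn i i₀]
  simp [Algebra.smul_def]

/-- **No torsion for the trivial class.**  For `a ≥ a₀`:
`redSub (L(a X_∞) + L(a X_0)) = H(a,0) + H(0,a)`.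
PROOF. `⊇` is clear. `dim (L(a X_∞) + L(a X_0)) = ℓ₁ + ℓ₂ - 1` because `L(a X_∞) ∩ L(a X_0) = L(0) = K`
(`mem_L_bipole_inf`, `ell_zero`), and `dim (H(a,0) + H(0,a)) = ℓ₁ + ℓ₂ - dim (H(a,0) ∩ H(0,a)) = ℓ₁ + ℓ₂ - 1` by `h.cart` and
`IsNodal.inf_eq` (the intersection contains `1`). Conclude with `IsCartesian.redSub_eq`. -/
theorem IsNodal.redSub_sup {T : MultiRed K F k Fb} {x : F} {N : NodeData k Fb E} {a₀ : ℕ}
    (h : IsNodal T x N a₀) {a : ℕ} (ha : a₀ ≤ a) :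
    T.redSub (riemannRochSpace (bipole K x a 0) ⊔ riemannRochSpace (bipole K x 0 a)) =
      gluedSub N (T.red x) h.adapted 1 a 0 ⊔ gluedSub N (T.red x) h.adapted 1 0 a := by
  haveI : Nonempty ι := MultiRed.IsCartesian.nonempty h.cart
  have e₁ : T.redSub (riemannRochSpace (bipole K x a 0)) = gluedSub N (T.red x) h.adapted 1 a 0 :=
    h.toIsPreNodal.redSub_eq (by omega)
  have e₂ : T.redSub (riemannRochSpace (bipole K x 0 a)) = gluedSub N (T.red x) h.adapted 1 0 a :=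
    h.toIsPreNodal.redSub_eq (by omega)
  haveI f₁ : Module.Finite k (gluedSub N (T.red x) h.adapted 1 a 0) := by
    rw [← e₁]
    exact T.finite_redSub _
  haveI f₂ : Module.Finite k (gluedSub N (T.red x) h.adapted 1 0 a) := by
    rw [← e₂]
    exact T.finite_redSub _
  have d₁ : Module.finrank k (gluedSub N (T.red x) h.adapted 1 a 0) =
      Module.finrank K (riemannRochSpace (bipole K x a 0)) := by
    rw [← e₁]
    exact h.cart _ inferInstance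
  have d₂ : Module.finrank k (gluedSub N (T.red x) h.adapted 1 0 a) =
      Module.finrank K (riemannRochSpace (bipole K x 0 a)) := by
    rw [← e₂]
    exact h.cart _ inferInstance
  have o₁ : (1 : ∀ i, Fb i) ∈ gluedSub N (T.red x) h.adapted 1 a 0 := by
    rw [← e₁]
    exact ⟨1, one_mem_L (bipole_nonneg x a 0), T.O.one_mem, T.red_one⟩
  have o₂ : (1 : ∀ i, Fb i) ∈ gluedSub N (T.red x) h.adapted 1 0 a := by
    rw [← e₂]
    exact ⟨1, one_mem_L (bipole_nonneg x 0 a), T.O.one_mem, T.red_one⟩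
  apply MultiRed.IsCartesian.redSub_eq h.cart
  · apply sup_le
    · rw [← e₁]
      exact T.redSub_mono le_sup_left
    · rw [← e₂]
      exact T.redSub_mono le_sup_right
  · have s₁ := Submodule.finrank_sup_add_finrank_inf_eq (riemannRochSpace (bipole K x a 0))
      (riemannRochSpace (bipole K x 0 a))
    have s₂ := Submodule.finrank_sup_add_finrank_inf_eq (gluedSub N (T.red x) h.adapted 1 a 0)
      (gluedSub N (T.red x) h.adapted 1 0 a)
    have i₁ : 1 ≤ Module.finrank K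
        (riemannRochSpace (bipole K x a 0) ⊓ riemannRochSpace (bipole K x 0 a) :
          Submodule K F) := by
      rw [Submodule.one_le_finrank_iff]
      intro hbot
      have h1 : (1 : F) ∈ (riemannRochSpace (bipole K x a 0) ⊓ riemannRochSpace (bipole K x 0 a) :
          Submodule K F) :=
        ⟨one_mem_L (bipole_nonneg x a 0), one_mem_L (bipole_nonneg x 0 a)⟩
      rw [hbot, Submodule.mem_bot] at h1
      exact one_ne_zero h1
    have i₂ : Module.finrank k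
        (gluedSub N (T.red x) h.adapted 1 a 0 ⊓ gluedSub N (T.red x) h.adapted 1 0 a :
          Submodule k (∀ i, Fb i)) ≤ 1 := by
      apply finrank_le_one (⟨1, o₁, o₂⟩ :
        (gluedSub N (T.red x) h.adapted 1 a 0 ⊓ gluedSub N (T.red x) h.adapted 1 0 a :
          Submodule k (∀ i, Fb i)))
      rintro ⟨w, hw₁, hw₂⟩
      obtain ⟨c, hc⟩ := h.inf_eq a a hw₁ hw₂
      exact ⟨c, Subtype.ext hc.symm⟩
    omega

/-- **Lifting lemma.**  If the reductions of the twisted spaces are the untwisted glued spaces then `L(D) ≠ 0`.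
PROOF. Fix `a ≥ a₀, a₁`, `a ≥ 1`. `L₁ = L(a X_∞ + D)`, `L₂ = L(a X_0 + D)`, `M₁ = G(a,0)`, `M₂ = G(0,a)` their reductions. Suppose `L(D) = 0`;
then `L₁ ∩ L₂ = 0` (`mem_L_bipole_inf`), `W := L₁ ⊔ L₂` has dimension `dim M₁ + dim M₂ = dim (M₁ ⊔ M₂) + 1` (`IsNodal.inf_eq`; `1 ∈ M₁ ∩ M₂`).
`IsCartesian.exists_not_mem`: there is `ξ₀ ∈ W ∩ O` with `red ξ₀ ∉ M₁ ⊔ M₂`. Write `ξ₀ = z₁ - z₂`, `zᵢ ∈ Lᵢ`; they are not both integral.
`IsCartesian.exists_scale_pair`: `c` small, `yᵢ = c zᵢ` integral, one of them with nonzero reduction; `y₁ - y₂ = c ξ₀` has reduction `0`, so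
`red y₁ = red y₂ ∈ M₁ ∩ M₂ = k · 1`, nonzero; dividing by a lift of the constant, `red yᵢ = 1`.
Now `zᵢ' := yᵢ ^ m f` lies in `L(m a X_∞)`, resp. `L(m a X_0)`, is integral, and
`z₁' - z₂' = c ξ'`, `ξ' = ξ₀ f ∑_{i + l = m - 1} y₁ ^ i y₂ ^ l` (`Commute.mul_geom_sum₂` / `geom_sum₂`), `ξ'` integral with reduction `m red ξ₀`.
`ξ' = c⁻¹ (z₁' - z₂') ∈ L(m a X_∞) ⊔ L(m a X_0)`, so by `IsNodal.redSub_sup`, `m red ξ₀ ∈ G(m a, 0) ⊔ G(0, m a)`; also
`red ξ₀ ∈ redSub L(a X_∞ + a X_0 + D) = G(a,a)`; by `gluedSub_sup_inf`, `m red ξ₀ ∈ G(a,0) ⊔ G(0,a) = M₁ ⊔ M₂`; `m` is invertible: contradiction. -/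
theorem exists_mem_L_of_glued_one {T : MultiRed K F k Fb} {x : F} {N : NodeData k Fb E} {a₀ : ℕ}
    (h : IsNodal T x N a₀) {m : ℕ} (hm : (m : k) ≠ 0) {f : F} {D : Divisor K F}
    (hD : divOf (K := K) f = m • D) (hf : T.red f = 1) (a₁ : ℕ)
    (hM : ∀ a b : ℕ, a₁ ≤ a + b →
      T.redSub (riemannRochSpace (bipole K x a b + D)) = gluedSub N (T.red x) h.adapted 1 a b) :
    ∃ y : F, y ≠ 0 ∧ y ∈ riemannRochSpace D := by
  classical
  by_contra hcon
  push Not at hcon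
  have hne : Nonempty ι := h.cart.nonempty
  obtain ⟨i₀⟩ := id hne
  have hm0 : 0 < m := Nat.pos_of_ne_zero (by rintro rfl; exact hm (by simp))
  have hf0 : f ≠ 0 := by
    rintro rfl
    rw [T.red_zero] at hf
    exact zero_ne_one (congrFun hf i₀)
  obtain ⟨a, ha0, ha1, ha⟩ : ∃ a : ℕ, a₀ ≤ a ∧ a₁ ≤ a ∧ 1 ≤ a :=
    ⟨max (max a₀ a₁) 1, by omega, by omega, by omega⟩
  have hama : a ≤ m * a := Nat.le_mul_of_pos_left a hm0
  set L₁ := riemannRochSpace (bipole K x a 0 + D) with hL₁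
  set L₂ := riemannRochSpace (bipole K x 0 a + D) with hL₂
  have hM₁ : T.redSub L₁ = gluedSub N (T.red x) h.adapted 1 a 0 := hM a 0 (by omega)
  have hM₂ : T.redSub L₂ = gluedSub N (T.red x) h.adapted 1 0 a := hM 0 a (by omega)
  set M₁ := gluedSub N (T.red x) h.adapted 1 a 0 with hM₁def
  set M₂ := gluedSub N (T.red x) h.adapted 1 0 a with hM₂def
  -- `L₁ ⊓ L₂ = ⊥`
  have hdisj : L₁ ⊓ L₂ = ⊥ := by
    rw [eq_bot_iff]
    rintro u ⟨hu1, hu2⟩
    have h3 := mem_L_bipole_inf x D hu1 hu2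
    have h4 : bipole K x (min a 0) (min 0 a) = 0 := by
      simp [bipole]
    rw [h4, zero_add] at h3
    by_contra hu0
    exact hcon u hu0 h3
  have hdimW : Module.finrank K ↥(L₁ ⊔ L₂) = Module.finrank K L₁ + Module.finrank K L₂ := by
    have h3 := Submodule.finrank_sup_add_finrank_inf_eq L₁ L₂
    rw [hdisj, finrank_bot] at h3
    omega
  have hc1 : Module.finrank k M₁ = Module.finrank K L₁ := by
    rw [← hM₁]; exact h.cart L₁ inferInstance
  have hc2 : Module.finrank k M₂ = Module.finrank K L₂ := by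
    rw [← hM₂]; exact h.cart L₂ inferInstance
  have hfin1 : Module.Finite k M₁ := by
    rw [← hM₁]; exact T.finite_redSub L₁
  have hfin2 : Module.Finite k M₂ := by
    rw [← hM₂]; exact T.finite_redSub L₂
  -- `1 ∈ M₁ ⊓ M₂`
  have hone00 : (1 : ∀ i, Fb i) ∈ gluedSub N (T.red x) h.adapted 1 0 0 := by
    rw [mem_gluedSub_zero_iff]
    exact ⟨fun _ => 1, fun i => by simp, fun e => by simp⟩
  have hone1 : (1 : ∀ i, Fb i) ∈ M₁ :=
    gluedSub_mono N (T.red x) h.adapted 1 (Nat.zero_le a) le_rfl hone00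
  have hone2 : (1 : ∀ i, Fb i) ∈ M₂ :=
    gluedSub_mono N (T.red x) h.adapted 1 le_rfl (Nat.zero_le a) hone00
  have hone_ne : (1 : ∀ i, Fb i) ≠ 0 := fun h0 => one_ne_zero (congrFun h0 i₀)
  have hinf : Module.finrank k ↥(M₁ ⊓ M₂) = 1 := by
    have h3 : M₁ ⊓ M₂ = Submodule.span k {(1 : ∀ i, Fb i)} := by
      apply le_antisymm
      · rintro z ⟨hz1, hz2⟩
        obtain ⟨t, rfl⟩ := h.inf_eq a a hz1 hz2
        exact Submodule.smul_mem _ _ (Submodule.mem_span_singleton_self _)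
      · rw [Submodule.span_singleton_le_iff_mem]
        exact ⟨hone1, hone2⟩
    rw [h3, finrank_span_singleton hone_ne]
  have hU : M₁ ⊔ M₂ ≤ T.redSub (L₁ ⊔ L₂) := by
    refine sup_le ?_ ?_
    · rw [← hM₁]; exact T.redSub_mono le_sup_left
    · rw [← hM₂]; exact T.redSub_mono le_sup_right
  have hlt : Module.finrank k ↥(M₁ ⊔ M₂) < Module.finrank K ↥(L₁ ⊔ L₂) := by
    have h3 := Submodule.finrank_sup_add_finrank_inf_eq M₁ M₂
    omega
  obtain ⟨ξ₀, hξW, hξO, hξU⟩ := h.cart.exists_not_mem (L₁ ⊔ L₂) _ hU hlt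
  obtain ⟨z₁, hz₁, w, hw, hξ⟩ := Submodule.mem_sup.1 hξW
  obtain ⟨z₂, hz₂, hξ'⟩ : ∃ z₂ ∈ L₂, ξ₀ = z₁ - z₂ :=
    ⟨-w, L₂.neg_mem hw, by rw [sub_neg_eq_add, hξ]⟩
  have hnot : ¬ (z₁ ∈ T.O ∧ z₂ ∈ T.O) := by
    rintro ⟨h1, h2⟩
    apply hξU
    rw [hξ', T.red_sub h1 h2]
    refine Submodule.sub_mem _ (Submodule.mem_sup_left ?_) (Submodule.mem_sup_right ?_)
    · rw [← hM₁]; exact ⟨z₁, hz₁, h1, rfl⟩
    · rw [← hM₂]; exact ⟨z₂, hz₂, h2, rfl⟩
  obtain ⟨c, hc0, hcA, hcinv, hy₁O, hy₂O, hnz⟩ := h.cart.exists_scale_pair hnot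
  have heq : T.red (c • z₁) = T.red (c • z₂) := by
    rw [← sub_eq_zero, ← T.red_sub hy₁O hy₂O, ← smul_sub, ← hξ']
    exact T.red_smul_of_small hcA hcinv hξO
  have hmem1 : T.red (c • z₁) ∈ M₁ := by
    rw [← hM₁]; exact ⟨c • z₁, L₁.smul_mem c hz₁, hy₁O, rfl⟩
  have hmem2 : T.red (c • z₁) ∈ M₂ := by
    rw [heq, ← hM₂]; exact ⟨c • z₂, L₂.smul_mem c hz₂, hy₂O, rfl⟩
  obtain ⟨t, ht⟩ := h.inf_eq a a hmem1 hmem2
  have ht0 : t ≠ 0 := by
    rintro rfl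
    rw [zero_smul] at ht
    rcases hnz with h3 | h3
    · exact h3 ht
    · exact h3 (heq ▸ ht)
  obtain ⟨s, hsA, hs⟩ := T.redA_surj t⁻¹
  have hs0 : s ≠ 0 := by
    have h3 : T.redA s ≠ 0 := by rw [hs]; exact inv_ne_zero ht0
    exact (T.redA_ne_zero_iff.1 h3).1
  set y₁ := s • c • z₁ with hy₁
  set y₂ := s • c • z₂ with hy₂
  have hy₁O' : y₁ ∈ T.O := T.smul_mem hsA hy₁O
  have hy₂O' : y₂ ∈ T.O := T.smul_mem hsA hy₂O
  have hry₁ : T.red y₁ = 1 := by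
    rw [hy₁, T.red_smul hsA hy₁O, hs, ht, smul_smul, inv_mul_cancel₀ ht0, one_smul]
  have hry₂ : T.red y₂ = 1 := by
    rw [hy₂, T.red_smul hsA hy₂O, hs, ← heq, ht, smul_smul, inv_mul_cancel₀ ht0, one_smul]
  have hy₁L : y₁ ∈ L₁ := L₁.smul_mem s (L₁.smul_mem c hz₁)
  have hy₂L : y₂ ∈ L₂ := L₂.smul_mem s (L₂.smul_mem c hz₂)
  have hsub : y₁ - y₂ = (s * c) • ξ₀ := by
    rw [hy₁, hy₂, hξ', smul_sub, mul_smul, mul_smul]
  have hsc0 : s * c ≠ 0 := mul_ne_zero hs0 hc0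
  -- the `m`-th powers
  have hz₁' : y₁ ^ m * f ∈ riemannRochSpace (bipole K x (m * a) 0) := by
    have h3 := (mem_L_add_iff_pow_mul_mem hm0 hf0 hD (bipole K x a 0) y₁).1 hy₁L
    rwa [← bipole_smul, mul_zero] at h3
  have hz₂' : y₂ ^ m * f ∈ riemannRochSpace (bipole K x 0 (m * a)) := by
    have h3 := (mem_L_add_iff_pow_mul_mem hm0 hf0 hD (bipole K x 0 a) y₂).1 hy₂L
    rwa [← bipole_smul, mul_zero] at h3
  set S := ∑ i ∈ Finset.range m, y₁ ^ i * y₂ ^ (m - 1 - i) with hS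
  have hSO : S ∈ T.O :=
    Subring.sum_mem _ fun i _ => T.O.mul_mem (T.O.pow_mem hy₁O' _) (T.O.pow_mem hy₂O' _)
  have hfO : f ∈ T.O := T.mem_of_red_ne_zero fun i => by
    rw [hf]; exact one_ne_zero
  have hrS : T.red S = (m : k) • (1 : ∀ i, Fb i) := by
    rw [hS, T.red_sum _ _ fun i _ => T.O.mul_mem (T.O.pow_mem hy₁O' _) (T.O.pow_mem hy₂O' _)]
    have h3 : ∀ i ∈ Finset.range m, T.red (y₁ ^ i * y₂ ^ (m - 1 - i)) = 1 := by
      intro i _
      rw [T.red_mul (T.O.pow_mem hy₁O' _) (T.O.pow_mem hy₂O' _), T.red_pow, T.red_pow, hry₁, hry₂,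
        one_pow, one_pow, one_mul]
    rw [Finset.sum_congr rfl h3, Finset.sum_const, Finset.card_range, Nat.cast_smul_eq_nsmul]
  set ξ' := ξ₀ * f * S with hξ'def
  have hξ'O : ξ' ∈ T.O := T.O.mul_mem (T.O.mul_mem hξO hfO) hSO
  have hrξ' : T.red ξ' = (m : k) • T.red ξ₀ := by
    rw [hξ'def, T.red_mul (T.O.mul_mem hξO hfO) hSO, T.red_mul hξO hfO, hf, mul_one, hrS,
      mul_smul_comm, mul_one]
  have hcξ' : (s * c) • ξ' = y₁ ^ m * f - y₂ ^ m * f := by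
    have h3 : S * (y₁ - y₂) = y₁ ^ m - y₂ ^ m := geom_sum₂_mul y₁ y₂ m
    rw [← sub_mul, ← h3, hsub, hξ'def, Algebra.smul_def, Algebra.smul_def]
    ring
  have hξ'W : ξ' ∈ riemannRochSpace (bipole K x (m * a) 0) ⊔
      riemannRochSpace (bipole K x 0 (m * a)) := by
    have h3 : ξ' = (s * c)⁻¹ • (y₁ ^ m * f) + (-(s * c)⁻¹) • (y₂ ^ m * f) := by
      rw [neg_smul, ← sub_eq_add_neg, ← smul_sub, ← hcξ', smul_smul, inv_mul_cancel₀ hsc0,
        one_smul]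
    rw [h3]
    exact Submodule.add_mem _ (Submodule.mem_sup_left (Submodule.smul_mem _ _ hz₁'))
      (Submodule.mem_sup_right (Submodule.smul_mem _ _ hz₂'))
  have h5 : (m : k) • T.red ξ₀ ∈ gluedSub N (T.red x) h.adapted 1 (m * a) 0 ⊔
      gluedSub N (T.red x) h.adapted 1 0 (m * a) := by
    rw [← h.redSub_sup (le_trans ha0 hama), ← hrξ']
    exact ⟨ξ', hξ'W, hξ'O, rfl⟩
  have h6 : T.red ξ₀ ∈ gluedSub N (T.red x) h.adapted 1 a a := by
    rw [← hM a a (by omega)]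
    refine ⟨ξ₀, ?_, hξO, rfl⟩
    have h7 : L₁ ⊔ L₂ ≤ riemannRochSpace (bipole K x a a + D) := by
      refine sup_le ?_ ?_
      · exact Lib.RR.L_mono (add_le_add_left (bipole_mono x le_rfl (Nat.zero_le a)) D)
      · exact Lib.RR.L_mono (add_le_add_left (bipole_mono x (Nat.zero_le a) le_rfl) D)
    exact h7 hξW
  have h8 : (m : k) • T.red ξ₀ ∈ M₁ ⊔ M₂ := by
    rw [hM₁def, hM₂def, ← gluedSub_sup_inf N (T.red x) h.adapted 1 hama hama]
    exact ⟨h5, Submodule.smul_mem _ _ h6⟩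
  apply hξU
  have h9 := Submodule.smul_mem (M₁ ⊔ M₂) (m : k)⁻¹ h8
  rwa [smul_smul, inv_mul_cancel₀ hm, one_smul] at h9

/-- consequence: `f` is an `m`-th power (`eq_neg_divOf_of_degree_zero`; `div (f y ^ m) = 0`, so `f y ^ m` is a constant
(`mem_range_of_ord_nonneg`), which is an `m`-th power since `K` is algebraically closed). -/
theorem isPow_of_glued_one {T : MultiRed K F k Fb} {x : F} {N : NodeData k Fb E} {a₀ : ℕ}
    (h : IsNodal T x N a₀) {m : ℕ} (hm : (m : k) ≠ 0) {f : F} {D : Divisor K F}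
    (hD : divOf (K := K) f = m • D) (hf : T.red f = 1) (a₁ : ℕ)
    (hM : ∀ a b : ℕ, a₁ ≤ a + b →
      T.redSub (riemannRochSpace (bipole K x a b + D)) = gluedSub N (T.red x) h.adapted 1 a b) :
    ∃ w : F, f = w ^ m := by
  obtain ⟨y, hy0, hyD⟩ := exists_mem_L_of_glued_one h hm hD hf a₁ hM
  have hm0 : m ≠ 0 := by
    rintro rfl
    simp at hm
  obtain ⟨i₀⟩ := MultiRed.IsCartesian.nonempty h.cart
  have hf0 : f ≠ 0 := by
    rintro rfl
    rw [T.red_zero] at hf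
    have h01 := congrFun hf i₀
    simp at h01
  have hdeg : Divisor.degree D = 0 := by
    have h1 := congrArg Divisor.degree hD
    rw [degree_divOf, map_nsmul] at h1
    simpa [hm0] using h1.symm
  have hDy := eq_neg_divOf_of_degree_zero hdeg hy0 hyD
  have hconst : f * y ^ m ∈ Set.range (algebraMap K F) := by
    apply mem_range_of_ord_nonneg
    intro P
    have h0 : divOf (K := K) (f * y ^ m) = 0 := by
      rw [divOf_mul hf0 (pow_ne_zero _ hy0), divOf_pow, hD, hDy]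
      simp
    have h1 := DFunLike.congr_fun h0 P
    rw [divOf_apply] at h1
    rw [h1]
    simp
  obtain ⟨c, hc⟩ := hconst
  obtain ⟨d, hd⟩ := IsAlgClosed.exists_pow_nat_eq c (Nat.pos_of_ne_zero hm0)
  refine ⟨algebraMap K F d / y, ?_⟩
  rw [div_pow, ← map_pow, hd, hc]
  field_simp

end Fermat.Agent.DR.Abs
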