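import Fermat.Agent.DR.Abs.Defs
import Fermat.Agent.Lib.PlaceEval

/-!
# DR/Abs, part (C): pole bounds for the reductions, without integrality theory

* `sum_degree_poleDiv_red_le` : the fundamental inequality `∑_i deg (red_i y)_∞ ≤ deg (y)_∞`.
* `exists_generic_poleDiv` : `(u + c v)_∞ = max ((u)_∞, (v)_∞)` for all but finitely many `c`.
* `red_mem_L_of_mem_L` : if `deg (x)_∞ = ∑_i deg (red_i x)_∞` then
  `y ∈ L(a (x)_∞) ∩ O ⟹ red_i y ∈ L(a (red_i x)_∞)`.
-/

set_option autoImplicit false

namespace Fermat.Agent.DR.Abs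

open AlgebraicCurve Fermat.Agent.Lib.RR Fermat.Agent.GAL.RED Fermat.Agent.Lib.PlaceEval

section generic

variable {k Fb : Type*} [Field k] [Field Fb] [Algebra k Fb] [IsFF k Fb] [IsAlgClosed k]

/-- **(C2)**  Bad set: `0` and the values `- (u / v)(P)` at the finitely many places `P` which are poles of
`u` or `v` (`(divOf u).support ∪ (divOf v).support`).  For `c` not bad and `P` a place:
* `ord_P u ≠ ord_P v` (both nonzero functions): `ord_P (u + c v) = min` (`RED.ord_add_eq_of_lt`);
* `ord_P u = ord_P v < 0`: `u + c v = v (u / v + c)`, `u / v` is a unit at `P` and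
  `(u / v + c)(P) ≠ 0` (`PlaceEval.ev_add`, `ev_eq_zero_iff`), so `ord_P (u + c v) = ord_P v`;
* both regular at `P`: `u + c v` is regular at `P`.
Treat `u = 0`, `v = 0` separately (`P.ord 0 = 0`). -/
theorem exists_generic_poleDiv (u v : Fb) : ∃ B : Finset k, ∀ c : k, c ∉ B → ∀ P : Place k Fb,
    poleDiv (K := k) (u + c • v) P = max (poleDiv (K := k) u P) (poleDiv (K := k) v P) := by
  classical
  rcases eq_or_ne v 0 with rfl | hv
  · refine ⟨∅, fun c _ P => ?_⟩
    simp only [smul_zero, add_zero, poleDiv_apply, Place.ord_zero, neg_zero, max_self]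
    rw [max_eq_left (le_max_right _ _)]
  have hsm : ∀ c : k, c ≠ 0 → c • v ≠ 0 ∧ ∀ P : Place k Fb, P.ord (c • v) = P.ord v := by
    intro c hc
    have hc' : algebraMap k Fb c ≠ 0 := by
      rw [Ne, map_eq_zero]
      exact hc
    refine ⟨smul_ne_zero hc hv, fun P => ?_⟩
    rw [Algebra.smul_def, P.ord_mul hc' hv, ord_algebraMap, zero_add]
  rcases eq_or_ne u 0 with rfl | hu
  · refine ⟨{0}, fun c hc P => ?_⟩
    have hc0 : c ≠ 0 := fun h => hc (by simp [h])
    simp only [zero_add, poleDiv_apply, Place.ord_zero, neg_zero, max_self, (hsm c hc0).2 P]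
    rw [max_eq_right (le_max_right _ _)]
  refine ⟨insert 0 (((divOf (K := k) u).support ∪ (divOf (K := k) v).support).image
    (fun P => - Fermat.Agent.Lib.PlaceEval.ev P (u / v))), fun c hc P => ?_⟩
  rw [Finset.mem_insert, not_or] at hc
  obtain ⟨hc0, hcB⟩ := hc
  obtain ⟨hw0, hword⟩ := hsm c hc0
  have hw := hword P
  simp only [poleDiv_apply]
  rcases lt_trichotomy (P.ord u) (P.ord v) with hlt | heq | hgt
  · rw [ord_add_eq_of_lt P hu hw0 (by rw [hw]; exact hlt)]
    omega
  · by_cases hneg : P.ord u < 0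
    · have hPS : P ∈ (divOf (K := k) u).support ∪ (divOf (K := k) v).support := by
        rw [Finset.mem_union, Finsupp.mem_support_iff, divOf_apply]
        left
        omega
      have hcP : c ≠ - Fermat.Agent.Lib.PlaceEval.ev P (u / v) := fun h => hcB (Finset.mem_image.2 ⟨P, hPS, h.symm⟩)
      have hq : P.ord (u / v) = 0 := by rw [ord_div P hu hv, heq, sub_self]
      have hca : P.ord (algebraMap k Fb c) = 0 := ord_algebraMap P c
      have hreg : 0 ≤ P.ord (u / v + algebraMap k Fb c) :=
        (mem_iff P).1 (add_mem ((mem_iff P).2 hq.ge) ((mem_iff P).2 hca.ge))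
      have hev : Fermat.Agent.Lib.PlaceEval.ev P (u / v + algebraMap k Fb c) ≠ 0 := by
        rw [ev_add P hq.ge hca.ge, ev_algebraMap]
        intro h
        exact hcP (eq_neg_of_add_eq_zero_right h)
      rw [Ne, ev_eq_zero_iff P hreg, not_or] at hev
      have hfac : u + c • v = v * (u / v + algebraMap k Fb c) := by
        rw [Algebra.smul_def]
        field_simp
      rw [hfac, P.ord_mul hv hev.1]
      omega
    · have h1 : 0 ≤ P.ord (u + c • v) :=
        (mem_iff P).1 (add_mem ((mem_iff P).2 (by omega)) ((mem_iff P).2 (by omega)))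
      omega
  · rw [add_comm, ord_add_eq_of_lt P hw0 hu (by rw [hw]; exact hgt), hw]
    omega

end generic

section aux

variable {k Fb : Type*} [Field k] [Field Fb] [Algebra k Fb] [IsFF k Fb]

theorem poleBound_poleDiv_pow (z : Fb) (a : ℕ) :
    poleDiv (K := k) (z ^ a) = a • poleDiv (K := k) z := by
  ext P
  rw [poleDiv_apply, Finsupp.smul_apply, poleDiv_apply, ord_pow, nsmul_eq_mul]
  rcases le_total (-(P.ord z)) 0 with h | h
  · rw [max_eq_right h, max_eq_right (by nlinarith [Nat.cast_nonneg (α := ℤ) a])]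
    simp
  · rw [max_eq_left h, max_eq_left (by nlinarith [Nat.cast_nonneg (α := ℤ) a])]
    ring

theorem poleBound_mem_L_iff (z : Fb) (D : Divisor k Fb) (hD : 0 ≤ D) :
    z ∈ riemannRochSpace D ↔ poleDiv (K := k) z ≤ D := by
  rw [mem_riemannRochSpace_iff]
  constructor
  · intro h P
    rw [poleDiv_apply]
    rcases h P with h0 | h0
    · rw [h0, Place.ord_zero]
      simpa using hD P
    · exact max_le (by linarith) (hD P)
  · intro h P
    right
    have := h P
    rw [poleDiv_apply] at this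
    have h1 := le_trans (le_max_left _ _) this
    linarith

theorem poleBound_poleDiv_nonneg (z : Fb) : 0 ≤ poleDiv (K := k) z := by
  intro P
  rw [poleDiv_apply]
  exact le_max_right _ _

end aux

variable {K F k : Type*} [Field K] [Field F] [Algebra K F] [Field k] {ι : Type*} [Fintype ι]
  {Fb : ι → Type*} [∀ i, Field (Fb i)] [∀ i, Algebra k (Fb i)]
omit [Fintype ι] in
/-- transport of a polynomial over `(R i₀).A` to `(R i).A`. -/
theorem MultiRed.poleBound_transport (T : MultiRed K F k Fb) (i₀ i : ι)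
    (q : Polynomial (T.R i₀).A) :
    ∃ q' : Polynomial (T.R i).A, q'.map (T.R i).A.subtype = q.map (T.R i₀).A.subtype ∧
      q'.map (T.R i).resA = q.map (T.R i₀).resA := by
  have h1 : ∃ q' : Polynomial (T.R i).A, q'.map (T.R i).A.subtype = q.map (T.R i₀).A.subtype := by
    rw [← Polynomial.mem_lifts, Polynomial.lifts_iff_coeff_lifts]
    intro j
    rw [Polynomial.coeff_map]
    have h2 : ((q.coeff j : (T.R i₀).A) : K) ∈ (T.R i).A := by
      rw [T.A_eq i, ← T.A_eq i₀]
      exact (q.coeff j).2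
    exact ⟨⟨_, h2⟩, rfl⟩
  obtain ⟨q', hq'⟩ := h1
  refine ⟨q', hq', ?_⟩
  ext j
  rw [Polynomial.coeff_map, Polynomial.coeff_map]
  have h3 : ((q'.coeff j : (T.R i).A) : K) = ((q.coeff j : (T.R i₀).A) : K) := by
    have := congrArg (fun r => Polynomial.coeff r j) hq'
    simp only [Polynomial.coeff_map] at this
    exact this
  have h4 : (T.R i).resA (q'.coeff j) = (T.R i).redA ((q'.coeff j : (T.R i).A) : K) := by
    rw [(T.R i).redA_of_mem (q'.coeff j).2]
  have h5 : (T.R i₀).resA (q.coeff j) = (T.R i₀).redA ((q.coeff j : (T.R i₀).A) : K) := by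
    rw [(T.R i₀).redA_of_mem (q.coeff j).2]
  rw [h4, h5, h3, T.redA_eq, T.redA_eq]

variable [IsFF K F] [IsAlgClosed K] [∀ i, IsFF k (Fb i)] [IsAlgClosed k]

/-- **(C1) Fundamental inequality.**  Copy-adapt `RED.degree_poleDiv_red_le` (`GAL/RED/BDiv.lean`) and
`RedData.polyIndep_of_red` (`GAL/RED/Lift.lean`).  For every `i` let `zb i : Fin (n i) → Fb i` be
`PolyIndep k (red_i y)` with `n i = deg (red_i y)_∞` (`RED.exists_polyIndep`).  By `hsep` (all scalings
`= 1`) lift `zb i j` to `Z i j ∈ T.O` with `red_i (Z i j) = zb i j` and `red_{i'} (Z i j) = 0` for `i' ≠ i`.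
The family `Z` (reindexed by `Fin (∑ n i)`, `finSigmaFinEquiv`) is `PolyIndep K y`: a nontrivial relation
can be scaled to have coefficients in `A`, not all in the maximal ideal (`RedData.exists_scale_poly`
for `R i₀`; all `R i` have the same `A` and the same `redA`: `T.A_eq`, `T.redA_eq`); reducing it with `R i`
gives a relation between the `zb i j`, so all reduced coefficients vanish: contradiction.
Conclude by `RED.card_le_degree_poleDiv`. -/
theorem MultiRed.sum_degree_poleDiv_red_le (T : MultiRed K F k Fb) (hsep : T.Sep) (y : F)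
    (hy : ∀ i, (T.R i).red y ∉ Set.range (algebraMap k (Fb i))) :
    ∑ i, Divisor.degree (poleDiv (K := k) ((T.R i).red y))
      ≤ Divisor.degree (poleDiv (K := K) y) := by
  classical
  choose n zb hn hzb using fun i => exists_polyIndep (K := k) ((T.R i).red y) (hy i)
  have hyO : ∀ i, y ∈ (T.R i).O := fun i =>
    (T.R i).mem_of_red_ne_zero (fun h => hy i ⟨0, by rw [h, map_zero]⟩)
  -- the lifts
  have hlift : ∀ s : (Σ i, Fin (n i)), ∃ Z : F, ∀ i', Z ∈ (T.R i').O ∧
      (T.R i').red Z = (Pi.single s.1 (zb s.1 s.2) : ∀ i, Fb i) i' := by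
    intro s
    obtain ⟨h, hh⟩ := hsep (Pi.single s.1 (zb s.1 s.2)) (fun _ => 1) (fun _ => one_ne_zero)
    refine ⟨h, fun i' => ?_⟩
    have := hh i'
    rwa [one_smul] at this
  choose Z hZ using hlift
  let e := Fintype.equivFin (Σ i, Fin (n i))
  have hcard : (Fintype.card (Σ i, Fin (n i)) : ℤ)
      = ∑ i, Divisor.degree (poleDiv (K := k) ((T.R i).red y)) := by
    rw [Fintype.card_sigma]
    push_cast
    exact Finset.sum_congr rfl fun i _ => by rw [Fintype.card_fin, hn]
  rw [← hcard]
  apply card_le_degree_poleDiv y (fun m => Z (e.symm m))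
  intro p hp
  by_contra hcon
  obtain ⟨m₀, -⟩ : ∃ m₀, p m₀ ≠ 0 := by
    by_contra h
    push Not at h
    exact hcon (funext h)
  let i₀ : ι := (e.symm m₀).1
  obtain ⟨a, q, -, hq, hne⟩ := (T.R i₀).exists_scale_poly p hcon
  apply hne
  have h1 : ∑ m, Polynomial.aeval y ((q m).map (T.R i₀).A.subtype) * Z (e.symm m) = 0 := by
    simp_rw [hq, map_mul, Polynomial.aeval_C, mul_assoc]
    rw [← Finset.mul_sum, hp, mul_zero]
  have key : ∀ i, (fun j : Fin (n i) => (q (e ⟨i, j⟩)).map (T.R i₀).resA) = 0 := by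
    intro i
    apply hzb i
    choose q' hq'1 hq'2 using fun m => T.poleBound_transport i₀ i (q m)
    have h2 : ∑ m, Polynomial.aeval y ((q' m).map (T.R i).A.subtype) * Z (e.symm m) = 0 := by
      simp_rw [hq'1]; exact h1
    have h3 := (T.R i).red_sum Finset.univ
      (fun m => Polynomial.aeval y ((q' m).map (T.R i).A.subtype) * Z (e.symm m))
      (fun m _ => (T.R i).O.mul_mem _ _ ((T.R i).aeval_map_mem (q' m) (hyO i)) (hZ _ i).1)
    rw [h2, RedData.red_zero] at h3
    let W : (Σ i, Fin (n i)) → Fb i := fun s => (Pi.single s.1 (zb s.1 s.2) : ∀ i, Fb i) i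
    have h4 : ∀ m, (T.R i).red (Polynomial.aeval y ((q' m).map (T.R i).A.subtype) * Z (e.symm m))
        = Polynomial.aeval ((T.R i).red y) ((q m).map (T.R i₀).resA) * W (e.symm m) := by
      intro m
      rw [(T.R i).red_mul ((T.R i).aeval_map_mem (q' m) (hyO i)) (hZ _ i).1,
        (T.R i).red_aeval_map (q' m) (hyO i), hq'2, (hZ _ i).2]
    simp_rw [h4] at h3
    rw [← Equiv.sum_comp e, Fintype.sum_sigma, Finset.sum_eq_single i] at h3
    · rw [h3]
      refine Finset.sum_congr rfl fun j _ => ?_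
      rw [Equiv.symm_apply_apply]
      show _ = _ * (Pi.single i (zb i j) : ∀ i, Fb i) i
      rw [Pi.single_eq_same]
    · intro i' _ hne'
      refine Finset.sum_eq_zero fun j _ => ?_
      rw [Equiv.symm_apply_apply]
      show _ * (Pi.single i' (zb i' j) : ∀ i, Fb i) i = 0
      rw [Pi.single_eq_of_ne (Ne.symm hne'), mul_zero]
    · intro h; exact absurd (Finset.mem_univ _) h
  funext m
  have := congrFun (key (e.symm m).1) (e.symm m).2
  simpa using this

/-- **(C3) Pole bounds.**  `a = 0`: `y` is a constant (`RED.mem_range_of_mem_L_zero`), which lies in `A`.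
`a ≥ 1`: by `exists_generic_poleDiv` (for each `i`, `u = red_i y`, `v = (red_i x) ^ a`) and since `k` is
infinite there is `c ∈ A` with `redA c` outside all the bad sets; `y' := y + c • x ^ a ∈ L(a (x)_∞) ∩ O`, so
`deg (y')_∞ ≤ a deg (x)_∞`; `(red_i y')_∞ = max ((red_i y)_∞, a (red_i x)_∞) ≥ a (red_i x)_∞`, in particular
`red_i y'` is not constant.  By `sum_degree_poleDiv_red_le` and `hdeg` all these inequalities of divisors
are equalities (an effective divisor of degree `0` is `0`: `Lib.RR.eq_zero_of_nonneg_of_degree`), so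
`(red_i y)_∞ ≤ a (red_i x)_∞`. -/
theorem MultiRed.red_mem_L_of_mem_L (T : MultiRed K F k Fb) (hsep : T.Sep) (x : F)
    (hx : ∀ i, (T.R i).red x ∉ Set.range (algebraMap k (Fb i)))
    (hdeg : Divisor.degree (poleDiv (K := K) x)
      = ∑ i, Divisor.degree (poleDiv (K := k) ((T.R i).red x)))
    (a : ℕ) (y : F) (hy : y ∈ riemannRochSpace (a • poleDiv (K := K) x)) (hyO : y ∈ T.O) (i : ι) :
    (T.R i).red y ∈ riemannRochSpace (a • poleDiv (K := k) ((T.R i).red x)) := by
  classical
  rcases Nat.eq_zero_or_pos a with rfl | ha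
  · rw [zero_smul] at hy ⊢
    obtain ⟨c, rfl⟩ := mem_range_of_mem_L_zero hy
    rw [(T.R i).red_algebraMap', mem_riemannRochSpace_iff]
    intro v
    right
    rw [ord_algebraMap]
    simp
  -- the generic constant
  choose B hB using fun j => exists_generic_poleDiv (k := k) ((T.R j).red y) ((T.R j).red x ^ a)
  obtain ⟨cb, hcb⟩ := Infinite.exists_notMem_finset (Finset.univ.biUnion B)
  have hcb' : ∀ j, cb ∉ B j := fun j h => hcb (Finset.mem_biUnion.2 ⟨j, Finset.mem_univ j, h⟩)
  obtain ⟨c, hcA, hc⟩ := T.redA_surj cb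
  have hxO : ∀ j, x ∈ (T.R j).O := fun j =>
    (T.R j).mem_of_red_ne_zero (fun h => hx j ⟨0, by rw [h, map_zero]⟩)
  have hxaO : ∀ j, x ^ a ∈ (T.R j).O := fun j => (T.R j).O.pow_mem (hxO j) a
  have hcxO : ∀ j, c • x ^ a ∈ (T.R j).O := fun j =>
    (T.R j).smul_mem ((T.mem_A_iff j).2 hcA) (hxaO j)
  set y' : F := y + c • x ^ a with hy'
  have hred : ∀ j, (T.R j).red y' = (T.R j).red y + cb • (T.R j).red x ^ a := by
    intro j
    rw [hy', (T.R j).red_add (hyO j) (hcxO j), (T.R j).red_smul ((T.mem_A_iff j).2 hcA) (hxaO j),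
      T.redA_eq j, hc, (T.R j).red_pow]
  have hpole : ∀ j, poleDiv (K := k) ((T.R j).red y')
      = poleDiv (K := k) ((T.R j).red y) ⊔ a • poleDiv (K := k) ((T.R j).red x) := by
    intro j
    ext P
    rw [hred, hB j cb (hcb' j) P, poleBound_poleDiv_pow]
    rfl
  have hge : ∀ j, a • poleDiv (K := k) ((T.R j).red x) ≤ poleDiv (K := k) ((T.R j).red y') := by
    intro j
    rw [hpole]
    exact le_sup_right
  -- the reductions of `y'` are not constant
  have hnc : ∀ j, (T.R j).red y' ∉ Set.range (algebraMap k (Fb j)) := by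
    rintro j ⟨e, he⟩
    apply hx j
    apply mem_range_of_ord_nonneg
    intro P
    have h1 := hge j P
    rw [← he, poleDiv_apply, ord_algebraMap, Finsupp.smul_apply, poleDiv_apply, nsmul_eq_mul] at h1
    simp only [neg_zero, max_self] at h1
    have h2 : (0 : ℤ) < a := by exact_mod_cast ha
    have h3 : max (-(P.ord ((T.R j).red x))) 0 ≤ 0 := by
      by_contra h4
      push Not at h4
      nlinarith
    have h4 := le_trans (le_max_left _ _) h3
    linarith
  -- `y'` has poles bounded by `a (x)_∞`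
  have hy'L : y' ∈ riemannRochSpace (a • poleDiv (K := K) x) := by
    refine Submodule.add_mem _ hy (Submodule.smul_mem _ _ ?_)
    rw [poleBound_mem_L_iff _ _ (smul_nonneg (Nat.zero_le a) (poleBound_poleDiv_nonneg x)),
      poleBound_poleDiv_pow]
  have h1 : Divisor.degree (poleDiv (K := K) y') ≤ a * Divisor.degree (poleDiv (K := K) x) := by
    have := degree_mono ((poleBound_mem_L_iff _ _
      (smul_nonneg (Nat.zero_le a) (poleBound_poleDiv_nonneg x))).1 hy'L)
    rwa [map_nsmul, nsmul_eq_mul] at this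
  have h2 := T.sum_degree_poleDiv_red_le hsep y' hnc
  have h3 : ∀ j, Divisor.degree (a • poleDiv (K := k) ((T.R j).red x))
      ≤ Divisor.degree (poleDiv (K := k) ((T.R j).red y')) := fun j => degree_mono (hge j)
  have h4 : ∑ j, Divisor.degree (poleDiv (K := k) ((T.R j).red y'))
      ≤ ∑ j, Divisor.degree (a • poleDiv (K := k) ((T.R j).red x)) := by
    refine le_trans h2 (le_trans h1 (le_of_eq ?_))
    rw [hdeg, Finset.mul_sum]
    exact Finset.sum_congr rfl fun j _ => by rw [map_nsmul, nsmul_eq_mul]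
  have h5 : Divisor.degree (a • poleDiv (K := k) ((T.R i).red x))
      = Divisor.degree (poleDiv (K := k) ((T.R i).red y')) := by
    have := (Finset.sum_eq_sum_iff_of_le (fun j _ => h3 j)).1
      (le_antisymm (Finset.sum_le_sum fun j _ => h3 j) h4)
    exact this i (Finset.mem_univ i)
  have h6 : poleDiv (K := k) ((T.R i).red y') - a • poleDiv (K := k) ((T.R i).red x) = 0 := by
    apply eq_zero_of_nonneg_of_degree (sub_nonneg.2 (hge i))
    rw [map_sub, h5, sub_self]
  rw [poleBound_mem_L_iff _ _ (smul_nonneg (Nat.zero_le a) (poleBound_poleDiv_nonneg _)),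
    ← sub_eq_zero.1 h6, hpole]
  exact le_sup_left

end Fermat.Agent.DR.Abs
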