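import Fermat.Agent.DR.Abs.Basic
import Fermat.Agent.DR.Abs.Glued

/-!
# DR/Abs leaf A6: the structure theorem for the reductions of the twisted spaces `L(a X_∞ + b X_0 + D)`,
`m D = div f`, `red f = 1`.
-/

set_option autoImplicit false

namespace Fermat.Agent.DR.Abs

open AlgebraicCurve Fermat.Agent.Lib.RR Fermat.Agent.GAL.RED

variable {K F k : Type*} [Field K] [Field F] [Algebra K F] [Field k] {ι : Type*}
  {Fb : ι → Type*} [∀ i, Field (Fb i)] [∀ i, Algebra k (Fb i)] {E : Type*}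

/-- **Union of `m` lines.**  A subspace of `k²` contained in `{s ^ m = t ^ m}` is contained in a line `s = δ t`,
`δ ^ m = 1`.
PROOF. If `V = 0` take `δ = 1`. Otherwise `(s₀, t₀) ∈ V` nonzero, so `t₀ ≠ 0`, `δ := s₀ / t₀`. For `(s, t) ∈ V` the polynomial
`(s + X s₀) ^ m - (t + X t₀) ^ m` vanishes on the infinite field `k`, so its coefficient of `X ^ (m - 1)`,
`m (s s₀ ^ (m-1) - t t₀ ^ (m-1))`, is zero; hence `s = δ ^ (1 - m) t = δ t`. -/
theorem exists_line_of_pow_eq [IsAlgClosed k] {m : ℕ} (hm : (m : k) ≠ 0) (V : Submodule k (k × k))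
    (hV : ∀ v ∈ V, v.1 ^ m = v.2 ^ m) : ∃ δ : k, δ ^ m = 1 ∧ ∀ v ∈ V, v.1 = δ * v.2 := by
  have hm0 : 0 < m := Nat.pos_of_ne_zero (by rintro rfl; simp at hm)
  by_cases h : ∀ w ∈ V, w.2 = 0
  · refine ⟨1, one_pow _, fun w hw => ?_⟩
    have h1 := hV w hw
    rw [h w hw, zero_pow hm0.ne'] at h1
    rw [h w hw, mul_zero]
    exact (pow_eq_zero_iff hm0.ne').1 h1
  · push Not at h
    obtain ⟨w₀, hw₀, hy₀⟩ := h
    refine ⟨w₀.1 / w₀.2, by rw [div_pow, hV w₀ hw₀, div_self (pow_ne_zero _ hy₀)],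
      fun w hw => ?_⟩
    have h1 := hV _ (V.sub_mem hw (V.smul_mem (w.2 / w₀.2) hw₀))
    simp only [Prod.fst_sub, Prod.snd_sub, Prod.smul_fst, Prod.smul_snd, smul_eq_mul,
      div_mul_cancel₀ _ hy₀, sub_self, zero_pow hm0.ne'] at h1
    have h2 := sub_eq_zero.1 ((pow_eq_zero_iff hm0.ne').1 h1)
    rw [h2]
    ring

variable [IsFF K F] [IsAlgClosed K] [∀ i, IsFF k (Fb i)] [IsAlgClosed k]

theorem IsPreNodal.adapted {T : MultiRed K F k Fb} {x : F} {N : NodeData k Fb E} {a₀ : ℕ}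
    (h : IsPreNodal T x N a₀) : N.Adapted (T.red x) :=
  ⟨h.inj, h.nonconst, h.unit₁, h.unit₂⟩

theorem IsPreNodal.redSub_eq {T : MultiRed K F k Fb} {x : F} {N : NodeData k Fb E} {a₀ : ℕ}
    (h : IsPreNodal T x N a₀) {a b : ℕ} (hab : a₀ ≤ a + b) :
    T.redSub (riemannRochSpace (bipole K x a b)) = gluedSub N (T.red x) h.adapted 1 a b := by
  ext z
  exact h.mem_iff a b hab z

/-- the coordinate is glued (`x ∈ L(a X_∞)` for `a ≥ 1`). -/
theorem IsPreNodal.glued_coord {T : MultiRed K F k Fb} {x : F} {N : NodeData k Fb E} {a₀ : ℕ}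
    (h : IsPreNodal T x N a₀) : N.Glued 1 (T.red x) := by
  have hne : ∀ i, T.red x i ≠ 0 := by
    intro i h0
    exact h.nonconst i ⟨0, by rw [map_zero]; exact h0.symm⟩
  have hxO : x ∈ T.O := T.mem_of_red_ne_zero hne
  have hxL : x ∈ riemannRochSpace (bipole K x (a₀ + 1) 0) := by
    have h1 : x ^ 1 ∈ riemannRochSpace (1 • poleDiv (K := K) x) := pow_mem_L_poleDiv x 1
    rw [pow_one, ← bipole_zero_right] at h1
    exact L_mono (bipole_mono x (by omega) le_rfl) h1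
  exact ((h.mem_iff (a₀ + 1) 0 (by omega) (T.red x)).1 ⟨x, hxL, hxO, rfl⟩).2

/-- step (1) of the structure theorem. -/
theorem Structure_step1 {T : MultiRed K F k Fb} {x : F} {N : NodeData k Fb E} {a₀ : ℕ}
    (h : IsPreNodal T x N a₀) {m : ℕ} (hm : 0 < m) {f : F} {D : Divisor K F}
    (hD : divOf (K := K) f = m • D) (hf : T.red f = 1) {a b : ℕ} (hab : a₀ ≤ a + b)
    {z : ∀ i, Fb i} (hz : z ∈ T.redSub (riemannRochSpace (bipole K x a b + D))) :
    BoundedBy k (T.red x) a b z ∧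
      ∀ e, ev (N.p₁ e) (z (N.i₁ e)) ^ m = ev (N.p₂ e) (z (N.i₂ e)) ^ m := by
  obtain ⟨i₀⟩ := h.cart.nonempty
  have hfO : f ∈ T.O := T.mem_of_red_ne_zero (fun i => by rw [hf]; exact one_ne_zero)
  have hf0 : f ≠ 0 := by
    rintro rfl
    rw [T.red_zero] at hf
    exact zero_ne_one (congrFun hf i₀)
  obtain ⟨y, hyL, hyO, rfl⟩ := hz
  have h1 : y ^ m * f ∈ riemannRochSpace (bipole K x (m * a) (m * b)) := by
    rw [bipole_smul]
    exact (mem_L_add_iff_pow_mul_mem hm hf0 hD _ y).1 hyL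
  have h2 : y ^ m * f ∈ T.O := T.O.mul_mem (T.O.pow_mem hyO m) hfO
  have h3 : T.red (y ^ m * f) = T.red y ^ m := by
    rw [T.red_mul (T.O.pow_mem hyO m) hfO, hf, mul_one, T.red_pow]
  have hab' : a₀ ≤ m * a + m * b := by
    have : a + b ≤ m * (a + b) := Nat.le_mul_of_pos_left _ hm
    rw [← mul_add]
    omega
  obtain ⟨hB, hG⟩ := (h.mem_iff (m * a) (m * b) hab' (T.red y ^ m)).1 ⟨_, h1, h2, h3⟩
  have hB' : BoundedBy k (T.red x) a b (T.red y) := by
    intro i
    have := hB i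
    rw [bipole_smul, Pi.pow_apply] at this
    exact mem_L_of_pow_mem hm this
  refine ⟨hB', fun e => ?_⟩
  have := hG e
  rw [Pi.pow_apply, Pi.pow_apply, Pi.one_apply, one_mul, ev_pow _ (hB'.ord₁ h.adapted e),
    ev_pow _ (hB'.ord₂ h.adapted e)] at this
  exact this

/-- step (2) of the structure theorem. -/
theorem Structure_step2 {T : MultiRed K F k Fb} {x : F} {N : NodeData k Fb E} {a₀ : ℕ}
    (h : IsPreNodal T x N a₀) {m : ℕ} (hm : (m : k) ≠ 0) {f : F} {D : Divisor K F}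
    (hD : divOf (K := K) f = m • D) (hf : T.red f = 1) {a b : ℕ} (hab : a₀ ≤ a + b) :
    ∃ δ : E → k, (∀ e, δ e ^ m = 1) ∧
      T.redSub (riemannRochSpace (bipole K x a b + D)) ≤ gluedSub N (T.red x) h.adapted δ a b := by
  have hm0 : 0 < m := Nat.pos_of_ne_zero (by rintro rfl; simp at hm)
  have key : ∀ e : E, ∃ d : k, d ^ m = 1 ∧
      ∀ z ∈ T.redSub (riemannRochSpace (bipole K x a b + D)),
        ev (N.p₁ e) (z (N.i₁ e)) = d * ev (N.p₂ e) (z (N.i₂ e)) := by
    intro e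
    let φ : T.redSub (riemannRochSpace (bipole K x a b + D)) →ₗ[k] k × k :=
      { toFun := fun z => (ev (N.p₁ e) (z.1 (N.i₁ e)), ev (N.p₂ e) (z.1 (N.i₂ e)))
        map_add' := by
          intro z w
          have hz := (Structure_step1 h hm0 hD hf hab z.2).1
          have hw := (Structure_step1 h hm0 hD hf hab w.2).1
          ext
          · exact ev_add _ (hz.ord₁ h.adapted e) (hw.ord₁ h.adapted e)
          · exact ev_add _ (hz.ord₂ h.adapted e) (hw.ord₂ h.adapted e)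
        map_smul' := by
          intro c z
          have hz := (Structure_step1 h hm0 hD hf hab z.2).1
          ext
          · exact ev_smul _ c (hz.ord₁ h.adapted e)
          · exact ev_smul _ c (hz.ord₂ h.adapted e) }
    obtain ⟨d, hd, hd'⟩ := exists_line_of_pow_eq hm (LinearMap.range φ) (by
      rintro _ ⟨z, rfl⟩
      exact (Structure_step1 h hm0 hD hf hab z.2).2 e)
    exact ⟨d, hd, fun z hz => hd' _ ⟨⟨z, hz⟩, rfl⟩⟩
  choose δ hδ hδ' using key
  exact ⟨δ, hδ, fun z hz => ⟨(Structure_step1 h hm0 hD hf hab hz).1, fun e => hδ' e z hz⟩⟩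

variable [Fintype ι] [Fintype E]

/-- glued families with value `1` at all the second branches. -/
theorem Structure_exists_unit (N : NodeData k Fb E) (xb : ∀ i, Fb i) (hN : N.Adapted xb) :
    ∃ a₂ : ℕ, ∀ a b : ℕ, a₂ ≤ a + b → ∀ δ : E → k,
      ∃ z ∈ gluedSub N xb hN δ a b, ∀ e, ev (N.p₂ e) (z (N.i₂ e)) = 1 := by
  classical
  have hfin : ∀ i, {P : Place k (Fb i) | (⟨i, P⟩ : Σ i, Place k (Fb i)) ∈ Set.range N.branch}.Finite :=
    fun i => Set.Finite.preimage (Function.Injective.injOn sigma_mk_injective)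
      (Set.finite_range N.branch)
  obtain ⟨a₂, h₂⟩ := exists_bounded_values xb hN.nonconst (fun i => (hfin i).toFinset) (by
    intro i P hP
    rw [Set.Finite.mem_toFinset] at hP
    obtain ⟨t, ht⟩ := hP
    rcases t with e | e
    · obtain ⟨rfl, h'⟩ := Sigma.mk.inj_iff.1 ht
      obtain rfl := eq_of_heq h'
      exact hN.unit₁ e
    · obtain ⟨rfl, h'⟩ := Sigma.mk.inj_iff.1 ht
      obtain rfl := eq_of_heq h'
      exact hN.unit₂ e)
  refine ⟨a₂, fun a b hab δ => ?_⟩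
  let val : ∀ i, Place k (Fb i) → k := fun i P =>
    if hh : ∃ e, N.branch (Sum.inl e) = ⟨i, P⟩ then δ hh.choose else 1
  have hval1 : ∀ e, val (N.i₁ e) (N.p₁ e) = δ e := by
    intro e
    have hh : ∃ e', N.branch (Sum.inl e') = ⟨N.i₁ e, N.p₁ e⟩ := ⟨e, rfl⟩
    have h1 : val (N.i₁ e) (N.p₁ e) = δ hh.choose := dif_pos hh
    have h2 : N.branch (Sum.inl hh.choose) = N.branch (Sum.inl e) := hh.choose_spec
    rw [h1, Sum.inl.inj (hN.inj h2)]
  have hval2 : ∀ e, val (N.i₂ e) (N.p₂ e) = 1 := by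
    intro e
    refine dif_neg ?_
    rintro ⟨e', he'⟩
    have h2 : N.branch (Sum.inl e') = N.branch (Sum.inr e) := he'
    exact Sum.inl_ne_inr (hN.inj h2)
  obtain ⟨z, hzB, hz⟩ := h₂ a b hab val
  have e1 : ∀ e, ev (N.p₁ e) (z (N.i₁ e)) = δ e := fun e => by
    rw [hz _ _ ((hfin _).mem_toFinset.2 ⟨Sum.inl e, rfl⟩), hval1]
  have e2 : ∀ e, ev (N.p₂ e) (z (N.i₂ e)) = 1 := fun e => by
    rw [hz _ _ ((hfin _).mem_toFinset.2 ⟨Sum.inr e, rfl⟩), hval2]
  exact ⟨z, ⟨hzB, fun e => by rw [e1, e2, mul_one]⟩, e2⟩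

/-- **Structure theorem.**
PROOF. Let `M(a,b) := redSub L(a X_∞ + b X_0 + D)`, `H(a,b) := redSub L(a X_∞ + b X_0) = gluedSub 1 a b` (`a + b ≥ a₀`).
(1) `z = red y ∈ M(a,b)` ⟹ `y ^ m f ∈ L(m a, m b) ∩ O` (`mem_L_add_iff_pow_mul_mem`, `bipole_smul`) with reduction `z ^ m`, so
`z ^ m ∈ H(m a, m b)`: `z` is bounded by `(a, b)` (`mem_L_of_pow_mem`) and `z(p₁ e) ^ m = z(p₂ e) ^ m` (`ev_pow`).
(2) for each `e` the image of `M(a,b)` under `z ↦ (z(p₁ e), z(p₂ e))` is a subspace of `k²`: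
`exists_line_of_pow_eq` gives `δ = δ(a,b)` with `M(a,b) ≤ gluedSub δ a b`.
(3) dimensions: `dim M(a,b) = ℓ(a X_∞ + b X_0 + D) = ℓ(a X_∞ + b X_0) = dim H(a,b) = dim gluedSub 1 a b = dim gluedSub δ a b`
(`h.cart`, `ell_bipole_add`, `finrank_gluedSub`), so `M(a,b) = gluedSub δ a b`.
(4) independence of `(a,b)`: `M(a,b) ≤ M(a',b')` for `a ≤ a'`, `b ≤ b'`, and `gluedSub δ a b` contains an element with `z(p₂ e) ≠ 0`
for all `e` (`exists_bounded_values`), so `δ(a,b) = δ(a',b')`; compare `(a,b)` and `(a',b')` with `(max, max)`. -/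
theorem exists_delta {T : MultiRed K F k Fb} {x : F} {N : NodeData k Fb E} {a₀ : ℕ}
    (h : IsPreNodal T x N a₀) {m : ℕ} (hm : (m : k) ≠ 0) {f : F} {D : Divisor K F}
    (hD : divOf (K := K) f = m • D) (hf : T.red f = 1) :
    ∃ (δ : E → k) (a₁ : ℕ), (∀ e, δ e ^ m = 1) ∧ ∀ a b : ℕ, a₁ ≤ a + b →
      T.redSub (riemannRochSpace (bipole K x a b + D)) = gluedSub N (T.red x) h.adapted δ a b := by
  have hm0 : 0 < m := Nat.pos_of_ne_zero (by rintro rfl; simp at hm)
  obtain ⟨i₀⟩ := h.cart.nonempty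
  have hxnc : x ∉ Set.range (algebraMap K F) := by
    rintro ⟨c, rfl⟩
    exact h.nonconst i₀ ⟨T.redA c, (T.red_algebraMap c i₀).symm⟩
  have hx0 : x ≠ 0 := by
    rintro rfl
    exact hxnc ⟨0, map_zero _⟩
  have hdegD : Divisor.degree D = 0 := by
    have h1 : Divisor.degree (m • D) = 0 := by rw [← hD, degree_divOf]
    rw [map_nsmul, nsmul_eq_mul] at h1
    exact (mul_eq_zero.1 h1).resolve_left (by exact_mod_cast hm0.ne')
  have hpos := degree_poleDiv_pos (k := K) hxnc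
  obtain ⟨a₂, h₂⟩ := finrank_gluedSub N (T.red x) h.adapted
  obtain ⟨a₃, h₃⟩ := Structure_exists_unit N (T.red x) h.adapted
  set a₁ : ℕ := max a₀ (max a₂ (max a₃ (2 * genusFF K F))) with ha₁
  have key : ∀ a b : ℕ, a₁ ≤ a + b → ∃ δ : E → k, (∀ e, δ e ^ m = 1) ∧
      T.redSub (riemannRochSpace (bipole K x a b + D)) =
        gluedSub N (T.red x) h.adapted δ a b := by
    intro a b hab
    have hab0 : a₀ ≤ a + b := le_trans (le_max_left _ _) hab
    have hab2 : a₂ ≤ a + b := le_trans (le_trans (le_max_left _ _) (le_max_right _ _)) hab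
    have habg : 2 * genusFF K F ≤ a + b :=
      le_trans (le_trans (le_trans (le_max_right _ _) (le_max_right _ _)) (le_max_right _ _)) hab
    obtain ⟨δ, hδ, hle⟩ := Structure_step2 h hm hD hf hab0
    refine ⟨δ, hδ, ?_⟩
    have hlarge : 2 * (genusFF K F : ℤ) - 2 <
        ((a : ℤ) + b) * Divisor.degree (poleDiv (K := K) x) := by
      have h1 : (2 * (genusFF K F : ℤ)) ≤ (a : ℤ) + b := by exact_mod_cast habg
      have h2 : (a : ℤ) + b ≤ ((a : ℤ) + b) * Divisor.degree (poleDiv (K := K) x) := by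
        have h3 : (0 : ℤ) ≤ (a : ℤ) + b := by positivity
        nlinarith
      omega
    have hc1 : Module.finrank k (T.redSub (riemannRochSpace (bipole K x a b + D))) =
        ell (bipole K x a b + D) := h.cart _ inferInstance
    have hc0 : Module.finrank k (T.redSub (riemannRochSpace (bipole K x a b))) =
        ell (bipole K x a b) := h.cart _ inferInstance
    have e1 := ell_bipole_add hx0 D hdegD a b hlarge
    have e0 := ell_bipole_add hx0 (0 : Divisor K F) (map_zero _) a b hlarge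
    rw [add_zero] at e0
    rw [h.redSub_eq hab0] at hc0
    have g1 := (h₂ 1 a b hab2).2
    have gδ := (h₂ δ a b hab2).2
    have := (h₂ δ a b hab2).1
    refine Submodule.eq_of_le_of_finrank_eq hle ?_
    have : (Module.finrank k (T.redSub (riemannRochSpace (bipole K x a b + D))) : ℤ) =
        Module.finrank k (gluedSub N (T.red x) h.adapted δ a b) := by
      rw [hc1, e1, ← e0, ← hc0, g1, gδ]
    exact_mod_cast this
  have mono : ∀ (a b a' b' : ℕ) (δ δ' : E → k), a₁ ≤ a + b → a ≤ a' → b ≤ b' →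
      T.redSub (riemannRochSpace (bipole K x a b + D)) =
        gluedSub N (T.red x) h.adapted δ a b →
      T.redSub (riemannRochSpace (bipole K x a' b' + D)) =
        gluedSub N (T.red x) h.adapted δ' a' b' → δ = δ' := by
    intro a b a' b' δ δ' hab ha hb e e'
    have hab3 : a₃ ≤ a + b :=
      le_trans (le_trans (le_trans (le_max_left _ _) (le_max_right _ _)) (le_max_right _ _)) hab
    obtain ⟨z, hz, hz1⟩ := h₃ a b hab3 δ
    have hz' : z ∈ gluedSub N (T.red x) h.adapted δ' a' b' := by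
      rw [← e']
      refine T.redSub_mono (L_mono ?_) (e ▸ hz)
      exact add_le_add_left (bipole_mono x ha hb) D
    funext t
    have h1 := hz.2 t
    have h2 := hz'.2 t
    rw [hz1 t, mul_one] at h1 h2
    rw [← h1, h2]
  obtain ⟨δ₀, hδ₀, e₀⟩ := key a₁ 0 (by omega)
  refine ⟨δ₀, a₁, hδ₀, fun a b hab => ?_⟩
  obtain ⟨δ, -, e⟩ := key a b hab
  obtain ⟨δ', -, e'⟩ := key (max a a₁) (max b 0) (by
    have := le_max_left a a₁
    have := le_max_left b 0
    omega)
  have h1 := mono a b _ _ δ δ' hab (le_max_left _ _) (le_max_left _ _) e e'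
  have h2 := mono a₁ 0 _ _ δ₀ δ' (by omega) (le_max_right _ _) (le_max_right _ _) e₀ e'
  rw [e, h1, ← h2]

end Fermat.Agent.DR.Abs
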